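import Fermat.Agent.Lib.Kummer.Defs

/-!
# Basic consequences of `Setup`
-/

set_option autoImplicit false

namespace Fermat.Agent.Lib.Kummer

open Polynomial Finset

namespace Setup

variable {R : Type*} [CommRing R] [IsDomain R] {p : ℕ} {ζ : R}

theorem p_pos (S : Setup R p ζ) : 0 < p := S.prime_p.pos

theorem p_ne_zero (S : Setup R p ζ) : p ≠ 0 := S.prime_p.ne_zero

theorem odd_p (S : Setup R p ζ) : Odd p :=
  S.prime_p.odd_of_ne_two (by have := S.three_le; omega)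

theorem lam_ne_zero (S : Setup R p ζ) : ζ - 1 ≠ 0 := S.prime_lam.ne_zero

theorem zeta_pow (S : Setup R p ζ) : ζ ^ p = 1 := S.prim.pow_eq_one

theorem isUnit_zeta (S : Setup R p ζ) : IsUnit ζ := S.prim.isUnit S.p_ne_zero

/-- `p` is divisible by `λ ^ (p - 1)`. -/
theorem lam_pow_dvd_p (S : Setup R p ζ) : (ζ - 1) ^ (p - 1) ∣ (p : R) := S.assoc.dvd

theorem p_dvd_lam_pow (S : Setup R p ζ) : (p : R) ∣ (ζ - 1) ^ (p - 1) := S.assoc.symm.dvd

theorem p_dvd_lam_pow_p (S : Setup R p ζ) : (p : R) ∣ (ζ - 1) ^ p :=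
  S.p_dvd_lam_pow.trans (pow_dvd_pow _ (Nat.sub_le _ _))

theorem lam_dvd_p (S : Setup R p ζ) : (ζ - 1) ∣ (p : R) := by
  have := (S.lam_dvd_int (p : ℤ)).2 dvd_rfl
  simpa using this

/-- Every element is congruent to a rational integer modulo `λ`. -/
theorem exists_int (S : Setup R p ζ) (x : R) : ∃ n : ℤ, (ζ - 1) ∣ x - n := by
  obtain ⟨f, rfl⟩ := S.exists_poly x
  refine ⟨f.eval 1, ?_⟩
  have h := sub_dvd_eval_sub ζ 1 (f.map (Int.castRingHom R))
  rw [eval_map, eval_map] at h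
  have h1 : eval₂ (Int.castRingHom R) 1 f = ((f.eval 1 : ℤ) : R) := by
    have := Polynomial.hom_eval₂ f (RingHom.id ℤ) (Int.castRingHom R) 1
    simp only [RingHom.comp_id, map_one, eq_intCast] at this
    rw [← this, eval₂_id]
  rw [h1] at h
  simpa [aeval_def] using h

theorem not_lam_dvd_int (S : Setup R p ζ) {x : R} {n : ℤ} (hx : ¬ (ζ - 1) ∣ x)
    (h : (ζ - 1) ∣ x - n) : ¬ (p : ℤ) ∣ n := by
  intro hn
  apply hx
  have := (S.lam_dvd_int n).2 hn
  simpa using dvd_add h this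

/-- The geometric sum `1 + ζ + ... + ζ^(i-1)` is congruent to `i` modulo `λ`. -/
theorem lam_dvd_geom_sum_sub (ζ : R) (i : ℕ) : (ζ - 1) ∣ (∑ j ∈ range i, ζ ^ j) - (i : R) := by
  have : (∑ j ∈ range i, ζ ^ j) - (i : R) = ∑ j ∈ range i, (ζ ^ j - 1) := by
    simp [Finset.sum_sub_distrib]
  rw [this]
  refine Finset.dvd_sum fun j _ => ?_
  simpa using sub_dvd_pow_sub_pow ζ 1 j

theorem lam_dvd_root_sub_one (S : Setup R p ζ) {η : R} (hη : η ∈ nthRootsFinset p (1 : R)) :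
    (ζ - 1) ∣ η - 1 :=
  S.prim.sub_one_dvd_sub S.prime_p hη (one_mem_nthRootsFinset S.p_pos)

/-- If `x ≡ y mod λ` then `x ^ p ≡ y ^ p mod λ ^ p`. -/
theorem lam_pow_dvd_pow_sub_pow (S : Setup R p ζ) {x y : R} (h : (ζ - 1) ∣ x - y) :
    (ζ - 1) ^ p ∣ x ^ p - y ^ p := by
  rw [S.prim.pow_sub_pow_eq_prod_sub_mul x y S.p_pos]
  have hc : (ζ - 1) ^ p = ∏ _η ∈ nthRootsFinset p (1 : R), (ζ - 1) := by
    rw [Finset.prod_const, S.prim.card_nthRootsFinset]
  rw [hc]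
  refine Finset.prod_dvd_prod_of_dvd _ _ fun η hη => ?_
  have h1 := S.lam_dvd_root_sub_one hη
  have : x - η * y = (x - y) - (η - 1) * y := by ring
  rw [this]
  exact dvd_sub h (h1.mul_right y)

theorem isUnit_one_add_zeta (S : Setup R p ζ) : IsUnit (1 + ζ) := by
  have h2 : (2 : ℕ).Coprime p :=
    (Nat.coprime_primes Nat.prime_two S.prime_p).2 (by have := S.three_le; omega)
  have := S.prim.geom_sum_isUnit S.prime_p.two_le h2
  simpa [Finset.sum_range_succ] using this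

/-- An integer prime to `p` is invertible modulo `p`. -/
theorem exists_int_inverse (S : Setup R p ζ) {n : ℤ} (hn : ¬ (p : ℤ) ∣ n) :
    ∃ k l : ℤ, k * n = 1 + p * l := by
  have hp : Prime (p : ℤ) := Nat.prime_iff_prime_int.1 S.prime_p
  have hc : IsCoprime n (p : ℤ) := ((hp.coprime_iff_not_dvd).2 hn).symm
  obtain ⟨a, b, hab⟩ := hc
  exact ⟨a, -b, by linear_combination hab⟩

end Setup

end Fermat.Agent.Lib.Kummer
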