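import Fermat.Agent.Lib.Kummer.Basic

/-!
# The second case of FLT over an abstract `ℤ[ζ_p]` which is a PID and satisfies Kummer's lemma
-/

set_option autoImplicit false

namespace Fermat.Agent.Lib.Kummer

open Polynomial Finset

variable {R : Type*} [CommRing R] [IsDomain R] {p : ℕ} {ζ : R}

/-- The data of a solution of `x ^ p + y ^ p = ε * (λ ^ (m + 1) * z) ^ p`. -/
def Sol (R : Type*) [CommRing R] (p : ℕ) (ζ : R) (m : ℕ) : Prop :=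
  ∃ (x y z : R) (ε : Rˣ), ¬ (ζ - 1) ∣ x ∧ ¬ (ζ - 1) ∣ y ∧ ¬ (ζ - 1) ∣ z ∧ IsCoprime x y ∧
    x ^ p + y ^ p = ε * ((ζ - 1) ^ (m + 1) * z) ^ p

theorem prime_pow_mul_eq {π A B : R} (hπ : Prime π) {i j : ℕ} (hA : ¬ π ∣ A) (hB : ¬ π ∣ B)
    (h : π ^ i * A = π ^ j * B) : i = j := by
  rcases lt_trichotomy i j with hij | hij | hij
  · exfalso
    obtain ⟨k, rfl⟩ := Nat.exists_eq_add_of_lt hij
    apply hA
    have : π ^ i * A = π ^ i * (π * (π ^ k * B)) := by rw [h]; ring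
    exact ⟨_, mul_left_cancel₀ (pow_ne_zero i hπ.ne_zero) this⟩
  · exact hij
  · exfalso
    obtain ⟨k, rfl⟩ := Nat.exists_eq_add_of_lt hij
    apply hB
    have : π ^ j * B = π ^ j * (π * (π ^ k * A)) := by rw [← h]; ring
    exact ⟨_, mul_left_cancel₀ (pow_ne_zero j hπ.ne_zero) this⟩

namespace Setup

/-- `λ` divides all the factors `x + η y`. -/
theorem lam_dvd_all (S : Setup R p ζ) {x y : R} (h : (ζ - 1) ∣ x ^ p + y ^ p)
    {η : R} (hη : η ∈ nthRootsFinset p (1 : R)) : (ζ - 1) ∣ x + η * y := by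
  rw [S.prim.pow_add_pow_eq_prod_add_mul x y S.odd_p] at h
  obtain ⟨η0, hη0, hd⟩ := S.prime_lam.exists_mem_finset_dvd h
  have h1 := S.prim.sub_one_dvd_sub S.prime_p hη hη0
  have : x + η * y = (x + η0 * y) + (η - η0) * y := by ring
  rw [this]
  exact dvd_add hd (h1.mul_right y)

/-- Some factor `x + η y` is divisible by `λ ^ 2`. -/
theorem exists_lam_sq_dvd (S : Setup R p ζ) {x y : R} (hy : ¬ (ζ - 1) ∣ y)
    (h : (ζ - 1) ∣ x + y) : ∃ η ∈ nthRootsFinset p (1 : R), (ζ - 1) ^ 2 ∣ x + η * y := by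
  obtain ⟨t, ht⟩ := h
  obtain ⟨nt, hnt⟩ := S.exists_int t
  obtain ⟨ny, hny⟩ := S.exists_int y
  have hpy : ¬ (p : ℤ) ∣ ny := S.not_lam_dvd_int hy hny
  obtain ⟨k, l, hkl⟩ := S.exists_int_inverse hpy
  -- choose `i ≡ - nt * k mod p`, `i ≥ 0`
  obtain ⟨i, hi⟩ : ∃ i : ℕ, (p : ℤ) ∣ nt + i * ny := by
    refine ⟨((- nt * k) % p).toNat, ?_⟩
    have hp0 : (0 : ℤ) < p := by exact_mod_cast S.p_pos
    rw [Int.toNat_of_nonneg (Int.emod_nonneg _ hp0.ne')]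
    have h1 : (p : ℤ) ∣ (- nt * k) % p - (- nt * k) := by
      refine ⟨-((- nt * k) / p), ?_⟩
      have := Int.emod_add_mul_ediv (- nt * k) p
      linarith
    obtain ⟨c, hc⟩ := h1
    refine ⟨c * ny - nt * l, ?_⟩
    have : (- nt * k) % p = (- nt * k) + p * c := by linarith
    rw [this]
    linear_combination (-nt) * hkl
  refine ⟨ζ ^ i, ?_, ?_⟩
  · rw [mem_nthRootsFinset S.p_pos, ← pow_mul, mul_comm, pow_mul, S.zeta_pow, one_pow]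
  · have hg := lam_dvd_geom_sum_sub ζ i
    set g := ∑ j ∈ range i, ζ ^ j with hgdef
    have e1 : x + ζ ^ i * y = (ζ - 1) * (t + g * y) := by
      have := mul_geom_sum ζ i
      rw [← hgdef] at this
      linear_combination ht - y * this
    rw [e1, pow_two]
    refine mul_dvd_mul_left _ ?_
    have e2 : t + g * y = (t - nt) + (g - i) * y + i * (y - ny) + ((nt + i * ny : ℤ) : R) := by
      push_cast; ring
    rw [e2]
    exact dvd_add (dvd_add (dvd_add hnt (hg.mul_right _)) (hny.mul_left _))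
      ((S.lam_dvd_int _).2 hi)

/-- The quotients `(x + η y) / λ` are pairwise coprime. -/
theorem quot_coprime (S : Setup R p ζ) {x y : R} (hxy : IsCoprime x y) {a : R → R}
    (ha : ∀ η ∈ nthRootsFinset p (1 : R), x + η * y = (ζ - 1) * a η)
    {η₁ η₂ : R} (h₁ : η₁ ∈ nthRootsFinset p (1 : R)) (h₂ : η₂ ∈ nthRootsFinset p (1 : R))
    (hne : η₁ ≠ η₂) : IsCoprime (a η₁) (a η₂) := by
  obtain ⟨v, hv⟩ := S.prim.nthRootsFinset_pairwise_associated_sub_one_sub_of_prime S.prime_p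
    h₁ h₂ hne
  have e1 : a η₁ - a η₂ = v * y := by
    apply mul_left_cancel₀ S.lam_ne_zero
    linear_combination (ha η₁ h₁).symm - (ha η₂ h₂).symm - y * hv
  have e2 : η₂ * a η₁ - η₁ * a η₂ = - (v * x) := by
    apply mul_left_cancel₀ S.lam_ne_zero
    linear_combination η₂ * (ha η₁ h₁).symm - η₁ * (ha η₂ h₂).symm + x * hv
  obtain ⟨r, s, hrs⟩ := hxy
  have hv1 : (v : R) * ((v⁻¹ : Rˣ) : R) = 1 := by simp
  refine ⟨(- r * η₂ + s) * ((v⁻¹ : Rˣ) : R), (r * η₁ - s) * ((v⁻¹ : Rˣ) : R), ?_⟩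
  linear_combination hrs + (- r * ((v⁻¹ : Rˣ) : R)) * e2 + (s * ((v⁻¹ : Rˣ) : R)) * e1
    + (r * x + s * y) * hv1

/-- If `λ ^ 2 ∣ x + y`, the other quotients are prime to `λ`. -/
theorem quot_not_dvd (S : Setup R p ζ) {x y : R} (hy : ¬ (ζ - 1) ∣ y)
    (h2 : (ζ - 1) ^ 2 ∣ x + y) {a : R → R}
    (ha : ∀ η ∈ nthRootsFinset p (1 : R), x + η * y = (ζ - 1) * a η)
    {η : R} (hη : η ∈ nthRootsFinset p (1 : R)) (hne : η ≠ 1) : ¬ (ζ - 1) ∣ a η := by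
  rintro ⟨b, hb⟩
  obtain ⟨v, hv⟩ := S.prim.nthRootsFinset_pairwise_associated_sub_one_sub_of_prime S.prime_p
    hη (one_mem_nthRootsFinset S.p_pos) hne
  obtain ⟨c, hc⟩ := h2
  apply hy
  have hv1 : ((v⁻¹ : Rˣ) : R) * (v : R) = 1 := by simp
  refine ⟨((v⁻¹ : Rˣ) : R) * (b - c), ?_⟩
  apply mul_left_cancel₀ S.lam_ne_zero
  have h3 := ha η hη
  rw [hb] at h3
  linear_combination (- (ζ - 1) * y) * hv1 + ((v⁻¹ : Rˣ) : R) * (h3 - hc) + (((v⁻¹ : Rˣ) : R) * y) * hv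

/-- The product of the quotients. -/
theorem quot_prod (S : Setup R p ζ) {x y z : R} {ε : Rˣ} {m : ℕ}
    (h : x ^ p + y ^ p = ε * ((ζ - 1) ^ (m + 1) * z) ^ p) {a : R → R}
    (ha : ∀ η ∈ nthRootsFinset p (1 : R), x + η * y = (ζ - 1) * a η) :
    ∏ η ∈ nthRootsFinset p (1 : R), a η = ε * ((ζ - 1) ^ m * z) ^ p := by
  apply mul_left_cancel₀ (pow_ne_zero p S.lam_ne_zero)
  have h1 : (ζ - 1) ^ p * ∏ η ∈ nthRootsFinset p (1 : R), a η
      = ∏ η ∈ nthRootsFinset p (1 : R), (x + η * y) := by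
    rw [Finset.prod_congr rfl ha, Finset.prod_mul_distrib, Finset.prod_const,
      S.prim.card_nthRootsFinset]
  rw [h1, ← S.prim.pow_add_pow_eq_prod_add_mul x y S.odd_p, h, pow_succ, mul_pow, mul_pow, mul_pow]
  ring

/-- Each quotient is associated to a `p`-th power. -/
theorem quot_assoc_pow [IsPrincipalIdealRing R] {a : R → R} {c : R} {ε : Rˣ}
    (hprod : ∏ η ∈ nthRootsFinset p (1 : R), a η = ε * c ^ p)
    (hcop : ∀ η₁ ∈ nthRootsFinset p (1 : R), ∀ η₂ ∈ nthRootsFinset p (1 : R), η₁ ≠ η₂ →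
      IsCoprime (a η₁) (a η₂))
    {η : R} (hη : η ∈ nthRootsFinset p (1 : R)) : ∃ d, Associated (d ^ p) (a η) := by
  classical
  rw [← Finset.mul_prod_erase _ a hη] at hprod
  refine exists_associated_pow_of_associated_pow_mul (c := c)
    (b := ∏ η' ∈ (nthRootsFinset p (1 : R)).erase η, a η') ?_ ?_
  · exact IsCoprime.prod_right fun η' hη' =>
      hcop η hη η' (Finset.mem_of_mem_erase hη') (Finset.ne_of_mem_erase hη').symm
  · exact ⟨ε, by rw [hprod]; ring⟩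

theorem descent_aux [IsPrincipalIdealRing R] (S : Setup R p ζ) (KL : KummerLemma R p) {m : ℕ}
    {x y z : R} {ε : Rˣ} (hy : ¬ (ζ - 1) ∣ y) (hz : ¬ (ζ - 1) ∣ z)
    (hxy : IsCoprime x y) (h : x ^ p + y ^ p = ε * ((ζ - 1) ^ (m + 1) * z) ^ p)
    (h2 : (ζ - 1) ^ 2 ∣ x + y) : ∃ m', m = m' + 1 ∧ Sol R p ζ m' := by
  classical
  have hdvd : (ζ - 1) ∣ x ^ p + y ^ p := by
    rw [h]
    exact Dvd.dvd.mul_left (dvd_pow (Dvd.dvd.mul_right (dvd_pow_self _ (Nat.succ_ne_zero m)) z)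
      S.p_ne_zero) _
  have hall : ∀ η ∈ nthRootsFinset p (1 : R), (ζ - 1) ∣ x + η * y :=
    fun η hη => S.lam_dvd_all hdvd hη
  choose! a ha using hall
  have hprod := S.quot_prod h ha
  have hcop : ∀ η₁ ∈ nthRootsFinset p (1 : R), ∀ η₂ ∈ nthRootsFinset p (1 : R), η₁ ≠ η₂ →
      IsCoprime (a η₁) (a η₂) := fun η₁ h₁ η₂ h₂ hne => S.quot_coprime hxy ha h₁ h₂ hne
  have hnd : ∀ η ∈ nthRootsFinset p (1 : R), η ≠ 1 → ¬ (ζ - 1) ∣ a η :=
    fun η hη hne => S.quot_not_dvd hy h2 ha hη hne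
  have h1mem : (1 : R) ∈ nthRootsFinset p (1 : R) := one_mem_nthRootsFinset S.p_pos
  -- `λ ∣ a 1`
  have hla1 : (ζ - 1) ∣ a 1 := by
    obtain ⟨c, hc⟩ := h2
    refine ⟨c, mul_left_cancel₀ S.lam_ne_zero ?_⟩
    have := ha 1 h1mem
    linear_combination -this + hc
  have hsplit : a 1 * ∏ η ∈ (nthRootsFinset p (1 : R)).erase 1, a η
      = ε * ((ζ - 1) ^ m * z) ^ p := by
    rw [Finset.mul_prod_erase _ _ h1mem, hprod]
  have hrest : ¬ (ζ - 1) ∣ ∏ η ∈ (nthRootsFinset p (1 : R)).erase 1, a η := by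
    intro hd
    obtain ⟨η, hη, hd'⟩ := S.prime_lam.exists_mem_finset_dvd hd
    exact hnd η (Finset.mem_of_mem_erase hη) (Finset.ne_of_mem_erase hη) hd'
  -- `m ≥ 1`
  obtain ⟨m', rfl⟩ : ∃ m', m = m' + 1 := by
    rcases m with _ | m'
    · exfalso
      apply hz
      have h3 : (ζ - 1) ∣ ε * ((ζ - 1) ^ 0 * z) ^ p := hsplit ▸ hla1.mul_right _
      rw [pow_zero, one_mul] at h3
      exact S.prime_lam.dvd_of_dvd_pow ((Units.dvd_mul_left).1 (by rwa [mul_comm] at h3))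
    · exact ⟨m', rfl⟩
  refine ⟨m', rfl, ?_⟩
  have hζmem : ζ ∈ nthRootsFinset p (1 : R) := S.prim.mem_nthRootsFinset S.p_pos
  have hζ'mem : ζ ^ (p - 1) ∈ nthRootsFinset p (1 : R) := by
    rw [mem_nthRootsFinset S.p_pos, ← pow_mul, mul_comm, pow_mul, S.zeta_pow, one_pow]
  have hp3 := S.three_le
  have hζζ' : ζ * ζ ^ (p - 1) = 1 := by
    rw [← pow_succ', Nat.sub_add_cancel S.p_pos, S.zeta_pow]
  have hζ1 : ζ ≠ 1 := S.prim.ne_one (by omega)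
  have hζ'1 : ζ ^ (p - 1) ≠ 1 := by
    intro h'
    rw [h', mul_one] at hζζ'
    exact hζ1 hζζ'
  have hζζ'ne : ζ ≠ ζ ^ (p - 1) := by
    intro h'
    have h4 : ζ ^ 2 = 1 := by rw [pow_two]; nth_rewrite 2 [h']; exact hζζ'
    have := S.prim.dvd_of_pow_eq_one 2 h4
    have := Nat.le_of_dvd (by norm_num) this
    omega
  obtain ⟨ρ₀, u₀, hρ₀⟩ := quot_assoc_pow hprod hcop h1mem
  obtain ⟨ρ₁, u₁, hρ₁⟩ := quot_assoc_pow hprod hcop hζmem
  obtain ⟨ρ₂, u₂, hρ₂⟩ := quot_assoc_pow hprod hcop hζ'mem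
  have hz0 : z ≠ 0 := fun h0 => hz (h0 ▸ dvd_zero _)
  have hρ₀0 : ρ₀ ≠ 0 := by
    rintro rfl
    rw [zero_pow S.p_ne_zero, zero_mul] at hρ₀
    rw [← hρ₀, zero_mul] at hsplit
    have : (ε : R) * ((ζ - 1) ^ (m' + 1) * z) ^ p ≠ 0 :=
      mul_ne_zero ε.ne_zero (pow_ne_zero _ (mul_ne_zero (pow_ne_zero _ S.lam_ne_zero) hz0))
    exact this hsplit.symm
  obtain ⟨k, r, hr, hkr⟩ := WfDvdMonoid.max_power_factor hρ₀0 S.prime_lam.irreducible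
  have hk : k = m' + 1 := by
    have e : (ζ - 1) ^ (k * p) * (r ^ p * u₀ * ∏ η ∈ (nthRootsFinset p (1 : R)).erase 1, a η)
        = (ζ - 1) ^ ((m' + 1) * p) * (ε * z ^ p) := by
      rw [← hρ₀, hkr, mul_pow, mul_pow] at hsplit
      rw [pow_mul, pow_mul]
      linear_combination hsplit
    have hA : ¬ (ζ - 1) ∣ r ^ p * u₀ * ∏ η ∈ (nthRootsFinset p (1 : R)).erase 1, a η := by
      intro hd
      rcases S.prime_lam.dvd_or_dvd hd with hd | hd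
      · rw [Units.dvd_mul_right] at hd
        exact hr (S.prime_lam.dvd_of_dvd_pow hd)
      · exact hrest hd
    have hB : ¬ (ζ - 1) ∣ ε * z ^ p := by
      intro hd
      rw [mul_comm, Units.dvd_mul_right] at hd
      exact hz (S.prime_lam.dvd_of_dvd_pow hd)
    have := prime_pow_mul_eq S.prime_lam hA hB e
    exact Nat.eq_of_mul_eq_mul_right S.p_pos this
  subst hk
  -- the linear relation
  have hrel : a ζ + ζ * a (ζ ^ (p - 1)) = (1 + ζ) * a 1 := by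
    apply mul_left_cancel₀ S.lam_ne_zero
    linear_combination (- ha ζ hζmem) - ζ * ha _ hζ'mem + (1 + ζ) * ha 1 h1mem + y * hζζ'
  obtain ⟨ζu, hζu⟩ := S.isUnit_zeta
  obtain ⟨ωu, hωu⟩ := S.isUnit_one_add_zeta
  obtain ⟨ε₁, hε₁⟩ : ∃ ε₁ : Rˣ, ε₁ = ζu * u₂ * u₁⁻¹ := ⟨_, rfl⟩
  obtain ⟨ε₂, hε₂⟩ : ∃ ε₂ : Rˣ, ε₂ = ωu * u₀ * u₁⁻¹ := ⟨_, rfl⟩
  have hmain : ρ₁ ^ p + ε₁ * ρ₂ ^ p = ε₂ * ((ζ - 1) ^ (m' + 1) * r) ^ p := by
    rw [← hρ₁, ← hρ₂, ← hρ₀, hkr] at hrel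
    have hu : (u₁ : R) * ((u₁⁻¹ : Rˣ) : R) = 1 := by simp
    simp only [hε₁, hε₂, Units.val_mul, hζu, hωu]
    linear_combination ((u₁⁻¹ : Rˣ) : R) * hrel - (ρ₁ ^ p) * hu
  have hρ₁nd : ¬ (ζ - 1) ∣ ρ₁ := fun hd =>
    hnd ζ hζmem hζ1 (hρ₁ ▸ (dvd_pow hd S.p_ne_zero).mul_right _)
  have hρ₂nd : ¬ (ζ - 1) ∣ ρ₂ := fun hd =>
    hnd _ hζ'mem hζ'1 (hρ₂ ▸ (dvd_pow hd S.p_ne_zero).mul_right _)
  obtain ⟨n₁, hn₁⟩ := S.exists_int ρ₁
  obtain ⟨n₂, hn₂⟩ := S.exists_int ρ₂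
  have hpn₂ : ¬ (p : ℤ) ∣ n₂ := S.not_lam_dvd_int hρ₂nd hn₂
  have hpn₂' : ¬ (p : ℤ) ∣ n₂ ^ p := fun hd =>
    hpn₂ ((Nat.prime_iff_prime_int.1 S.prime_p).dvd_of_dvd_pow hd)
  obtain ⟨k, l, hkl⟩ := S.exists_int_inverse hpn₂'
  have hc1 := S.p_dvd_lam_pow_p.trans (S.lam_pow_dvd_pow_sub_pow hn₁)
  have hc2 := S.p_dvd_lam_pow_p.trans (S.lam_pow_dvd_pow_sub_pow hn₂)
  have hc3 : (p : R) ∣ ε₂ * ((ζ - 1) ^ (m' + 1) * r) ^ p := by
    refine S.p_dvd_lam_pow_p.trans (Dvd.dvd.mul_left ?_ _)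
    exact pow_dvd_pow_of_dvd (Dvd.dvd.mul_right (dvd_pow_self _ (Nat.succ_ne_zero m')) r) p
  have hKL : ∃ n : ℤ, (p : R) ∣ (ε₁ : R) - n := by
    refine ⟨- k * n₁ ^ p, ?_⟩
    have hkl' : (k : R) * (n₂ : R) ^ p = 1 + p * l := by exact_mod_cast congrArg (Int.cast : ℤ → R) hkl
    have e : (ε₁ : R) - ((- k * n₁ ^ p : ℤ) : R)
        = k * (ε₂ * ((ζ - 1) ^ (m' + 1) * r) ^ p) - k * (ρ₁ ^ p - (n₁ : R) ^ p)
          - k * ε₁ * (ρ₂ ^ p - (n₂ : R) ^ p) - p * (l * ε₁) := by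
      push_cast
      linear_combination (k : R) * hmain - (ε₁ : R) * hkl'
    rw [e]
    exact dvd_sub (dvd_sub (dvd_sub (hc3.mul_left _) (hc1.mul_left _)) (hc2.mul_left _))
      (dvd_mul_right _ _)
  obtain ⟨v, hv⟩ := KL ε₁ hKL
  refine ⟨ρ₁, v * ρ₂, r, ε₂, hρ₁nd, ?_, hr, ?_, ?_⟩
  · rwa [Units.dvd_mul_left]
  · have h5 := hcop ζ hζmem _ hζ'mem hζζ'ne
    rw [← hρ₁, ← hρ₂] at h5
    have h6 : IsCoprime (ρ₁ ^ p) (ρ₂ ^ p) :=
      (isCoprime_mul_unit_right_left u₁.isUnit _ _).1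
        ((isCoprime_mul_unit_right_right u₂.isUnit _ _).1 h5)
    have h7 : IsCoprime ρ₁ ρ₂ :=
      (IsCoprime.pow_left_iff S.p_pos).1 ((IsCoprime.pow_right_iff S.p_pos).1 h6)
    exact (isCoprime_mul_unit_left_right v.isUnit _ _).2 h7
  · rw [mul_pow, ← hmain, hv]
    push_cast
    ring

theorem descent [IsPrincipalIdealRing R] (S : Setup R p ζ) (KL : KummerLemma R p) {m : ℕ}
    (h : Sol R p ζ m) : ∃ m', m = m' + 1 ∧ Sol R p ζ m' := by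
  obtain ⟨x, y, z, ε, -, hy, hz, hxy, h⟩ := h
  have hdvd : (ζ - 1) ∣ x ^ p + y ^ p := by
    rw [h]
    exact Dvd.dvd.mul_left (dvd_pow (Dvd.dvd.mul_right (dvd_pow_self _ (Nat.succ_ne_zero m)) z)
      S.p_ne_zero) _
  have h1 : (ζ - 1) ∣ x + y := by
    simpa using S.lam_dvd_all hdvd (one_mem_nthRootsFinset S.p_pos)
  obtain ⟨η, hη, h2⟩ := S.exists_lam_sq_dvd hy h1
  have hηp : η ^ p = 1 := (mem_nthRootsFinset S.p_pos 1).1 hη
  have hηu : IsUnit η := IsUnit.of_pow_eq_one hηp S.p_ne_zero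
  refine S.descent_aux KL (x := x) (y := η * y) (z := z) (ε := ε) ?_ hz ?_ ?_ h2
  · rwa [hηu.dvd_mul_left]
  · exact (isCoprime_mul_unit_left_right hηu _ _).2 hxy
  · rw [mul_pow, hηp, one_mul, h]

theorem not_sol [IsPrincipalIdealRing R] (S : Setup R p ζ) (KL : KummerLemma R p) (m : ℕ) :
    ¬ Sol R p ζ m := by
  induction m with
  | zero =>
    intro h
    obtain ⟨m', hm', -⟩ := S.descent KL h
    omega
  | succ m ih =>
    intro h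
    obtain ⟨m', hm', h'⟩ := S.descent KL h
    obtain rfl : m = m' := by omega
    exact ih h'

end Setup

/-- **K-T4**: the generalised second case. -/
theorem caseIIGen_of_kummerLemma [IsPrincipalIdealRing R] (S : Setup R p ζ)
    (KL : KummerLemma R p) : CaseIIGen R p ζ := by
  intro x y z ε hz0 hx hy hz hxy h
  obtain ⟨k, r, hr, hkr⟩ := WfDvdMonoid.max_power_factor hz0 S.prime_lam.irreducible
  rcases k with _ | k
  · rw [pow_zero, one_mul] at hkr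
    exact hr (hkr ▸ hz)
  · exact S.not_sol KL k ⟨x, y, r, ε, hx, hy, hr, hxy, by rw [h, hkr]⟩

theorem caseII_of_caseIIGen [CharZero R] (S : Setup R p ζ) (h : CaseIIGen R p ζ) : CaseII p := by
  intro a b c hc ha hb hpc hab H
  refine h a b c 1 (by exact_mod_cast hc) ?_ ?_ ?_ ?_ ?_
  · rwa [S.lam_dvd_int]
  · rwa [S.lam_dvd_int]
  · rwa [S.lam_dvd_int]
  · exact IsCoprime.intCast hab
  · simpa using mod_cast congrArg (Int.cast : ℤ → R) H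

end Fermat.Agent.Lib.Kummer
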