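import Fermat.Agent.Lib.Kummer.CertBasic

/-!
# Unit certificate for `p = 11` (generated)
-/

set_option autoImplicit false
set_option linter.unusedSimpArgs false

namespace Fermat.Agent.Lib.Kummer.Cert

open Polynomial

private lemma lin11 (c0 c1 c2 c3 c4 : ℤ)
    (h0 : (11 : ℤ) ∣ 120 * c0 + 60 * c1 + 120 * c2 + 180 * c3 + 240 * c4)
    (h1 : (11 : ℤ) ∣ 600 * c0 + 330 * c1 + 680 * c2 + 1050 * c3 + 1440 * c4)
    (h2 : (11 : ℤ) ∣ 1450 * c0 + 860 * c1 + 1810 * c2 + 2850 * c3 + 3980 * c4)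
    (h3 : (11 : ℤ) ∣ 2200 * c0 + 1395 * c1 + 2980 * c2 + 4745 * c3 + 6676 * c4)
    (h4 : (11 : ℤ) ∣ 2299 * c0 + 1552 * c1 + 3349 * c2 + 5356 * c3 + 7524 * c4)
    (h5 : (11 : ℤ) ∣ 1717 * c0 + 1232 * c1 + 2673 * c2 + 4268 * c3 + 5950 * c4)
    (h6 : (11 : ℤ) ∣ 923 * c0 + 704 * c1 + 1528 * c2 + 2422 * c3 + 3341 * c4)
    (h7 : (11 : ℤ) ∣ 351 * c0 + 285 * c1 + 615 * c2 + 963 * c3 + 1314 * c4)
    (h8 : (11 : ℤ) ∣ 90 * c0 + 78 * c1 + 166 * c2 + 256 * c3 + 346 * c4)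
    : (11 : ℤ) ∣ c0 ∧ (11 : ℤ) ∣ c1 ∧ (11 : ℤ) ∣ c2 ∧ (11 : ℤ) ∣ c3 ∧ (11 : ℤ) ∣ c4 := by
  obtain ⟨t0, h0⟩ := h0
  obtain ⟨t1, h1⟩ := h1
  obtain ⟨t2, h2⟩ := h2
  obtain ⟨t3, h3⟩ := h3
  obtain ⟨t4, h4⟩ := h4
  obtain ⟨t5, h5⟩ := h5
  obtain ⟨t6, h6⟩ := h6
  obtain ⟨t7, h7⟩ := h7
  obtain ⟨t8, h8⟩ := h8
  refine ⟨?_, ?_, ?_, ?_, ?_⟩
  · exact ⟨5 * t1 + 10 * t3 + 6 * t5 + 2 * t7 - (3273 * c0 + 2142 * c1 + 4588 * c2 + 7294 * c3 + 10208 * c4), by linear_combination 5 * h1 + 10 * h3 + 6 * h5 + 2 * h7⟩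
  · exact ⟨8 * t0 + 3 * t1 + 9 * t3 + 10 * t7 - (2370 * c0 + 1534 * c1 + 3270 * c2 + 5175 * c3 + 7224 * c4), by linear_combination 8 * h0 + 3 * h1 + 9 * h3 + 10 * h7⟩
  · exact ⟨1 * t0 + 10 * t1 + 5 * t3 + 2 * t5 + 6 * t7 - (2060 * c0 + 1319 * c1 + 2805 * c2 + 4429 * c3 + 6164 * c4), by linear_combination 1 * h0 + 10 * h1 + 5 * h3 + 2 * h5 + 6 * h7⟩
  · exact ⟨7 * t0 + 8 * t1 + 3 * t3 + 10 * t5 + 7 * t7 - (2897 * c0 + 1960 * c1 + 4205 * c2 + 6665 * c3 + 9266 * c4), by linear_combination 7 * h0 + 8 * h1 + 3 * h3 + 10 * h5 + 7 * h7⟩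
  · exact ⟨5 * t1 + 10 * t3 + 5 * t5 + 2 * t7 - (3117 * c0 + 2030 * c1 + 4345 * c2 + 6906 * c3 + 9667 * c4), by linear_combination 5 * h1 + 10 * h3 + 5 * h5 + 2 * h7⟩

private theorem cert11 {R : Type*} [CommRing R] [IsDomain R] {ζ : R} (S : Setup R 11 ζ) :
    ∃ (η : Fin 5 → Rˣ) (w : Fin 5 → R), (∀ i, LD 11 ζ (η i : R) (w i)) ∧
      ∀ c : Fin 5 → ℤ, (ζ - 1) ^ 9 ∣ ∑ i, (c i : R) * w i → ∀ i, ((11 : ℕ) : ℤ) ∣ c i := by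
  obtain ⟨u0, hu0⟩ := exists_unit_zeta S
  obtain ⟨u1, hu1⟩ := exists_unit_geom S 2 (by norm_num)
  obtain ⟨u2, hu2⟩ := exists_unit_geom S 3 (by norm_num)
  obtain ⟨u3, hu3⟩ := exists_unit_geom S 4 (by norm_num)
  obtain ⟨u4, hu4⟩ := exists_unit_geom S 5 (by norm_num)
  simp only [Finset.sum_range_succ, Finset.sum_range_zero, zero_add, pow_zero, pow_one] at hu1
  simp only [Finset.sum_range_succ, Finset.sum_range_zero, zero_add, pow_zero, pow_one] at hu2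
  simp only [Finset.sum_range_succ, Finset.sum_range_zero, zero_add, pow_zero, pow_one] at hu3
  simp only [Finset.sum_range_succ, Finset.sum_range_zero, zero_add, pow_zero, pow_one] at hu4
  refine ⟨![u0, u1, u2, u3, u4], ![(1) * ((u0⁻¹ : Rˣ) : R), (1) * ((u1⁻¹ : Rˣ) : R), (1 + 2 * ζ) * ((u2⁻¹ : Rˣ) : R), (1 + 2 * ζ + 3 * ζ ^ 2) * ((u3⁻¹ : Rˣ) : R), (1 + 2 * ζ + 3 * ζ ^ 2 + 4 * ζ ^ 3) * ((u4⁻¹ : Rˣ) : R)], ?_, ?_⟩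
  · intro i
    fin_cases i
    · exact LD_unit X _ u0 (by simp [hu0]) (by simp)
    · exact LD_unit (∑ i ∈ Finset.range 2, X ^ i) _ u1
        (by simp only [Finset.sum_range_succ, Finset.sum_range_zero, zero_add, pow_zero, pow_one, map_add, map_one, map_pow, aeval_X, hu1])
        (by rw [aeval_derivative_geom]; norm_num [Finset.sum_range_succ])
    · exact LD_unit (∑ i ∈ Finset.range 3, X ^ i) _ u2
        (by simp only [Finset.sum_range_succ, Finset.sum_range_zero, zero_add, pow_zero, pow_one, map_add, map_one, map_pow, aeval_X, hu2])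
        (by rw [aeval_derivative_geom]; norm_num [Finset.sum_range_succ])
    · exact LD_unit (∑ i ∈ Finset.range 4, X ^ i) _ u3
        (by simp only [Finset.sum_range_succ, Finset.sum_range_zero, zero_add, pow_zero, pow_one, map_add, map_one, map_pow, aeval_X, hu3])
        (by rw [aeval_derivative_geom]; norm_num [Finset.sum_range_succ])
    · exact LD_unit (∑ i ∈ Finset.range 5, X ^ i) _ u4
        (by simp only [Finset.sum_range_succ, Finset.sum_range_zero, zero_add, pow_zero, pow_one, map_add, map_one, map_pow, aeval_X, hu4])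
        (by rw [aeval_derivative_geom]; norm_num [Finset.sum_range_succ])
  · intro c hc
    rw [Fin.sum_univ_five] at hc
    simp only [Matrix.cons_val] at hc
    have e0 : (ζ) * ((u0⁻¹ : Rˣ) : R) = 1 := by rw [← hu0]; exact Units.mul_inv u0
    have e1 : (1 + ζ) * ((u1⁻¹ : Rˣ) : R) = 1 := by rw [← hu1]; exact Units.mul_inv u1
    have e2 : (1 + ζ + ζ ^ 2) * ((u2⁻¹ : Rˣ) : R) = 1 := by rw [← hu2]; exact Units.mul_inv u2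
    have e3 : (1 + ζ + ζ ^ 2 + ζ ^ 3) * ((u3⁻¹ : Rˣ) : R) = 1 := by rw [← hu3]; exact Units.mul_inv u3
    have e4 : (1 + ζ + ζ ^ 2 + ζ ^ 3 + ζ ^ 4) * ((u4⁻¹ : Rˣ) : R) = 1 := by rw [← hu4]; exact Units.mul_inv u4
    generalize ((u0⁻¹ : Rˣ) : R) = v0 at hc e0
    generalize ((u1⁻¹ : Rˣ) : R) = v1 at hc e1
    generalize ((u2⁻¹ : Rˣ) : R) = v2 at hc e2
    generalize ((u3⁻¹ : Rˣ) : R) = v3 at hc e3
    generalize ((u4⁻¹ : Rˣ) : R) = v4 at hc e4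
    generalize hc0 : c 0 = c0 at hc
    generalize hc1 : c 1 = c1 at hc
    generalize hc2 : c 2 = c2 at hc
    generalize hc3 : c 3 = c3 at hc
    generalize hc4 : c 4 = c4 at hc
    have key : ((ζ) * (1 + ζ) * (1 + ζ + ζ ^ 2) * (1 + ζ + ζ ^ 2 + ζ ^ 3) * (1 + ζ + ζ ^ 2 + ζ ^ 3 + ζ ^ 4)) * ((c0 : R) * ((1) * v0) + (c1 : R) * ((1) * v1) + (c2 : R) * ((1 + 2 * ζ) * v2) + (c3 : R) * ((1 + 2 * ζ + 3 * ζ ^ 2) * v3) + (c4 : R) * ((1 + 2 * ζ + 3 * ζ ^ 2 + 4 * ζ ^ 3) * v4)) =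
        hEval (ζ - 1) [120 * c0 + 60 * c1 + 120 * c2 + 180 * c3 + 240 * c4, 600 * c0 + 330 * c1 + 680 * c2 + 1050 * c3 + 1440 * c4, 1450 * c0 + 860 * c1 + 1810 * c2 + 2850 * c3 + 3980 * c4, 2200 * c0 + 1395 * c1 + 2980 * c2 + 4745 * c3 + 6676 * c4, 2299 * c0 + 1552 * c1 + 3349 * c2 + 5356 * c3 + 7524 * c4, 1717 * c0 + 1232 * c1 + 2673 * c2 + 4268 * c3 + 5950 * c4, 923 * c0 + 704 * c1 + 1528 * c2 + 2422 * c3 + 3341 * c4, 351 * c0 + 285 * c1 + 615 * c2 + 963 * c3 + 1314 * c4, 90 * c0 + 78 * c1 + 166 * c2 + 256 * c3 + 346 * c4, 14 * c0 + 13 * c1 + 27 * c2 + 41 * c3 + 55 * c4, c0 + c1 + 2 * c2 + 3 * c3 + 4 * c4] := by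
      simp only [hEval_cons, hEval_nil]
      push_cast
      linear_combination ((c0 : R) * (1) * ((1 + ζ) * (1 + ζ + ζ ^ 2) * (1 + ζ + ζ ^ 2 + ζ ^ 3) * (1 + ζ + ζ ^ 2 + ζ ^ 3 + ζ ^ 4))) * e0 + ((c1 : R) * (1) * ((ζ) * (1 + ζ + ζ ^ 2) * (1 + ζ + ζ ^ 2 + ζ ^ 3) * (1 + ζ + ζ ^ 2 + ζ ^ 3 + ζ ^ 4))) * e1 + ((c2 : R) * (1 + 2 * ζ) * ((ζ) * (1 + ζ) * (1 + ζ + ζ ^ 2 + ζ ^ 3) * (1 + ζ + ζ ^ 2 + ζ ^ 3 + ζ ^ 4))) * e2 + ((c3 : R) * (1 + 2 * ζ + 3 * ζ ^ 2) * ((ζ) * (1 + ζ) * (1 + ζ + ζ ^ 2) * (1 + ζ + ζ ^ 2 + ζ ^ 3 + ζ ^ 4))) * e3 + ((c4 : R) * (1 + 2 * ζ + 3 * ζ ^ 2 + 4 * ζ ^ 3) * ((ζ) * (1 + ζ) * (1 + ζ + ζ ^ 2) * (1 + ζ + ζ ^ 2 + ζ ^ 3))) * e4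
    have hd := digits S _ 9 (by norm_num) (key ▸ Dvd.dvd.mul_left hc _)
    simp only [List.take_succ_cons, List.take_zero, List.mem_cons, List.not_mem_nil, or_false, forall_eq_or_imp, forall_eq] at hd
    obtain ⟨h0, h1, h2, h3, h4, h5, h6, h7, h8⟩ := hd
    obtain ⟨r0, r1, r2, r3, r4⟩ := lin11 c0 c1 c2 c3 c4 h0 h1 h2 h3 h4 h5 h6 h7 h8
    intro i
    fin_cases i
    · exact hc0 ▸ r0
    · exact hc1 ▸ r1
    · exact hc2 ▸ r2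
    · exact hc3 ▸ r3
    · exact hc4 ▸ r4

theorem _root_.Fermat.Agent.Lib.Kummer.unitCertificate_eleven {R : Type*} [CommRing R] [IsDomain R] {ζ : R}
    (S : Setup R 11 ζ) : UnitCertificate R 11 ζ :=
  cert11 S
end Fermat.Agent.Lib.Kummer.Cert
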