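import Fermat.Agent.Lib.Kummer.CertBasic

/-!
# Unit certificate for `p = 13` (generated)
-/

set_option autoImplicit false
set_option linter.unusedSimpArgs false

namespace Fermat.Agent.Lib.Kummer.Cert

open Polynomial

private lemma lin13 (c0 c1 c2 c3 c4 c5 : ℤ)
    (h0 : (13 : ℤ) ∣ 720 * c0 + 360 * c1 + 720 * c2 + 1080 * c3 + 1440 * c4 + 1800 * c5)
    (h1 : (13 : ℤ) ∣ 5400 * c0 + 2880 * c1 + 5880 * c2 + 9000 * c3 + 12240 * c4 + 15600 * c5)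
    (h2 : (13 : ℤ) ∣ 20100 * c0 + 11310 * c1 + 23460 * c2 + 36450 * c3 + 50280 * c4 + 64950 * c5)
    (h3 : (13 : ℤ) ∣ 48750 * c0 + 28770 * c1 + 60430 * c2 + 94920 * c3 + 132156 * c4 + 172030 * c5)
    (h4 : (13 : ℤ) ∣ 85514 * c0 + 52747 * c1 + 111914 * c2 + 177141 * c3 + 247924 * c4 + 323615 * c5)
    (h5 : (13 : ℤ) ∣ 114257 * c0 + 73512 * c1 + 157223 * c2 + 250078 * c3 + 350660 * c4 + 457250 * c5)
    (h6 : (13 : ℤ) ∣ 119573 * c0 + 80159 * c1 + 172483 * c2 + 274997 * c3 + 385236 * c4 + 500545 * c5)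
    (h7 : (13 : ℤ) ∣ 99426 * c0 + 69420 * c1 + 149995 * c2 + 239128 * c3 + 333895 * c4 + 431656 * c5)
    (h8 : (13 : ℤ) ∣ 66014 * c0 + 48010 * c1 + 103950 * c2 + 165322 * c3 + 229676 * c4 + 295254 * c5)
    (h9 : (13 : ℤ) ∣ 34900 * c0 + 26452 * c1 + 57259 * c2 + 90640 * c3 + 125139 * c4 + 159970 * c5)
    (h10 : (13 : ℤ) ∣ 14536 * c0 + 11492 * c1 + 24803 * c2 + 38998 * c3 + 53475 * c4 + 68006 * c5)
    : (13 : ℤ) ∣ c0 ∧ (13 : ℤ) ∣ c1 ∧ (13 : ℤ) ∣ c2 ∧ (13 : ℤ) ∣ c3 ∧ (13 : ℤ) ∣ c4 ∧ (13 : ℤ) ∣ c5 := by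
  obtain ⟨t0, h0⟩ := h0
  obtain ⟨t1, h1⟩ := h1
  obtain ⟨t2, h2⟩ := h2
  obtain ⟨t3, h3⟩ := h3
  obtain ⟨t4, h4⟩ := h4
  obtain ⟨t5, h5⟩ := h5
  obtain ⟨t6, h6⟩ := h6
  obtain ⟨t7, h7⟩ := h7
  obtain ⟨t8, h8⟩ := h8
  obtain ⟨t9, h9⟩ := h9
  obtain ⟨t10, h10⟩ := h10
  refine ⟨?_, ?_, ?_, ?_, ?_, ?_⟩
  · exact ⟨10 * t0 + 6 * t1 + 10 * t3 + 11 * t5 + 8 * t7 + 6 * t9 - (214518 * c0 + 140868 * c1 + 301519 * c2 + 478594 * c3 + 668358 * c4 + 867286 * c5), by linear_combination 10 * h0 + 6 * h1 + 10 * h3 + 11 * h5 + 8 * h7 + 6 * h9⟩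
  · exact ⟨12 * t0 + 1 * t1 + 5 * t3 + 9 * t5 + 3 * t7 + 9 * t9 - (146037 * c0 + 96845 * c1 + 207461 * c2 + 329262 * c3 + 459552 * c4 + 595946 * c5), by linear_combination 12 * h0 + 1 * h1 + 5 * h3 + 9 * h5 + 3 * h7 + 9 * h9⟩
  · exact ⟨12 * t0 + 10 * t1 + 5 * t3 + 5 * t5 + 7 * t7 + 4 * t9 - (131789 * c0 + 87406 * c1 + 187285 * c2 + 297262 * c3 + 414737 * c4 + 537344 * c5), by linear_combination 12 * h0 + 10 * h1 + 5 * h3 + 5 * h5 + 7 * h7 + 4 * h9⟩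
  · exact ⟨10 * t0 + 5 * t1 + 6 * t3 + 12 * t5 + 7 * t7 + 10 * t9 - (210982 * c0 + 140248 * c1 + 300647 * c2 + 477427 * c3 + 666547 * c4 + 864344 * c5), by linear_combination 10 * h0 + 5 * h1 + 6 * h3 + 12 * h5 + 7 * h7 + 10 * h9⟩
  · exact ⟨11 * t0 + 3 * t1 + 2 * t3 + 5 * t5 + 1 * t9 - (55985 * c0 + 35704 * c1 + 76138 * c2 + 120750 * c3 + 168870 * c4 + 219760 * c5), by linear_combination 11 * h0 + 3 * h1 + 2 * h3 + 5 * h5 + 1 * h9⟩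
  · exact ⟨11 * t0 + 1 * t1 + 6 * t3 + 4 * t5 + 10 * t7 + 3 * t9 - (143216 * c0 + 95928 * c1 + 205923 * c2 + 327224 * c3 + 456771 * c4 + 591773 * c5), by linear_combination 11 * h0 + 1 * h1 + 6 * h3 + 4 * h5 + 10 * h7 + 3 * h9⟩

private theorem cert13 {R : Type*} [CommRing R] [IsDomain R] {ζ : R} (S : Setup R 13 ζ) :
    ∃ (η : Fin 6 → Rˣ) (w : Fin 6 → R), (∀ i, LD 13 ζ (η i : R) (w i)) ∧
      ∀ c : Fin 6 → ℤ, (ζ - 1) ^ 11 ∣ ∑ i, (c i : R) * w i → ∀ i, ((13 : ℕ) : ℤ) ∣ c i := by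
  obtain ⟨u0, hu0⟩ := exists_unit_zeta S
  obtain ⟨u1, hu1⟩ := exists_unit_geom S 2 (by norm_num)
  obtain ⟨u2, hu2⟩ := exists_unit_geom S 3 (by norm_num)
  obtain ⟨u3, hu3⟩ := exists_unit_geom S 4 (by norm_num)
  obtain ⟨u4, hu4⟩ := exists_unit_geom S 5 (by norm_num)
  obtain ⟨u5, hu5⟩ := exists_unit_geom S 6 (by norm_num)
  simp only [Finset.sum_range_succ, Finset.sum_range_zero, zero_add, pow_zero, pow_one] at hu1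
  simp only [Finset.sum_range_succ, Finset.sum_range_zero, zero_add, pow_zero, pow_one] at hu2
  simp only [Finset.sum_range_succ, Finset.sum_range_zero, zero_add, pow_zero, pow_one] at hu3
  simp only [Finset.sum_range_succ, Finset.sum_range_zero, zero_add, pow_zero, pow_one] at hu4
  simp only [Finset.sum_range_succ, Finset.sum_range_zero, zero_add, pow_zero, pow_one] at hu5
  refine ⟨![u0, u1, u2, u3, u4, u5], ![(1) * ((u0⁻¹ : Rˣ) : R), (1) * ((u1⁻¹ : Rˣ) : R), (1 + 2 * ζ) * ((u2⁻¹ : Rˣ) : R), (1 + 2 * ζ + 3 * ζ ^ 2) * ((u3⁻¹ : Rˣ) : R), (1 + 2 * ζ + 3 * ζ ^ 2 + 4 * ζ ^ 3) * ((u4⁻¹ : Rˣ) : R), (1 + 2 * ζ + 3 * ζ ^ 2 + 4 * ζ ^ 3 + 5 * ζ ^ 4) * ((u5⁻¹ : Rˣ) : R)], ?_, ?_⟩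
  · intro i
    fin_cases i
    · exact LD_unit X _ u0 (by simp [hu0]) (by simp)
    · exact LD_unit (∑ i ∈ Finset.range 2, X ^ i) _ u1
        (by simp only [Finset.sum_range_succ, Finset.sum_range_zero, zero_add, pow_zero, pow_one, map_add, map_one, map_pow, aeval_X, hu1])
        (by rw [aeval_derivative_geom]; norm_num [Finset.sum_range_succ])
    · exact LD_unit (∑ i ∈ Finset.range 3, X ^ i) _ u2
        (by simp only [Finset.sum_range_succ, Finset.sum_range_zero, zero_add, pow_zero, pow_one, map_add, map_one, map_pow, aeval_X, hu2])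
        (by rw [aeval_derivative_geom]; norm_num [Finset.sum_range_succ])
    · exact LD_unit (∑ i ∈ Finset.range 4, X ^ i) _ u3
        (by simp only [Finset.sum_range_succ, Finset.sum_range_zero, zero_add, pow_zero, pow_one, map_add, map_one, map_pow, aeval_X, hu3])
        (by rw [aeval_derivative_geom]; norm_num [Finset.sum_range_succ])
    · exact LD_unit (∑ i ∈ Finset.range 5, X ^ i) _ u4
        (by simp only [Finset.sum_range_succ, Finset.sum_range_zero, zero_add, pow_zero, pow_one, map_add, map_one, map_pow, aeval_X, hu4])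
        (by rw [aeval_derivative_geom]; norm_num [Finset.sum_range_succ])
    · exact LD_unit (∑ i ∈ Finset.range 6, X ^ i) _ u5
        (by simp only [Finset.sum_range_succ, Finset.sum_range_zero, zero_add, pow_zero, pow_one, map_add, map_one, map_pow, aeval_X, hu5])
        (by rw [aeval_derivative_geom]; norm_num [Finset.sum_range_succ])
  · intro c hc
    rw [Fin.sum_univ_six] at hc
    simp only [Matrix.cons_val] at hc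
    have e0 : (ζ) * ((u0⁻¹ : Rˣ) : R) = 1 := by rw [← hu0]; exact Units.mul_inv u0
    have e1 : (1 + ζ) * ((u1⁻¹ : Rˣ) : R) = 1 := by rw [← hu1]; exact Units.mul_inv u1
    have e2 : (1 + ζ + ζ ^ 2) * ((u2⁻¹ : Rˣ) : R) = 1 := by rw [← hu2]; exact Units.mul_inv u2
    have e3 : (1 + ζ + ζ ^ 2 + ζ ^ 3) * ((u3⁻¹ : Rˣ) : R) = 1 := by rw [← hu3]; exact Units.mul_inv u3
    have e4 : (1 + ζ + ζ ^ 2 + ζ ^ 3 + ζ ^ 4) * ((u4⁻¹ : Rˣ) : R) = 1 := by rw [← hu4]; exact Units.mul_inv u4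
    have e5 : (1 + ζ + ζ ^ 2 + ζ ^ 3 + ζ ^ 4 + ζ ^ 5) * ((u5⁻¹ : Rˣ) : R) = 1 := by rw [← hu5]; exact Units.mul_inv u5
    generalize ((u0⁻¹ : Rˣ) : R) = v0 at hc e0
    generalize ((u1⁻¹ : Rˣ) : R) = v1 at hc e1
    generalize ((u2⁻¹ : Rˣ) : R) = v2 at hc e2
    generalize ((u3⁻¹ : Rˣ) : R) = v3 at hc e3
    generalize ((u4⁻¹ : Rˣ) : R) = v4 at hc e4
    generalize ((u5⁻¹ : Rˣ) : R) = v5 at hc e5
    generalize hc0 : c 0 = c0 at hc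
    generalize hc1 : c 1 = c1 at hc
    generalize hc2 : c 2 = c2 at hc
    generalize hc3 : c 3 = c3 at hc
    generalize hc4 : c 4 = c4 at hc
    generalize hc5 : c 5 = c5 at hc
    have key : ((ζ) * (1 + ζ) * (1 + ζ + ζ ^ 2) * (1 + ζ + ζ ^ 2 + ζ ^ 3) * (1 + ζ + ζ ^ 2 + ζ ^ 3 + ζ ^ 4) * (1 + ζ + ζ ^ 2 + ζ ^ 3 + ζ ^ 4 + ζ ^ 5)) * ((c0 : R) * ((1) * v0) + (c1 : R) * ((1) * v1) + (c2 : R) * ((1 + 2 * ζ) * v2) + (c3 : R) * ((1 + 2 * ζ + 3 * ζ ^ 2) * v3) + (c4 : R) * ((1 + 2 * ζ + 3 * ζ ^ 2 + 4 * ζ ^ 3) * v4) + (c5 : R) * ((1 + 2 * ζ + 3 * ζ ^ 2 + 4 * ζ ^ 3 + 5 * ζ ^ 4) * v5)) =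
        hEval (ζ - 1) [720 * c0 + 360 * c1 + 720 * c2 + 1080 * c3 + 1440 * c4 + 1800 * c5, 5400 * c0 + 2880 * c1 + 5880 * c2 + 9000 * c3 + 12240 * c4 + 15600 * c5, 20100 * c0 + 11310 * c1 + 23460 * c2 + 36450 * c3 + 50280 * c4 + 64950 * c5, 48750 * c0 + 28770 * c1 + 60430 * c2 + 94920 * c3 + 132156 * c4 + 172030 * c5, 85514 * c0 + 52747 * c1 + 111914 * c2 + 177141 * c3 + 247924 * c4 + 323615 * c5, 114257 * c0 + 73512 * c1 + 157223 * c2 + 250078 * c3 + 350660 * c4 + 457250 * c5, 119573 * c0 + 80159 * c1 + 172483 * c2 + 274997 * c3 + 385236 * c4 + 500545 * c5, 99426 * c0 + 69420 * c1 + 149995 * c2 + 239128 * c3 + 333895 * c4 + 431656 * c5, 66014 * c0 + 48010 * c1 + 103950 * c2 + 165322 * c3 + 229676 * c4 + 295254 * c5, 34900 * c0 + 26452 * c1 + 57259 * c2 + 90640 * c3 + 125139 * c4 + 159970 * c5, 14536 * c0 + 11492 * c1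 + 24803 * c2 + 38998 * c3 + 53475 * c4 + 68006 * c5, 4674 * c0 + 3859 * c1 + 8278 * c2 + 12905 * c3 + 17575 * c4 + 22249 * c5, 1121 * c0 + 968 * c1 + 2056 * c2 + 3174 * c3 + 4295 * c4 + 5416 * c5, 189 * c0 + 171 * c1 + 358 * c2 + 547 * c3 + 736 * c4 + 925 * c5, 20 * c0 + 19 * c1 + 39 * c2 + 59 * c3 + 79 * c4 + 99 * c5, c0 + c1 + 2 * c2 + 3 * c3 + 4 * c4 + 5 * c5] := by
      simp only [hEval_cons, hEval_nil]
      push_cast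
      linear_combination ((c0 : R) * (1) * ((1 + ζ) * (1 + ζ + ζ ^ 2) * (1 + ζ + ζ ^ 2 + ζ ^ 3) * (1 + ζ + ζ ^ 2 + ζ ^ 3 + ζ ^ 4) * (1 + ζ + ζ ^ 2 + ζ ^ 3 + ζ ^ 4 + ζ ^ 5))) * e0 + ((c1 : R) * (1) * ((ζ) * (1 + ζ + ζ ^ 2) * (1 + ζ + ζ ^ 2 + ζ ^ 3) * (1 + ζ + ζ ^ 2 + ζ ^ 3 + ζ ^ 4) * (1 + ζ + ζ ^ 2 + ζ ^ 3 + ζ ^ 4 + ζ ^ 5))) * e1 + ((c2 : R) * (1 + 2 * ζ) * ((ζ) * (1 + ζ) * (1 + ζ + ζ ^ 2 + ζ ^ 3) * (1 + ζ + ζ ^ 2 + ζ ^ 3 + ζ ^ 4) * (1 + ζ + ζ ^ 2 + ζ ^ 3 + ζ ^ 4 + ζ ^ 5))) * e2 + ((c3 : R) * (1 + 2 * ζ + 3 * ζ ^ 2) * ((ζ) * (1 + ζ) * (1 + ζ + ζ ^ 2) * (1 + ζ + ζ ^ 2 + ζ ^ 3 + ζ ^ 4) * (1 + ζ + ζ ^ 2 + ζ ^ 3 + ζ ^ 4 + ζ ^ 5))) * e3 + ((c4 : R) * (1 + 2 * ζ + 3 * ζ ^ 2 + 4 * ζ ^ 3) * ((ζ) * (1 + ζ) * (1 + ζ + ζ ^ 2) * (1 + ζ + ζ ^ 2 + ζ ^ 3) * (1 + ζ + ζ ^ 2 + ζ ^ 3 + ζ ^ 4 + ζ ^ 5))) * e4 + ((c5 : R) * (1 + 2 * ζ + 3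 * ζ ^ 2 + 4 * ζ ^ 3 + 5 * ζ ^ 4) * ((ζ) * (1 + ζ) * (1 + ζ + ζ ^ 2) * (1 + ζ + ζ ^ 2 + ζ ^ 3) * (1 + ζ + ζ ^ 2 + ζ ^ 3 + ζ ^ 4))) * e5
    have hd := digits S _ 11 (by norm_num) (key ▸ Dvd.dvd.mul_left hc _)
    simp only [List.take_succ_cons, List.take_zero, List.mem_cons, List.not_mem_nil, or_false, forall_eq_or_imp, forall_eq] at hd
    obtain ⟨h0, h1, h2, h3, h4, h5, h6, h7, h8, h9, h10⟩ := hd
    obtain ⟨r0, r1, r2, r3, r4, r5⟩ := lin13 c0 c1 c2 c3 c4 c5 h0 h1 h2 h3 h4 h5 h6 h7 h8 h9 h10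
    intro i
    fin_cases i
    · exact hc0 ▸ r0
    · exact hc1 ▸ r1
    · exact hc2 ▸ r2
    · exact hc3 ▸ r3
    · exact hc4 ▸ r4
    · exact hc5 ▸ r5

theorem _root_.Fermat.Agent.Lib.Kummer.unitCertificate_thirteen {R : Type*} [CommRing R] [IsDomain R] {ζ : R}
    (S : Setup R 13 ζ) : UnitCertificate R 13 ζ :=
  cert13 S
end Fermat.Agent.Lib.Kummer.Cert
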