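import Fermat.Agent.Lib.Kummer.CertBasic

/-!
# Unit certificate for `p = 5` (generated)
-/

set_option autoImplicit false
set_option linter.unusedSimpArgs false

namespace Fermat.Agent.Lib.Kummer.Cert

open Polynomial

private lemma lin5 (c0 c1 : ℤ)
    (h0 : (5 : ℤ) ∣ 2 * c0 + c1)
    (h1 : (5 : ℤ) ∣ c0 + c1)
    (h2 : (5 : ℤ) ∣ 0)
    : (5 : ℤ) ∣ c0 ∧ (5 : ℤ) ∣ c1 := by
  obtain ⟨t0, h0⟩ := h0
  obtain ⟨t1, h1⟩ := h1
  obtain ⟨t2, h2⟩ := h2
  refine ⟨?_, ?_⟩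
  · exact ⟨1 * t0 + 4 * t1 - (1 * c0 + 1 * c1), by linear_combination 1 * h0 + 4 * h1⟩
  · exact ⟨4 * t0 + 2 * t1 - (2 * c0 + 1 * c1), by linear_combination 4 * h0 + 2 * h1⟩

private theorem cert5 {R : Type*} [CommRing R] [IsDomain R] {ζ : R} (S : Setup R 5 ζ) :
    ∃ (η : Fin 2 → Rˣ) (w : Fin 2 → R), (∀ i, LD 5 ζ (η i : R) (w i)) ∧
      ∀ c : Fin 2 → ℤ, (ζ - 1) ^ 3 ∣ ∑ i, (c i : R) * w i → ∀ i, ((5 : ℕ) : ℤ) ∣ c i := by
  obtain ⟨u0, hu0⟩ := exists_unit_zeta S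
  obtain ⟨u1, hu1⟩ := exists_unit_geom S 2 (by norm_num)
  simp only [Finset.sum_range_succ, Finset.sum_range_zero, zero_add, pow_zero, pow_one] at hu1
  refine ⟨![u0, u1], ![(1) * ((u0⁻¹ : Rˣ) : R), (1) * ((u1⁻¹ : Rˣ) : R)], ?_, ?_⟩
  · intro i
    fin_cases i
    · exact LD_unit X _ u0 (by simp [hu0]) (by simp)
    · exact LD_unit (∑ i ∈ Finset.range 2, X ^ i) _ u1
        (by simp only [Finset.sum_range_succ, Finset.sum_range_zero, zero_add, pow_zero, pow_one, map_add, map_one, map_pow, aeval_X, hu1])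
        (by rw [aeval_derivative_geom]; norm_num [Finset.sum_range_succ])
  · intro c hc
    rw [Fin.sum_univ_two] at hc
    simp only [Matrix.cons_val] at hc
    have e0 : (ζ) * ((u0⁻¹ : Rˣ) : R) = 1 := by rw [← hu0]; exact Units.mul_inv u0
    have e1 : (1 + ζ) * ((u1⁻¹ : Rˣ) : R) = 1 := by rw [← hu1]; exact Units.mul_inv u1
    generalize ((u0⁻¹ : Rˣ) : R) = v0 at hc e0
    generalize ((u1⁻¹ : Rˣ) : R) = v1 at hc e1
    generalize hc0 : c 0 = c0 at hc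
    generalize hc1 : c 1 = c1 at hc
    have key : ((ζ) * (1 + ζ)) * ((c0 : R) * ((1) * v0) + (c1 : R) * ((1) * v1)) =
        hEval (ζ - 1) [2 * c0 + c1, c0 + c1, 0] := by
      simp only [hEval_cons, hEval_nil]
      push_cast
      linear_combination ((c0 : R) * (1) * ((1 + ζ))) * e0 + ((c1 : R) * (1) * ((ζ))) * e1
    have hd := digits S _ 3 (by norm_num) (key ▸ Dvd.dvd.mul_left hc _)
    simp only [List.take_succ_cons, List.take_zero, List.mem_cons, List.not_mem_nil, or_false, forall_eq_or_imp, forall_eq] at hd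
    obtain ⟨h0, h1, h2⟩ := hd
    obtain ⟨r0, r1⟩ := lin5 c0 c1 h0 h1 h2
    intro i
    fin_cases i
    · exact hc0 ▸ r0
    · exact hc1 ▸ r1

theorem _root_.Fermat.Agent.Lib.Kummer.unitCertificate_five {R : Type*} [CommRing R] [IsDomain R] {ζ : R}
    (S : Setup R 5 ζ) : UnitCertificate R 5 ζ :=
  cert5 S
end Fermat.Agent.Lib.Kummer.Cert
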