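import Fermat.Agent.Lib.Kummer.Defs

/-!
# Unit certificates: generic lemmas

Generic tools used to produce `UnitCertificate R p ζ` for explicit small primes `p`.
-/

set_option autoImplicit false

namespace Fermat.Agent.Lib.Kummer.Cert

open Polynomial

variable {R : Type*} [CommRing R] [IsDomain R] {p : ℕ} {ζ : R}

/-- Horner evaluation of a list of integer digits at `x`. -/
def hEval (x : R) : List ℤ → R
  | [] => 0
  | d :: l => (d : R) + x * hEval x l

omit [IsDomain R] in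
@[simp] lemma hEval_nil (x : R) : hEval x [] = 0 := rfl

omit [IsDomain R] in
@[simp] lemma hEval_cons (x : R) (d : ℤ) (l : List ℤ) :
    hEval x (d :: l) = (d : R) + x * hEval x l := rfl

lemma lam_pow_dvd_p (S : Setup R p ζ) {k : ℕ} (hk : k ≤ p - 1) : (ζ - 1) ^ k ∣ (p : R) :=
  (pow_dvd_pow _ hk).trans S.assoc.dvd

lemma lam_pow_dvd_int (S : Setup R p ζ) {k : ℕ} (hk : k ≤ p - 1) {d : ℤ} (hd : (p : ℤ) ∣ d) :
    (ζ - 1) ^ k ∣ (d : R) := by
  obtain ⟨e, rfl⟩ := hd
  push_cast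
  exact Dvd.dvd.mul_right (lam_pow_dvd_p S hk) _

/-- The digits lemma: if `λ ^ k` divides `∑ dᵢ λ ^ i` with `k ≤ p - 1`, then `p ∣ dᵢ` for `i < k`. -/
lemma digits (S : Setup R p ζ) : ∀ (l : List ℤ) (k : ℕ), k ≤ p - 1 →
    (ζ - 1) ^ k ∣ hEval (ζ - 1) l → ∀ d ∈ l.take k, (p : ℤ) ∣ d := by
  intro l
  induction l with
  | nil => intro k _ _ d hd; simp at hd
  | cons a l ih =>
    intro k hk h d hd
    cases k with
    | zero => simp at hd
    | succ k =>
      rw [hEval_cons] at h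
      have h1 : (ζ - 1) ∣ (a : R) := by
        have h2 : (ζ - 1) ∣ (a : R) + (ζ - 1) * hEval (ζ - 1) l :=
          (dvd_pow_self _ (Nat.succ_ne_zero k)).trans h
        exact (dvd_add_left (Dvd.intro _ rfl)).mp h2
      have ha : (p : ℤ) ∣ a := (S.lam_dvd_int a).mp h1
      have h3 : (ζ - 1) ^ (k + 1) ∣ (ζ - 1) * hEval (ζ - 1) l :=
        (dvd_add_right (lam_pow_dvd_int S hk ha)).mp h
      have h4 : (ζ - 1) ^ k ∣ hEval (ζ - 1) l := by
        rw [pow_succ'] at h3
        exact (mul_dvd_mul_iff_left S.prime_lam.ne_zero).mp h3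
      rw [List.take_succ_cons, List.mem_cons] at hd
      rcases hd with rfl | hd
      · exact ha
      · exact ih k (by omega) h4 d hd

omit [IsDomain R] in
/-- The derivative of a geometric sum, evaluated. -/
lemma aeval_derivative_geom (a : ℕ) :
    aeval ζ (derivative (∑ i ∈ Finset.range a, (X : ℤ[X]) ^ i)) =
      ∑ i ∈ Finset.range a, (i : R) * ζ ^ (i - 1) := by
  simp [map_sum, derivative_X_pow]

omit [IsDomain R] in
/-- The trivial logarithmic derivative of a unit. -/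
lemma LD_unit (f : ℤ[X]) (g : R) (u : Rˣ) (hu : aeval ζ f = (u : R))
    (hg : aeval ζ (derivative f) = g) :
    LD p ζ (u : R) (g * ((u⁻¹ : Rˣ) : R)) :=
  ⟨f, hu, by rw [hg, mul_assoc, Units.inv_mul, mul_one, sub_self]; exact dvd_zero _⟩

/-- `ζ` as a unit. -/
lemma exists_unit_zeta (S : Setup R p ζ) : ∃ u : Rˣ, (u : R) = ζ :=
  ⟨(S.prim.isUnit S.prime_p.ne_zero).unit, rfl⟩

/-- The cyclotomic unit `1 + ζ + ⋯ + ζ ^ (a - 1)`. -/
lemma exists_unit_geom (S : Setup R p ζ) (a : ℕ) (ha : a.Coprime p) :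
    ∃ u : Rˣ, (u : R) = ∑ i ∈ Finset.range a, ζ ^ i :=
  ⟨(S.prim.geom_sum_isUnit (le_trans (by norm_num) S.three_le) ha).unit, rfl⟩

end Fermat.Agent.Lib.Kummer.Cert
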