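import Fermat.Agent.Lib.Kummer.Cert5
import Fermat.Agent.Lib.Kummer.Cert7
import Fermat.Agent.Lib.Kummer.Cert11
import Fermat.Agent.Lib.Kummer.Cert13

/-!
# Unit certificates for `p = 5, 7, 11, 13`

This file gathers
`Fermat.Agent.Lib.Kummer.unitCertificate_five`, `unitCertificate_seven`,
`unitCertificate_eleven`, `unitCertificate_thirteen`.
-/
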