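import Mathlib

/-!
# Kummer's approach to FLT for small regular primes: shared definitions

Abstract setting: `R` is a commutative domain (think `𝓞 ℚ(ζ_p)`), `ζ : R` a primitive `p`-th root
of unity, `ζ - 1` the prime above `p`.
-/

set_option autoImplicit false

namespace Fermat.Agent.Lib.Kummer

open Polynomial

/-- The abstract properties of `ℤ[ζ_p]` which are used in the descent and in Kummer's lemma. -/
structure Setup (R : Type*) [CommRing R] [IsDomain R] (p : ℕ) (ζ : R) : Prop where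
  prime_p : p.Prime
  three_le : 3 ≤ p
  prim : IsPrimitiveRoot ζ p
  prime_lam : Prime (ζ - 1)
  lam_dvd_int : ∀ n : ℤ, (ζ - 1) ∣ (n : R) ↔ (p : ℤ) ∣ n
  assoc : Associated ((ζ - 1) ^ (p - 1)) (p : R)
  exists_poly : ∀ x : R, ∃ f : ℤ[X], aeval ζ f = x
  cyclo_dvd : ∀ f : ℤ[X], aeval ζ f = 0 → cyclotomic p ℤ ∣ f

/-- Kummer's lemma: a unit congruent to a rational integer mod `p` is a `p`-th power. -/
def KummerLemma (R : Type*) [CommRing R] (p : ℕ) : Prop :=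
  ∀ u : Rˣ, (∃ n : ℤ, (p : R) ∣ (u : R) - n) → ∃ v : Rˣ, u = v ^ p

/-- The unit group is generated by `(p-1)/2` elements (Dirichlet's unit theorem). -/
def UnitsGenerated (R : Type*) [CommRing R] (p : ℕ) : Prop :=
  ∃ (ι : Type) (_ : Fintype ι) (g : ι → Rˣ), Fintype.card ι = (p - 1) / 2 ∧
    ∀ u : Rˣ, ∃ e : ι → ℤ, u = ∏ i, g i ^ e i

/-- "`w` is a logarithmic derivative of `u` modulo `(ζ-1)^(p-2)`". -/
def LD {R : Type*} [CommRing R] (p : ℕ) (ζ : R) (u w : R) : Prop :=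
  ∃ f : ℤ[X], aeval ζ f = u ∧ (ζ - 1) ^ (p - 2) ∣ aeval ζ (derivative f) - w * u

/-- A certificate that `(p-1)/2` explicit units are independent modulo the units that are
congruent to an integer mod `p`. -/
def UnitCertificate (R : Type*) [CommRing R] (p : ℕ) (ζ : R) : Prop :=
  ∃ (η : Fin ((p - 1) / 2) → Rˣ) (w : Fin ((p - 1) / 2) → R),
    (∀ i, LD p ζ (η i : R) (w i)) ∧
    ∀ c : Fin ((p - 1) / 2) → ℤ, (ζ - 1) ^ (p - 2) ∣ ∑ i, (c i : R) * w i → ∀ i, (p : ℤ) ∣ c i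

/-- The generalised second case of FLT over `R`. -/
def CaseIIGen (R : Type*) [CommRing R] (p : ℕ) (ζ : R) : Prop :=
  ∀ (x y z : R) (ε : Rˣ), z ≠ 0 → ¬ (ζ - 1) ∣ x → ¬ (ζ - 1) ∣ y → (ζ - 1) ∣ z → IsCoprime x y →
    x ^ p + y ^ p ≠ ε * z ^ p

/-- First case of FLT for exponent `p` (coprime form). -/
def CaseI (p : ℕ) : Prop :=
  ∀ a b c : ℤ, IsCoprime a b → ¬ (p : ℤ) ∣ a * b * c → a ^ p + b ^ p ≠ c ^ p

/-- Second case of FLT for exponent `p` (normalised form). -/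
def CaseII (p : ℕ) : Prop :=
  ∀ a b c : ℤ, c ≠ 0 → ¬ (p : ℤ) ∣ a → ¬ (p : ℤ) ∣ b → (p : ℤ) ∣ c → IsCoprime a b →
    a ^ p + b ^ p ≠ c ^ p

end Fermat.Agent.Lib.Kummer
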