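import Fermat.Agent.Lib.Kummer.Defs
import Fermat.Prelude.Def_FLTPrelim_FreyPackage

/-!
# From the two cases of FLT for exponent `p` to the non-existence of Frey packages
-/

set_option autoImplicit false

namespace Fermat.Agent.Lib.Kummer

/-- No coprime solution, given both cases. -/
theorem no_coprime_solution {p : ℕ} (hp : p.Prime) (hp2 : p ≠ 2) (h1 : CaseI p) (h2 : CaseII p)
    {a b c : ℤ} (ha : a ≠ 0) (hb : b ≠ 0) (hc : c ≠ 0) (hab : IsCoprime a b) :
    a ^ p + b ^ p ≠ c ^ p := by
  intro H
  have hpp : Prime (p : ℤ) := Nat.prime_iff_prime_int.1 hp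
  have hodd : Odd p := hp.odd_of_ne_two hp2
  have hp0 : p ≠ 0 := hp.ne_zero
  -- pairwise coprimality
  have hac : IsCoprime a c := by
    have : IsCoprime (a ^ p) (c ^ p) := by
      rw [← H]
      exact (IsCoprime.pow hab).add_mul_left_right 1 |> fun h => by simpa [add_comm] using h
    exact (IsCoprime.pow_iff hp.pos hp.pos).1 this
  have hbc : IsCoprime b c := by
    have : IsCoprime (b ^ p) (c ^ p) := by
      rw [← H]
      exact (IsCoprime.pow hab.symm).add_mul_left_right 1 |> fun h => by simpa using h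
    exact (IsCoprime.pow_iff hp.pos hp.pos).1 this
  have hnot : ∀ {u v : ℤ}, IsCoprime u v → (p : ℤ) ∣ u → ¬ (p : ℤ) ∣ v := by
    intro u v huv hu hv
    exact hpp.not_isUnit (huv.isUnit_of_dvd' hu hv)
  by_cases hdvd : (p : ℤ) ∣ a * b * c
  · rcases hpp.dvd_or_dvd hdvd with hd | hd
    · rcases hpp.dvd_or_dvd hd with hd | hd
      · -- `p ∣ a`: `c ^ p + (-b) ^ p = a ^ p`
        refine h2 c (-b) a ha (hnot hac hd) ?_ hd hbc.symm.neg_right ?_
        · rw [dvd_neg]; exact hnot hab hd
        · rw [hodd.neg_pow]; linarith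
      · -- `p ∣ b`
        refine h2 c (-a) b hb (hnot hbc hd) ?_ hd hac.symm.neg_right ?_
        · rw [dvd_neg]; exact hnot hab.symm hd
        · rw [hodd.neg_pow]; linarith
    · exact h2 a b c hc (hnot hac.symm hd) (hnot hbc.symm hd) hd hab H
  · exact h1 a b c hab hdvd H

/-- **K-T8**: no Frey package with exponent `p`, given both cases of FLT for `p`. -/
theorem no_freyPackage {p : ℕ} (h1 : CaseI p) (h2 : CaseII p) (P : FreyPackage) (hP : P.p = p) :
    False := by
  subst hP
  have hab : IsCoprime P.a P.b := by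
    rw [Int.isCoprime_iff_gcd_eq_one]
    have := P.hgcdab
    rw [← Int.coe_gcd] at this
    exact_mod_cast this
  exact no_coprime_solution P.pp (by have := P.hp5; omega) h1 h2 P.ha0 P.hb0 P.hc0 hab P.hFLT

end Fermat.Agent.Lib.Kummer
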