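import Fermat.Agent.Lib.Kummer.Basic

/-!
# Kummer's lemma from a unit certificate (counting argument)
-/

set_option autoImplicit false

namespace Fermat.Agent.Lib.Kummer

open Polynomial

section LD

variable {R : Type*} [CommRing R] [IsDomain R] {p : ℕ} {ζ : R}

theorem Setup.lam_pow_sub_two_dvd_p (S : Setup R p ζ) : (ζ - 1) ^ (p - 2) ∣ (p : R) :=
  (pow_dvd_pow _ (by omega)).trans S.assoc.dvd

theorem Setup.aeval_cyclotomic (S : Setup R p ζ) : aeval ζ (cyclotomic p ℤ) = 0 := by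
  have h := S.prim.isRoot_cyclotomic S.prime_p.pos
  rw [IsRoot.def, ← map_cyclotomic_int, eval_map] at h
  rw [aeval_def]
  exact h

theorem Setup.lam_pow_dvd_derivative_cyclotomic (S : Setup R p ζ) :
    (ζ - 1) ^ (p - 2) ∣ aeval ζ (derivative (cyclotomic p ℤ)) := by
  have hp := S.prime_p
  have h3 := S.three_le
  have key : (X - 1 : ℤ[X]) * cyclotomic p ℤ = X ^ p - 1 := by
    rw [cyclotomic_prime ℤ p (hp := ⟨hp⟩), mul_comm]
    exact geom_sum_mul X p
  have hder := congrArg (fun q => aeval ζ (derivative q)) key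
  simp only [derivative_mul, derivative_X, derivative_one, sub_zero, one_mul,
    derivative_X_pow, map_add, map_mul, map_sub, aeval_X, map_one, map_pow, S.aeval_cyclotomic,
    zero_add, map_natCast] at hder
  obtain ⟨u, hu⟩ := S.assoc
  have hp1 : (ζ - 1) ^ (p - 1) = (ζ - 1) * (ζ - 1) ^ (p - 2) := by
    rw [← pow_succ']; congr 1; omega
  have : (ζ - 1) * aeval ζ (derivative (cyclotomic p ℤ)) =
      (ζ - 1) * ((ζ - 1) ^ (p - 2) * (u * ζ ^ (p - 1))) := by
    rw [hder, ← hu, hp1]; ring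
  exact ⟨_, mul_left_cancel₀ S.lam_ne_zero this⟩

/-- (L1) -/
theorem Setup.dvd_aeval_derivative_sub (S : Setup R p ζ) {f g : ℤ[X]}
    (h : aeval ζ f = aeval ζ g) :
    (ζ - 1) ^ (p - 2) ∣ aeval ζ (derivative f) - aeval ζ (derivative g) := by
  obtain ⟨q, hq⟩ := S.cyclo_dvd (f - g) (by rw [map_sub, h, sub_self])
  have : aeval ζ (derivative f) - aeval ζ (derivative g) =
      aeval ζ (derivative (cyclotomic p ℤ)) * aeval ζ q := by
    rw [← map_sub, ← derivative_sub, hq, derivative_mul, map_add, map_mul, map_mul,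
      S.aeval_cyclotomic, zero_mul, add_zero]
  rw [this]
  exact Dvd.dvd.mul_right S.lam_pow_dvd_derivative_cyclotomic _

omit [IsDomain R] in
theorem LD.one : LD p ζ (1 : R) 0 := ⟨1, by simp, by simp⟩

omit [IsDomain R] in
/-- (L2) -/
theorem LD.mul {u u' w w' : R} (h : LD p ζ u w) (h' : LD p ζ u' w') :
    LD p ζ (u * u') (w + w') := by
  obtain ⟨f, hf, hfd⟩ := h
  obtain ⟨g, hg, hgd⟩ := h'
  refine ⟨f * g, by rw [map_mul, hf, hg], ?_⟩
  have : aeval ζ (derivative (f * g)) - (w + w') * (u * u') =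
      (aeval ζ (derivative f) - w * u) * u' + u * (aeval ζ (derivative g) - w' * u') := by
    rw [derivative_mul, map_add, map_mul, map_mul, hf, hg]; ring
  rw [this]
  exact dvd_add (Dvd.dvd.mul_right hfd _) (Dvd.dvd.mul_left hgd _)

omit [IsDomain R] in
/-- (L3) -/
theorem LD.pow {u w : R} (h : LD p ζ u w) (n : ℕ) : LD p ζ (u ^ n) (n * w) := by
  induction n with
  | zero => simpa using LD.one
  | succ n ih =>
    have := ih.mul h
    rw [pow_succ]
    convert this using 1
    push_cast; ring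

omit [IsDomain R] in
theorem LD.prod {ι : Type*} (s : Finset ι) {u w : ι → R} (n : ι → ℕ)
    (h : ∀ i ∈ s, LD p ζ (u i) (w i)) :
    LD p ζ (∏ i ∈ s, u i ^ n i) (∑ i ∈ s, (n i : R) * w i) := by
  classical
  induction s using Finset.induction_on with
  | empty => simpa using LD.one
  | insert a s ha ih =>
    rw [Finset.prod_insert ha, Finset.sum_insert ha]
    exact ((h a (Finset.mem_insert_self a s)).pow (n a)).mul
      (ih fun i hi => h i (Finset.mem_insert_of_mem hi))

/-- (L4) -/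
theorem Setup.dvd_sub_of_LD (S : Setup R p ζ) {u w w' : R} (h : LD p ζ u w) (h' : LD p ζ u w')
    (hu : ¬ (ζ - 1) ∣ u) : (ζ - 1) ^ (p - 2) ∣ w - w' := by
  obtain ⟨f, hf, hfd⟩ := h
  obtain ⟨g, hg, hgd⟩ := h'
  have h1 := S.dvd_aeval_derivative_sub (hf.trans hg.symm)
  have : (w - w') * u = (aeval ζ (derivative f) - aeval ζ (derivative g))
      - (aeval ζ (derivative f) - w * u) + (aeval ζ (derivative g) - w' * u) := by ring
  have h2 : (ζ - 1) ^ (p - 2) ∣ (w - w') * u := by
    rw [this]; exact dvd_add (dvd_sub h1 hfd) hgd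
  exact S.prime_lam.pow_dvd_of_dvd_mul_right _ hu h2

/-- (L5) -/
theorem Setup.LD_of_dvd_sub_int (S : Setup R p ζ) {u : R} {n : ℤ} (h : (p : R) ∣ u - n) :
    LD p ζ u 0 := by
  obtain ⟨x, hx⟩ := h
  obtain ⟨q, hq⟩ := S.exists_poly x
  refine ⟨C n + (p : ℤ[X]) * q, ?_, ?_⟩
  · rw [map_add, map_mul, hq, aeval_C, map_natCast, ← hx]; simp
  · rw [zero_mul, sub_zero, derivative_add, derivative_C, zero_add, ← C_eq_natCast,
      derivative_C_mul, map_mul, C_eq_natCast, map_natCast]
    exact Dvd.dvd.mul_right S.lam_pow_sub_two_dvd_p _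

/-- (L6) -/
theorem Setup.LD_pow_p (S : Setup R p ζ) (v : R) : LD p ζ (v ^ p) 0 := by
  obtain ⟨q, hq⟩ := S.exists_poly v
  refine ⟨q ^ p, by rw [map_pow, hq], ?_⟩
  rw [zero_mul, sub_zero, derivative_pow, map_mul, map_mul, C_eq_natCast, map_natCast, mul_assoc]
  exact Dvd.dvd.mul_right S.lam_pow_sub_two_dvd_p _

theorem Setup.not_lam_dvd_unit (S : Setup R p ζ) (u : Rˣ) : ¬ (ζ - 1) ∣ (u : R) := fun h =>
  S.prime_lam.not_isUnit (isUnit_of_dvd_unit h u.isUnit)

end LD

/-- Kummer's lemma from Dirichlet's unit theorem and an explicit certificate of independent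
units. -/
theorem kummerLemma_of_certificate {R : Type*} [CommRing R] [IsDomain R] {p : ℕ} {ζ : R}
    (S : Setup R p ζ) (hg : UnitsGenerated R p) (hc : UnitCertificate R p ζ) :
    KummerLemma R p := by
  classical
  have : Fact p.Prime := ⟨S.prime_p⟩
  obtain ⟨ι, _, g, hcard, hgen⟩ := hg
  obtain ⟨η, w, hLD, hind⟩ := hc
  -- the basic consequence of the certificate
  have aux : ∀ (c : Fin ((p - 1) / 2) → ℕ) (v : Rˣ) (x : Rˣ) (W : R), LD p ζ (x : R) W →
      x = (∏ i, η i ^ c i) * v ^ p → (ζ - 1) ^ (p - 2) ∣ (∑ i, (c i : R) * w i) - W := by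
    intro c v x W hx heq
    have h1 : LD p ζ (x : R) ((∑ i, (c i : R) * w i) + 0) := by
      rw [heq, Units.val_mul, Units.val_pow_eq_pow_val, Units.coe_prod]
      simp only [Units.val_pow_eq_pow_val]
      exact (LD.prod Finset.univ c fun i _ => hLD i).mul (S.LD_pow_p v)
    rw [add_zero] at h1
    exact S.dvd_sub_of_LD h1 hx (S.not_lam_dvd_unit x)
  let H : Subgroup Rˣ := (powMonoidHom p : Rˣ →* Rˣ).range
  let A : (ι → ZMod p) → Rˣ ⧸ H := fun c => QuotientGroup.mk (∏ i, g i ^ (c i).val)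
  let B : (Fin ((p - 1) / 2) → ZMod p) → Rˣ ⧸ H :=
    fun c => QuotientGroup.mk (∏ i, η i ^ (c i).val)
  have hA : Function.Surjective A := by
    intro q
    obtain ⟨u, rfl⟩ := QuotientGroup.mk_surjective q
    obtain ⟨e, he⟩ := hgen u
    refine ⟨fun i => (e i : ZMod p), ?_⟩
    rw [QuotientGroup.eq]
    refine ⟨∏ i, g i ^ (e i / p), ?_⟩
    rw [powMonoidHom_apply, he, eq_inv_mul_iff_mul_eq, ← Finset.prod_pow, ← Finset.prod_mul_distrib]
    refine Finset.prod_congr rfl fun i _ => ?_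
    rw [← zpow_natCast (g i) _, ← zpow_natCast _ p, ← zpow_mul, ← zpow_add, ZMod.val_intCast,
      mul_comm, Int.emod_add_mul_ediv]
  have hB : Function.Injective B := by
    intro c c' hcc
    rw [QuotientGroup.eq] at hcc
    obtain ⟨v, hv⟩ := hcc
    rw [powMonoidHom_apply, eq_inv_mul_iff_mul_eq] at hv
    have h1 := aux (fun i => (c i).val) v (∏ i, η i ^ (c' i).val)
      (∑ i, (((c' i).val : ℕ) : R) * w i) (by
        rw [Units.coe_prod]
        simp only [Units.val_pow_eq_pow_val]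
        exact LD.prod Finset.univ _ fun i _ => hLD i) hv.symm
    have h2 := hind (fun i => ((c i).val : ℤ) - ((c' i).val : ℤ)) (by
      convert h1 using 1
      rw [← Finset.sum_sub_distrib]
      refine Finset.sum_congr rfl fun i _ => ?_
      push_cast; ring)
    funext i
    have h3 := h2 i
    have h4 : (((c i).val : ℤ) : ZMod p) = (((c' i).val : ℤ) : ZMod p) := by
      rw [← sub_eq_zero, ← Int.cast_sub]
      exact (ZMod.intCast_zmod_eq_zero_iff_dvd _ _).2 h3
    simpa using h4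
  have : Finite (Rˣ ⧸ H) := Finite.of_surjective A hA
  have hcardle : Nat.card (Rˣ ⧸ H) ≤ Nat.card (Fin ((p - 1) / 2) → ZMod p) := by
    refine (Nat.card_le_card_of_surjective A hA).trans (le_of_eq ?_)
    simp [Nat.card_eq_fintype_card, hcard]
  have hBs : Function.Surjective B := (hB.bijective_of_nat_card_le hcardle).2
  intro u hu
  obtain ⟨n, hn⟩ := hu
  obtain ⟨c, hc⟩ := hBs (QuotientGroup.mk u)
  rw [QuotientGroup.eq] at hc
  obtain ⟨v, hv⟩ := hc
  rw [powMonoidHom_apply, eq_inv_mul_iff_mul_eq] at hv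
  have h1 := aux (fun i => (c i).val) v u 0 (S.LD_of_dvd_sub_int hn) hv.symm
  have h2 := hind (fun i => ((c i).val : ℤ)) (by
    convert h1 using 1
    rw [sub_zero]
    refine Finset.sum_congr rfl fun i _ => ?_
    push_cast; ring)
  have h3 : ∀ i, (c i).val = 0 := by
    intro i
    have h4 := h2 i
    have h5 : p ∣ (c i).val := by exact_mod_cast h4
    exact Nat.eq_zero_of_dvd_of_lt h5 (ZMod.val_lt _)
  refine ⟨v, ?_⟩
  rw [← hv]
  simp [h3]

end Fermat.Agent.Lib.Kummer
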