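import Mathlib

/-!
# Explicit norm computations in `ℤ[ζ₁₃]` (generated identities)
-/

set_option autoImplicit false

namespace Fermat.Agent.Lib.Kummer

theorem prod_conj_27 {R : Type*} [CommRing R] (z : R)
    (h : 1 + z + z ^ 2 + z ^ 3 + z ^ 4 + z ^ 5 + z ^ 6 + z ^ 7 + z ^ 8 + z ^ 9 + z ^ 10 + z ^ 11
      + z ^ 12 = 0) :
    ∏ k ∈ Finset.Ico 1 13, (1 - (z ^ k) ^ 2 - (z ^ k) ^ 3) = 27 := by
  simp only [Finset.prod_Ico_eq_prod_range, Nat.reduceSub, Finset.prod_range_succ,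
    Finset.prod_range_zero, one_mul, Nat.reduceAdd, add_zero]
  linear_combination (
      (-26) * z ^ 0 + (26) * z ^ 1 + (-1) * z ^ 2 + (1) * z ^ 5 + (-1) * z ^ 6 + (2) * z ^ 7 +
      (1) * z ^ 11 + (-1) * z ^ 12 + (-26) * z ^ 13 + (27) * z ^ 14 + (-4) * z ^ 15 +
      (1) * z ^ 16 + (-1) * z ^ 17 + (2) * z ^ 18 + (-3) * z ^ 19 + (1) * z ^ 20 + (2) * z ^ 22 +
      (-2) * z ^ 23 + (1) * z ^ 24 + (-2) * z ^ 25 + (-22) * z ^ 26 + (27) * z ^ 27 +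
      (-6) * z ^ 28 + (1) * z ^ 29 + (1) * z ^ 30 + (3) * z ^ 31 + (-6) * z ^ 32 + (8) * z ^ 33 +
      (-1) * z ^ 34 + (2) * z ^ 35 + (-2) * z ^ 36 + (6) * z ^ 37 + (-4) * z ^ 38 +
      (-15) * z ^ 39 + (19) * z ^ 40 + (-4) * z ^ 41 + (2) * z ^ 44 + (-7) * z ^ 45 +
      (6) * z ^ 46 + (-6) * z ^ 47 + (1) * z ^ 48 + (-8) * z ^ 49 + (10) * z ^ 50 +
      (-11) * z ^ 51 + (-9) * z ^ 52 + (11) * z ^ 53 + (-9) * z ^ 54 + (-1) * z ^ 55 +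
      (5) * z ^ 56 + (-6) * z ^ 57 + (-3) * z ^ 58 + (7) * z ^ 59 + (-3) * z ^ 60 +
      (-1) * z ^ 61 + (-3) * z ^ 62 + (5) * z ^ 63 + (3) * z ^ 64 + (5) * z ^ 65 +
      (-1) * z ^ 66 + (2) * z ^ 67 + (7) * z ^ 68 + (12) * z ^ 69 + (-11) * z ^ 70 +
      (8) * z ^ 71 + (8) * z ^ 72 + (9) * z ^ 73 + (-10) * z ^ 74 + (11) * z ^ 75 +
      (9) * z ^ 76 + (-11) * z ^ 77 + (14) * z ^ 78 + (-5) * z ^ 79 + (-1) * z ^ 80 +
      (2) * z ^ 81 + (1) * z ^ 82 + (-13) * z ^ 83 + (6) * z ^ 84 + (-2) * z ^ 85 +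
      (-9) * z ^ 86 + (-10) * z ^ 87 + (-8) * z ^ 88 + (-8) * z ^ 89 + (-4) * z ^ 90 +
      (-2) * z ^ 91 + (-5) * z ^ 92 + (-15) * z ^ 93 + (-3) * z ^ 94 + (-7) * z ^ 95 +
      (-10) * z ^ 96 + (-1) * z ^ 97 + (-9) * z ^ 98 + (-5) * z ^ 99 + (-8) * z ^ 100 +
      (10) * z ^ 101 + (-1) * z ^ 102 + (5) * z ^ 103 + (13) * z ^ 104 + (-9) * z ^ 105 +
      (3) * z ^ 106 + (16) * z ^ 107 + (-1) * z ^ 108 + (10) * z ^ 109 + (11) * z ^ 110 +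
      (7) * z ^ 111 + (13) * z ^ 112 + (15) * z ^ 113 + (11) * z ^ 114 + (9) * z ^ 115 +
      (8) * z ^ 116 + (15) * z ^ 117 + (3) * z ^ 118 + (6) * z ^ 119 + (9) * z ^ 120 +
      (1) * z ^ 121 + (10) * z ^ 122 + (2) * z ^ 123 + (-4) * z ^ 124 + (-5) * z ^ 125 +
      (7) * z ^ 126 + (-5) * z ^ 127 + (-14) * z ^ 128 + (-3) * z ^ 129 + (2) * z ^ 130 +
      (-19) * z ^ 131 + (-10) * z ^ 132 + (-10) * z ^ 133 + (-10) * z ^ 134 + (-8) * z ^ 135 +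
      (-18) * z ^ 136 + (-16) * z ^ 137 + (-3) * z ^ 138 + (-7) * z ^ 139 + (-17) * z ^ 140 +
      (-7) * z ^ 141 + (-9) * z ^ 142 + (2) * z ^ 143 + (-18) * z ^ 144 + (1) * z ^ 146 +
      (-7) * z ^ 147 + (1) * z ^ 148 + (1) * z ^ 149 + (7) * z ^ 150 + (3) * z ^ 151 +
      (2) * z ^ 152 + (2) * z ^ 153 + (11) * z ^ 154 + (10) * z ^ 155 + (6) * z ^ 156 +
      (5) * z ^ 157 + (16) * z ^ 158 + (6) * z ^ 159 + (4) * z ^ 160 + (11) * z ^ 161 +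
      (12) * z ^ 162 + (6) * z ^ 163 + (3) * z ^ 164 + (6) * z ^ 165 + (11) * z ^ 166 +
      (6) * z ^ 167 + (5) * z ^ 169 + (3) * z ^ 170 + (3) * z ^ 171 + (-5) * z ^ 172 +
      (-1) * z ^ 173 + (5) * z ^ 174 + (-1) * z ^ 175 + (-7) * z ^ 176 + (-1) * z ^ 177 +
      (-1) * z ^ 178 + (-4) * z ^ 179 + (-6) * z ^ 180 + (-5) * z ^ 181 + (-1) * z ^ 182 +
      (-5) * z ^ 183 + (-6) * z ^ 184 + (-5) * z ^ 185 + (-1) * z ^ 186 + (-2) * z ^ 187 +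
      (-6) * z ^ 188 + (-4) * z ^ 189 + (-1) * z ^ 190 + (-3) * z ^ 191 + (-3) * z ^ 192 +
      (-2) * z ^ 193 + (1) * z ^ 194 + (-2) * z ^ 195 + (-3) * z ^ 196 + (1) * z ^ 197 +
      (1) * z ^ 198 + (-1) * z ^ 200 + (2) * z ^ 202 + (1) * z ^ 203 + (1) * z ^ 205 +
      (2) * z ^ 206 + (1) * z ^ 209 + (2) * z ^ 210 + (2) * z ^ 211 + (-1) * z ^ 212 +
      (1) * z ^ 213 + (1) * z ^ 214 + (1) * z ^ 215 + (1) * z ^ 218 + (1) * z ^ 222) * h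

theorem prod_conj_53 {R : Type*} [CommRing R] (z : R)
    (h : 1 + z + z ^ 2 + z ^ 3 + z ^ 4 + z ^ 5 + z ^ 6 + z ^ 7 + z ^ 8 + z ^ 9 + z ^ 10 + z ^ 11
      + z ^ 12 = 0) :
    ∏ k ∈ Finset.Ico 1 13, (1 - (z ^ k) + (z ^ k) ^ 3) = 53 := by
  simp only [Finset.prod_Ico_eq_prod_range, Nat.reduceSub, Finset.prod_range_succ,
    Finset.prod_range_zero, one_mul, Nat.reduceAdd, add_zero]
  linear_combination (
      (-52) * z ^ 0 + (51) * z ^ 1 + (2) * z ^ 3 + (-1) * z ^ 4 + (-1) * z ^ 7 + (1) * z ^ 8 +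
      (1) * z ^ 9 + (-1) * z ^ 10 + (2) * z ^ 12 + (-54) * z ^ 13 + (49) * z ^ 14 +
      (4) * z ^ 15 + (-2) * z ^ 16 + (-1) * z ^ 17 + (4) * z ^ 18 + (-3) * z ^ 19 +
      (2) * z ^ 21 + (-3) * z ^ 22 + (2) * z ^ 23 + (5) * z ^ 24 + (-3) * z ^ 25 +
      (-56) * z ^ 26 + (53) * z ^ 27 + (3) * z ^ 28 + (-6) * z ^ 29 + (5) * z ^ 30 +
      (-3) * z ^ 31 + (-3) * z ^ 32 + (10) * z ^ 33 + (-8) * z ^ 34 + (9) * z ^ 36 +
      (-5) * z ^ 37 + (-46) * z ^ 39 + (44) * z ^ 40 + (-1) * z ^ 41 + (2) * z ^ 42 +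
      (-2) * z ^ 43 + (-5) * z ^ 44 + (9) * z ^ 45 + (-7) * z ^ 46 + (-7) * z ^ 47 +
      (23) * z ^ 48 + (-11) * z ^ 49 + (-5) * z ^ 50 + (17) * z ^ 51 + (-60) * z ^ 52 +
      (48) * z ^ 53 + (12) * z ^ 54 + (-12) * z ^ 55 + (-5) * z ^ 56 + (6) * z ^ 57 +
      (-5) * z ^ 58 + (-10) * z ^ 59 + (16) * z ^ 60 + (-5) * z ^ 61 + (-18) * z ^ 62 +
      (32) * z ^ 63 + (-8) * z ^ 64 + (-58) * z ^ 65 + (67) * z ^ 66 + (-12) * z ^ 67 +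
      (3) * z ^ 68 + (18) * z ^ 69 + (-22) * z ^ 70 + (-9) * z ^ 71 + (19) * z ^ 72 +
      (-9) * z ^ 73 + (-17) * z ^ 74 + (17) * z ^ 75 + (-5) * z ^ 76 + (-16) * z ^ 77 +
      (-11) * z ^ 78 + (25) * z ^ 79 + (-7) * z ^ 80 + (35) * z ^ 81 + (-25) * z ^ 82 +
      (-1) * z ^ 83 + (31) * z ^ 84 + (-24) * z ^ 85 + (-14) * z ^ 86 + (20) * z ^ 87 +
      (-4) * z ^ 88 + (-20) * z ^ 89 + (24) * z ^ 90 + (-58) * z ^ 91 + (15) * z ^ 92 +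
      (57) * z ^ 93 + (-24) * z ^ 94 + (-21) * z ^ 95 + (51) * z ^ 96 + (-29) * z ^ 97 +
      (-12) * z ^ 98 + (42) * z ^ 99 + (-36) * z ^ 100 + (-3) * z ^ 101 + (23) * z ^ 102 +
      (-6) * z ^ 103 + (-68) * z ^ 104 + (60) * z ^ 105 + (-2) * z ^ 106 + (-33) * z ^ 107 +
      (63) * z ^ 108 + (-19) * z ^ 109 + (-35) * z ^ 110 + (45) * z ^ 111 + (-21) * z ^ 112 +
      (-14) * z ^ 113 + (49) * z ^ 114 + (-38) * z ^ 115 + (3) * z ^ 116 + (-22) * z ^ 117 +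
      (14) * z ^ 118 + (-13) * z ^ 119 + (35) * z ^ 120 + (-6) * z ^ 121 + (-32) * z ^ 122 +
      (51) * z ^ 123 + (-21) * z ^ 124 + (-33) * z ^ 125 + (50) * z ^ 126 + (-25) * z ^ 127 +
      (-17) * z ^ 128 + (71) * z ^ 129 + (-92) * z ^ 130 + (15) * z ^ 131 + (38) * z ^ 132 +
      (-10) * z ^ 133 + (-20) * z ^ 134 + (34) * z ^ 135 + (-15) * z ^ 136 + (-26) * z ^ 137 +
      (46) * z ^ 138 + (-13) * z ^ 139 + (-39) * z ^ 140 + (48) * z ^ 141 + (-5) * z ^ 142 +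
      (-54) * z ^ 143 + (67) * z ^ 144 + (-35) * z ^ 145 + (-3) * z ^ 146 + (23) * z ^ 147 +
      (-6) * z ^ 148 + (-21) * z ^ 149 + (32) * z ^ 150 + (-18) * z ^ 151 + (-15) * z ^ 152 +
      (32) * z ^ 153 + (-7) * z ^ 154 + (-32) * z ^ 155 + (32) * z ^ 156 + (-6) * z ^ 157 +
      (-23) * z ^ 158 + (49) * z ^ 159 + (-41) * z ^ 160 + (1) * z ^ 161 + (21) * z ^ 162 +
      (-3) * z ^ 163 + (-23) * z ^ 164 + (32) * z ^ 165 + (-19) * z ^ 166 + (-11) * z ^ 167 +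
      (23) * z ^ 168 + (-8) * z ^ 169 + (-14) * z ^ 170 + (27) * z ^ 171 + (-10) * z ^ 172 +
      (-22) * z ^ 173 + (35) * z ^ 174 + (-18) * z ^ 175 + (-8) * z ^ 176 + (11) * z ^ 177 +
      (4) * z ^ 178 + (-12) * z ^ 179 + (14) * z ^ 180 + (-12) * z ^ 181 + (-4) * z ^ 182 +
      (14) * z ^ 183 + (2) * z ^ 184 + (-18) * z ^ 185 + (14) * z ^ 186 + (-2) * z ^ 187 +
      (-11) * z ^ 188 + (18) * z ^ 189 + (-12) * z ^ 190 + (1) * z ^ 191 + (7) * z ^ 192 +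
      (-5) * z ^ 193 + (-6) * z ^ 194 + (8) * z ^ 195 + (-3) * z ^ 196 + (3) * z ^ 198 +
      (-6) * z ^ 200 + (6) * z ^ 201 + (-1) * z ^ 202 + (-5) * z ^ 203 + (8) * z ^ 204 +
      (-3) * z ^ 205 + (-3) * z ^ 206 + (2) * z ^ 207 + (-1) * z ^ 209 + (3) * z ^ 210 +
      (-3) * z ^ 211 + (2) * z ^ 213 + (-2) * z ^ 215 + (1) * z ^ 216 + (1) * z ^ 217 +
      (-2) * z ^ 218 + (2) * z ^ 219 + (-1) * z ^ 220 + (-1) * z ^ 221 + (1) * z ^ 222) * h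

theorem prod_conj_79 {R : Type*} [CommRing R] (z : R)
    (h : 1 + z + z ^ 2 + z ^ 3 + z ^ 4 + z ^ 5 + z ^ 6 + z ^ 7 + z ^ 8 + z ^ 9 + z ^ 10 + z ^ 11
      + z ^ 12 = 0) :
    ∏ k ∈ Finset.Ico 1 13, (1 - (z ^ k) - (z ^ k) ^ 4) = 79 := by
  simp only [Finset.prod_Ico_eq_prod_range, Nat.reduceSub, Finset.prod_range_succ,
    Finset.prod_range_zero, one_mul, Nat.reduceAdd, add_zero]
  linear_combination (
      (-78) * z ^ 0 + (77) * z ^ 1 + (1) * z ^ 3 + (-1) * z ^ 4 + (2) * z ^ 5 + (1) * z ^ 7 +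
      (-2) * z ^ 8 + (1) * z ^ 9 + (-1) * z ^ 10 + (-2) * z ^ 12 + (-75) * z ^ 13 +
      (76) * z ^ 14 + (-6) * z ^ 15 + (6) * z ^ 16 + (-3) * z ^ 17 + (2) * z ^ 18 +
      (3) * z ^ 19 + (4) * z ^ 20 + (-4) * z ^ 21 + (8) * z ^ 22 + (-5) * z ^ 23 +
      (-3) * z ^ 25 + (-71) * z ^ 26 + (70) * z ^ 27 + (-6) * z ^ 28 + (2) * z ^ 29 +
      (-9) * z ^ 30 + (4) * z ^ 31 + (2) * z ^ 32 + (5) * z ^ 33 + (-6) * z ^ 34 +
      (14) * z ^ 35 + (-5) * z ^ 36 + (5) * z ^ 37 + (-5) * z ^ 38 + (-56) * z ^ 39 +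
      (59) * z ^ 40 + (-10) * z ^ 43 + (7) * z ^ 45 + (-9) * z ^ 46 + (-4) * z ^ 47 +
      (16) * z ^ 48 + (-18) * z ^ 49 + (13) * z ^ 50 + (3) * z ^ 51 + (-59) * z ^ 52 +
      (53) * z ^ 53 + (10) * z ^ 54 + (-7) * z ^ 55 + (-8) * z ^ 56 + (16) * z ^ 57 +
      (1) * z ^ 58 + (-16) * z ^ 59 + (15) * z ^ 60 + (-10) * z ^ 61 + (-19) * z ^ 62 +
      (18) * z ^ 63 + (7) * z ^ 64 + (-53) * z ^ 65 + (52) * z ^ 66 + (-7) * z ^ 67 +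
      (-3) * z ^ 68 + (-10) * z ^ 69 + (15) * z ^ 70 + (12) * z ^ 71 + (-15) * z ^ 72 +
      (24) * z ^ 73 + (-4) * z ^ 74 + (-31) * z ^ 75 + (6) * z ^ 76 + (-4) * z ^ 77 +
      (-8) * z ^ 78 + (24) * z ^ 79 + (-4) * z ^ 80 + (3) * z ^ 81 + (-19) * z ^ 82 +
      (-4) * z ^ 83 + (18) * z ^ 84 + (2) * z ^ 85 + (11) * z ^ 86 + (6) * z ^ 87 +
      (-30) * z ^ 88 + (13) * z ^ 89 + (-23) * z ^ 90 + (11) * z ^ 91 + (32) * z ^ 92 +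
      (-27) * z ^ 93 + (16) * z ^ 94 + (-9) * z ^ 95 + (-34) * z ^ 96 + (38) * z ^ 97 +
      (-16) * z ^ 98 + (10) * z ^ 99 + (24) * z ^ 100 + (-26) * z ^ 101 + (-8) * z ^ 102 +
      (8) * z ^ 103 + (-9) * z ^ 104 + (-1) * z ^ 105 + (24) * z ^ 106 + (20) * z ^ 107 +
      (-49) * z ^ 108 + (14) * z ^ 109 + (1) * z ^ 110 + (-27) * z ^ 111 + (32) * z ^ 112 +
      (34) * z ^ 113 + (-61) * z ^ 114 + (31) * z ^ 115 + (15) * z ^ 116 + (-60) * z ^ 117 +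
      (22) * z ^ 118 + (23) * z ^ 119 + (-1) * z ^ 120 + (-8) * z ^ 121 + (21) * z ^ 122 +
      (-41) * z ^ 123 + (13) * z ^ 124 + (26) * z ^ 125 + (-19) * z ^ 126 + (4) * z ^ 127 +
      (25) * z ^ 128 + (-32) * z ^ 129 + (-2) * z ^ 130 + (-1) * z ^ 131 + (-27) * z ^ 132 +
      (38) * z ^ 133 + (13) * z ^ 134 + (-30) * z ^ 135 + (11) * z ^ 136 + (13) * z ^ 137 +
      (-7) * z ^ 138 + (-10) * z ^ 139 + (11) * z ^ 140 + (7) * z ^ 141 + (-3) * z ^ 142 +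
      (-2) * z ^ 143 + (-9) * z ^ 144 + (-30) * z ^ 145 + (40) * z ^ 146 + (-24) * z ^ 147 +
      (16) * z ^ 148 + (5) * z ^ 149 + (8) * z ^ 150 + (-9) * z ^ 151 + (-5) * z ^ 152 +
      (-7) * z ^ 153 + (-1) * z ^ 154 + (28) * z ^ 155 + (-12) * z ^ 156 + (-15) * z ^ 157 +
      (2) * z ^ 158 + (22) * z ^ 159 + (-42) * z ^ 160 + (8) * z ^ 161 + (44) * z ^ 162 +
      (-28) * z ^ 163 + (27) * z ^ 165 + (-48) * z ^ 166 + (5) * z ^ 167 + (43) * z ^ 168 +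
      (-28) * z ^ 169 + (-17) * z ^ 170 + (49) * z ^ 171 + (-29) * z ^ 172 + (-35) * z ^ 173 +
      (49) * z ^ 174 + (-20) * z ^ 175 + (-9) * z ^ 176 + (62) * z ^ 177 + (-56) * z ^ 178 +
      (-16) * z ^ 179 + (55) * z ^ 180 + (-38) * z ^ 181 + (-35) * z ^ 182 + (83) * z ^ 183 +
      (-45) * z ^ 184 + (-16) * z ^ 185 + (53) * z ^ 186 + (-50) * z ^ 187 + (-20) * z ^ 188 +
      (77) * z ^ 189 + (-30) * z ^ 190 + (-38) * z ^ 191 + (70) * z ^ 192 + (-36) * z ^ 193 +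
      (-48) * z ^ 194 + (68) * z ^ 195 + (-32) * z ^ 196 + (-27) * z ^ 197 + (80) * z ^ 198 +
      (-47) * z ^ 199 + (-42) * z ^ 200 + (82) * z ^ 201 + (-40) * z ^ 202 + (-37) * z ^ 203 +
      (86) * z ^ 204 + (-45) * z ^ 205 + (-38) * z ^ 206 + (75) * z ^ 207 + (-50) * z ^ 208 +
      (-39) * z ^ 209 + (89) * z ^ 210 + (-30) * z ^ 211 + (-49) * z ^ 212 + (74) * z ^ 213 +
      (-25) * z ^ 214 + (-53) * z ^ 215 + (78) * z ^ 216 + (-32) * z ^ 217 + (-34) * z ^ 218 +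
      (65) * z ^ 219 + (-29) * z ^ 220 + (-46) * z ^ 221 + (69) * z ^ 222 + (-24) * z ^ 223 +
      (-36) * z ^ 224 + (62) * z ^ 225 + (-22) * z ^ 226 + (-38) * z ^ 227 + (60) * z ^ 228 +
      (-27) * z ^ 229 + (-36) * z ^ 230 + (55) * z ^ 231 + (-11) * z ^ 232 + (-41) * z ^ 233 +
      (51) * z ^ 234 + (-13) * z ^ 235 + (-37) * z ^ 236 + (51) * z ^ 237 + (-21) * z ^ 238 +
      (-24) * z ^ 239 + (45) * z ^ 240 + (-17) * z ^ 241 + (-29) * z ^ 242 + (41) * z ^ 243 +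
      (-14) * z ^ 244 + (-23) * z ^ 245 + (36) * z ^ 246 + (-12) * z ^ 247 + (-22) * z ^ 248 +
      (32) * z ^ 249 + (-11) * z ^ 250 + (-22) * z ^ 251 + (28) * z ^ 252 + (-2) * z ^ 253 +
      (-21) * z ^ 254 + (23) * z ^ 255 + (-4) * z ^ 256 + (-19) * z ^ 257 + (21) * z ^ 258 +
      (-4) * z ^ 259 + (-15) * z ^ 260 + (21) * z ^ 261 + (-6) * z ^ 262 + (-12) * z ^ 263 +
      (11) * z ^ 264 + (-1) * z ^ 265 + (-10) * z ^ 266 + (16) * z ^ 267 + (-5) * z ^ 268 +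
      (-8) * z ^ 269 + (10) * z ^ 270 + (-4) * z ^ 271 + (-7) * z ^ 272 + (9) * z ^ 273 +
      (1) * z ^ 274 + (-8) * z ^ 275 + (8) * z ^ 276 + (-3) * z ^ 277 + (-4) * z ^ 278 +
      (5) * z ^ 279 + (1) * z ^ 280 + (-5) * z ^ 281 + (5) * z ^ 282 + (-2) * z ^ 283 +
      (-2) * z ^ 284 + (2) * z ^ 285 + (-2) * z ^ 287 + (3) * z ^ 288 + (-3) * z ^ 290 +
      (3) * z ^ 291 + (-1) * z ^ 292 + (-1) * z ^ 293 + (1) * z ^ 294 + (1) * z ^ 295 +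
      (-2) * z ^ 296 + (1) * z ^ 297 + (-1) * z ^ 299 + (1) * z ^ 300) * h

theorem prod_conj_131 {R : Type*} [CommRing R] (z : R)
    (h : 1 + z + z ^ 2 + z ^ 3 + z ^ 4 + z ^ 5 + z ^ 6 + z ^ 7 + z ^ 8 + z ^ 9 + z ^ 10 + z ^ 11
      + z ^ 12 = 0) :
    ∏ k ∈ Finset.Ico 1 13, (1 - (z ^ k) - (z ^ k) ^ 3) = 131 := by
  simp only [Finset.prod_Ico_eq_prod_range, Nat.reduceSub, Finset.prod_range_succ,
    Finset.prod_range_zero, one_mul, Nat.reduceAdd, add_zero]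
  linear_combination (
      (-130) * z ^ 0 + (129) * z ^ 1 + (1) * z ^ 4 + (2) * z ^ 5 + (-2) * z ^ 6 + (3) * z ^ 7 +
      (-3) * z ^ 8 + (1) * z ^ 9 + (-1) * z ^ 10 + (-4) * z ^ 12 + (-126) * z ^ 13 +
      (127) * z ^ 14 + (-2) * z ^ 15 + (1) * z ^ 17 + (8) * z ^ 18 + (-5) * z ^ 19 +
      (8) * z ^ 20 + (-2) * z ^ 21 + (7) * z ^ 22 + (-6) * z ^ 23 + (5) * z ^ 24 +
      (-17) * z ^ 25 + (-114) * z ^ 26 + (117) * z ^ 27 + (-5) * z ^ 28 + (-10) * z ^ 29 +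
      (3) * z ^ 30 + (5) * z ^ 31 + (-3) * z ^ 32 + (10) * z ^ 33 + (-4) * z ^ 34 +
      (8) * z ^ 35 + (9) * z ^ 36 + (11) * z ^ 37 + (-20) * z ^ 38 + (-98) * z ^ 39 +
      (100) * z ^ 40 + (13) * z ^ 41 + (-32) * z ^ 42 + (20) * z ^ 43 + (-9) * z ^ 44 +
      (-5) * z ^ 45 + (1) * z ^ 46 + (1) * z ^ 47 + (-13) * z ^ 48 + (25) * z ^ 49 +
      (-5) * z ^ 50 + (-1) * z ^ 51 + (-88) * z ^ 52 + (88) * z ^ 53 + (-6) * z ^ 54 +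
      (-12) * z ^ 55 + (25) * z ^ 56 + (2) * z ^ 57 + (-13) * z ^ 58 + (8) * z ^ 59 +
      (-6) * z ^ 60 + (-7) * z ^ 61 + (20) * z ^ 62 + (-26) * z ^ 63 + (30) * z ^ 64 +
      (-72) * z ^ 65 + (67) * z ^ 66 + (-22) * z ^ 67 + (-13) * z ^ 68 + (16) * z ^ 69 +
      (6) * z ^ 70 + (-21) * z ^ 71 + (25) * z ^ 72 + (-17) * z ^ 73 + (7) * z ^ 74 +
      (37) * z ^ 75 + (-61) * z ^ 76 + (-6) * z ^ 77 + (39) * z ^ 78 + (-7) * z ^ 79 +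
      (31) * z ^ 80 + (-61) * z ^ 81 + (55) * z ^ 82 + (-17) * z ^ 83 + (-1) * z ^ 84 +
      (-14) * z ^ 85 + (2) * z ^ 86 + (-32) * z ^ 87 + (72) * z ^ 88 + (-58) * z ^ 89 +
      (20) * z ^ 90 + (6) * z ^ 91 + (-9) * z ^ 92 + (13) * z ^ 93 + (-30) * z ^ 94 +
      (47) * z ^ 95 + (-23) * z ^ 96 + (7) * z ^ 97 + (-4) * z ^ 98 + (-22) * z ^ 99 +
      (10) * z ^ 100 + (23) * z ^ 101 + (-27) * z ^ 102 + (24) * z ^ 103 + (-28) * z ^ 106 +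
      (11) * z ^ 107 + (-9) * z ^ 108 + (31) * z ^ 109 + (-21) * z ^ 110 + (1) * z ^ 111 +
      (-27) * z ^ 112 + (54) * z ^ 113 + (-35) * z ^ 114 + (32) * z ^ 115 + (-51) * z ^ 116 +
      (64) * z ^ 117 + (-54) * z ^ 118 + (31) * z ^ 119 + (-21) * z ^ 120 + (8) * z ^ 121 +
      (-20) * z ^ 122 + (51) * z ^ 123 + (-57) * z ^ 124 + (43) * z ^ 125 + (-34) * z ^ 126 +
      (25) * z ^ 127 + (-17) * z ^ 128 + (23) * z ^ 129 + (-8) * z ^ 130 + (-13) * z ^ 131 +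
      (-12) * z ^ 132 + (38) * z ^ 133 + (-42) * z ^ 134 + (42) * z ^ 135 + (-25) * z ^ 136 +
      (2) * z ^ 137 + (4) * z ^ 138 + (7) * z ^ 139 + (-5) * z ^ 140 + (-10) * z ^ 141 +
      (11) * z ^ 142 + (10) * z ^ 143 + (-19) * z ^ 144 + (3) * z ^ 145 + (7) * z ^ 146 +
      (-13) * z ^ 147 + (20) * z ^ 148 + (-15) * z ^ 149 + (12) * z ^ 150 + (-22) * z ^ 151 +
      (31) * z ^ 152 + (-26) * z ^ 153 + (23) * z ^ 154 + (-12) * z ^ 155 + (10) * z ^ 156 +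
      (-26) * z ^ 157 + (31) * z ^ 158 + (-33) * z ^ 159 + (37) * z ^ 160 + (-41) * z ^ 161 +
      (41) * z ^ 162 + (-35) * z ^ 163 + (33) * z ^ 164 + (-28) * z ^ 165 + (19) * z ^ 166 +
      (-25) * z ^ 167 + (41) * z ^ 168 + (-38) * z ^ 169 + (34) * z ^ 170 + (-41) * z ^ 171 +
      (34) * z ^ 172 + (-30) * z ^ 173 + (33) * z ^ 174 + (-30) * z ^ 175 + (24) * z ^ 176 +
      (-25) * z ^ 177 + (34) * z ^ 178 + (-38) * z ^ 179 + (34) * z ^ 180 + (-30) * z ^ 181 +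
      (26) * z ^ 182 + (-24) * z ^ 183 + (22) * z ^ 184 + (-22) * z ^ 185 + (20) * z ^ 186 +
      (-18) * z ^ 187 + (21) * z ^ 188 + (-22) * z ^ 189 + (20) * z ^ 190 + (-19) * z ^ 191 +
      (17) * z ^ 192 + (-15) * z ^ 193 + (16) * z ^ 194 + (-16) * z ^ 195 + (11) * z ^ 196 +
      (-10) * z ^ 197 + (11) * z ^ 198 + (-10) * z ^ 199 + (12) * z ^ 200 + (-12) * z ^ 201 +
      (9) * z ^ 202 + (-7) * z ^ 203 + (6) * z ^ 204 + (-5) * z ^ 205 + (3) * z ^ 206 +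
      (-2) * z ^ 207 + (4) * z ^ 208 + (-5) * z ^ 209 + (5) * z ^ 210 + (-5) * z ^ 211 +
      (4) * z ^ 212 + (-2) * z ^ 213 + (2) * z ^ 214 + (-2) * z ^ 215 + (1) * z ^ 216 +
      (-1) * z ^ 217 + (2) * z ^ 218 + (-2) * z ^ 219 + (1) * z ^ 220 + (-1) * z ^ 221 +
      (1) * z ^ 222) * h

theorem prod_conj_157 {R : Type*} [CommRing R] (z : R)
    (h : 1 + z + z ^ 2 + z ^ 3 + z ^ 4 + z ^ 5 + z ^ 6 + z ^ 7 + z ^ 8 + z ^ 9 + z ^ 10 + z ^ 11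
      + z ^ 12 = 0) :
    ∏ k ∈ Finset.Ico 1 13, (1 - (z ^ k) + (z ^ k) ^ 2 + (z ^ k) ^ 4) = 157 := by
  simp only [Finset.prod_Ico_eq_prod_range, Nat.reduceSub, Finset.prod_range_succ,
    Finset.prod_range_zero, one_mul, Nat.reduceAdd, add_zero]
  linear_combination (
      (-156) * z ^ 0 + (155) * z ^ 1 + (1) * z ^ 2 + (1) * z ^ 4 + (-2) * z ^ 5 + (1) * z ^ 6 +
      (-2) * z ^ 7 + (4) * z ^ 8 + (-3) * z ^ 9 + (3) * z ^ 10 + (-4) * z ^ 11 + (6) * z ^ 12 +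
      (-163) * z ^ 13 + (159) * z ^ 14 + (-2) * z ^ 15 + (5) * z ^ 16 + (-6) * z ^ 17 +
      (6) * z ^ 18 + (-7) * z ^ 19 + (10) * z ^ 20 + (-12) * z ^ 21 + (10) * z ^ 22 +
      (-9) * z ^ 23 + (15) * z ^ 24 + (-15) * z ^ 25 + (-148) * z ^ 26 + (141) * z ^ 27 +
      (24) * z ^ 28 + (-25) * z ^ 29 + (24) * z ^ 30 + (-27) * z ^ 31 + (33) * z ^ 32 +
      (-25) * z ^ 33 + (20) * z ^ 34 + (-25) * z ^ 35 + (37) * z ^ 36 + (-39) * z ^ 37 +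
      (34) * z ^ 38 + (-199) * z ^ 39 + (204) * z ^ 40 + (-54) * z ^ 41 + (45) * z ^ 42 +
      (-47) * z ^ 43 + (62) * z ^ 44 + (-63) * z ^ 45 + (62) * z ^ 46 + (-71) * z ^ 47 +
      (104) * z ^ 48 + (-93) * z ^ 49 + (82) * z ^ 50 + (-99) * z ^ 51 + (-40) * z ^ 52 +
      (42) * z ^ 53 + (95) * z ^ 54 + (-118) * z ^ 55 + (137) * z ^ 56 + (-146) * z ^ 57 +
      (132) * z ^ 58 + (-150) * z ^ 59 + (178) * z ^ 60 + (-169) * z ^ 61 + (165) * z ^ 62 +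
      (-158) * z ^ 63 + (196) * z ^ 64 + (-354) * z ^ 65 + (345) * z ^ 66 + (-219) * z ^ 67 +
      (268) * z ^ 68 + (-256) * z ^ 69 + (237) * z ^ 70 + (-293) * z ^ 71 + (317) * z ^ 72 +
      (-316) * z ^ 73 + (281) * z ^ 74 + (-323) * z ^ 75 + (384) * z ^ 76 + (-371) * z ^ 77 +
      (200) * z ^ 78 + (-243) * z ^ 79 + (462) * z ^ 80 + (-444) * z ^ 81 + (432) * z ^ 82 +
      (-435) * z ^ 83 + (497) * z ^ 84 + (-484) * z ^ 85 + (450) * z ^ 86 + (-534) * z ^ 87 +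
      (619) * z ^ 88 + (-611) * z ^ 89 + (578) * z ^ 90 + (-819) * z ^ 91 + (856) * z ^ 92 +
      (-653) * z ^ 93 + (627) * z ^ 94 + (-713) * z ^ 95 + (807) * z ^ 96 + (-794) * z ^ 97 +
      (798) * z ^ 98 + (-850) * z ^ 99 + (908) * z ^ 100 + (-870) * z ^ 101 + (837) * z ^ 102 +
      (-864) * z ^ 103 + (786) * z ^ 104 + (-834) * z ^ 105 + (974) * z ^ 106 +
      (-1033) * z ^ 107 + (1142) * z ^ 108 + (-1115) * z ^ 109 + (1067) * z ^ 110 +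
      (-1174) * z ^ 111 + (1252) * z ^ 112 + (-1189) * z ^ 113 + (1167) * z ^ 114 +
      (-1295) * z ^ 115 + (1422) * z ^ 116 + (-1542) * z ^ 117 + (1475) * z ^ 118 +
      (-1445) * z ^ 119 + (1570) * z ^ 120 + (-1492) * z ^ 121 + (1433) * z ^ 122 +
      (-1488) * z ^ 123 + (1593) * z ^ 124 + (-1587) * z ^ 125 + (1546) * z ^ 126 +
      (-1650) * z ^ 127 + (1788) * z ^ 128 + (-1708) * z ^ 129 + (1530) * z ^ 130 +
      (-1690) * z ^ 131 + (1871) * z ^ 132 + (-1780) * z ^ 133 + (1787) * z ^ 134 +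
      (-1950) * z ^ 135 + (2046) * z ^ 136 + (-1976) * z ^ 137 + (1975) * z ^ 138 +
      (-2096) * z ^ 139 + (2142) * z ^ 140 + (-2096) * z ^ 141 + (2082) * z ^ 142 +
      (-2170) * z ^ 143 + (2227) * z ^ 144 + (-2125) * z ^ 145 + (2092) * z ^ 146 +
      (-2168) * z ^ 147 + (2271) * z ^ 148 + (-2248) * z ^ 149 + (2182) * z ^ 150 +
      (-2239) * z ^ 151 + (2297) * z ^ 152 + (-2201) * z ^ 153 + (2166) * z ^ 154 +
      (-2340) * z ^ 155 + (2409) * z ^ 156 + (-2344) * z ^ 157 + (2421) * z ^ 158 +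
      (-2516) * z ^ 159 + (2518) * z ^ 160 + (-2406) * z ^ 161 + (2328) * z ^ 162 +
      (-2360) * z ^ 163 + (2447) * z ^ 164 + (-2462) * z ^ 165 + (2416) * z ^ 166 +
      (-2443) * z ^ 167 + (2526) * z ^ 168 + (-2473) * z ^ 169 + (2385) * z ^ 170 +
      (-2362) * z ^ 171 + (2377) * z ^ 172 + (-2318) * z ^ 173 + (2294) * z ^ 174 +
      (-2404) * z ^ 175 + (2462) * z ^ 176 + (-2366) * z ^ 177 + (2326) * z ^ 178 +
      (-2378) * z ^ 179 + (2394) * z ^ 180 + (-2311) * z ^ 181 + (2254) * z ^ 182 +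
      (-2236) * z ^ 183 + (2280) * z ^ 184 + (-2266) * z ^ 185 + (2210) * z ^ 186 +
      (-2205) * z ^ 187 + (2201) * z ^ 188 + (-2128) * z ^ 189 + (2080) * z ^ 190 +
      (-2078) * z ^ 191 + (2084) * z ^ 192 + (-1981) * z ^ 193 + (1885) * z ^ 194 +
      (-1907) * z ^ 195 + (1953) * z ^ 196 + (-1898) * z ^ 197 + (1858) * z ^ 198 +
      (-1853) * z ^ 199 + (1821) * z ^ 200 + (-1756) * z ^ 201 + (1725) * z ^ 202 +
      (-1665) * z ^ 203 + (1626) * z ^ 204 + (-1603) * z ^ 205 + (1576) * z ^ 206 +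
      (-1567) * z ^ 207 + (1578) * z ^ 208 + (-1487) * z ^ 209 + (1378) * z ^ 210 +
      (-1349) * z ^ 211 + (1361) * z ^ 212 + (-1296) * z ^ 213 + (1221) * z ^ 214 +
      (-1199) * z ^ 215 + (1210) * z ^ 216 + (-1168) * z ^ 217 + (1126) * z ^ 218 +
      (-1107) * z ^ 219 + (1069) * z ^ 220 + (-986) * z ^ 221 + (957) * z ^ 222 +
      (-947) * z ^ 223 + (933) * z ^ 224 + (-881) * z ^ 225 + (832) * z ^ 226 +
      (-810) * z ^ 227 + (806) * z ^ 228 + (-766) * z ^ 229 + (713) * z ^ 230 +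
      (-675) * z ^ 231 + (660) * z ^ 232 + (-616) * z ^ 233 + (583) * z ^ 234 +
      (-562) * z ^ 235 + (544) * z ^ 236 + (-501) * z ^ 237 + (486) * z ^ 238 +
      (-488) * z ^ 239 + (470) * z ^ 240 + (-415) * z ^ 241 + (380) * z ^ 242 +
      (-365) * z ^ 243 + (354) * z ^ 244 + (-338) * z ^ 245 + (327) * z ^ 246 +
      (-301) * z ^ 247 + (296) * z ^ 248 + (-279) * z ^ 249 + (252) * z ^ 250 +
      (-234) * z ^ 251 + (223) * z ^ 252 + (-196) * z ^ 253 + (181) * z ^ 254 +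
      (-178) * z ^ 255 + (177) * z ^ 256 + (-158) * z ^ 257 + (142) * z ^ 258 +
      (-133) * z ^ 259 + (131) * z ^ 260 + (-114) * z ^ 261 + (100) * z ^ 262 + (-90) * z ^ 263 +
      (87) * z ^ 264 + (-83) * z ^ 265 + (80) * z ^ 266 + (-73) * z ^ 267 + (70) * z ^ 268 +
      (-60) * z ^ 269 + (52) * z ^ 270 + (-49) * z ^ 271 + (50) * z ^ 272 + (-40) * z ^ 273 +
      (31) * z ^ 274 + (-30) * z ^ 275 + (32) * z ^ 276 + (-26) * z ^ 277 + (22) * z ^ 278 +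
      (-21) * z ^ 279 + (22) * z ^ 280 + (-17) * z ^ 281 + (14) * z ^ 282 + (-12) * z ^ 283 +
      (9) * z ^ 284 + (-7) * z ^ 285 + (9) * z ^ 286 + (-9) * z ^ 287 + (9) * z ^ 288 +
      (-7) * z ^ 289 + (5) * z ^ 290 + (-4) * z ^ 291 + (4) * z ^ 292 + (-2) * z ^ 293 +
      (1) * z ^ 294 + (-2) * z ^ 295 + (3) * z ^ 296 + (-2) * z ^ 297 + (1) * z ^ 298 +
      (-1) * z ^ 299 + (1) * z ^ 300) * h

end Fermat.Agent.Lib.Kummer
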