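import Mathlib

/-!
# Norms in prime cyclotomic fields and a PID certificate

Generic tools to prove that `𝓞 ℚ(ζ_p)` is a PID from the Minkowski bound:

* `norm_aeval_eq_prod` : the norm of `f(ζ)` is `∏_{k=1}^{p-1} f(ζ^k)`;
* `norm_eq_of_prod_eq` : the same, packaged to compute a norm;
* `exists_isPrincipal_primesOver` : an element of norm `± q ^ f` (`f` the order of `q` mod `p`)
  generates a prime ideal over `q`;
* `pid_of_certificate`, `pid_of_certificate'` : the final criterion.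
-/

set_option autoImplicit false

namespace Fermat.Agent.Lib.Kummer

open Polynomial NumberField Ideal Module InfinitePlace Nat Real

theorem prod_units_eq_prod_Ico {p : ℕ} [hp : Fact p.Prime] {M : Type*} [CommMonoid M]
    (g : ℕ → M) : ∏ u : (ZMod p)ˣ, g u.val.val = ∏ k ∈ Finset.Ico 1 p, g k := by
  refine Finset.prod_bij (fun u _ => u.val.val) ?_ ?_ ?_ ?_
  · intro u _
    rw [Finset.mem_Ico]
    refine ⟨?_, ZMod.val_lt _⟩
    rw [Nat.one_le_iff_ne_zero, Ne, ZMod.val_eq_zero]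
    exact u.ne_zero
  · intro u _ v _ h
    exact Units.ext (ZMod.val_injective p h)
  · intro k hk
    rw [Finset.mem_Ico] at hk
    have hcop : k.Coprime p := (Nat.coprime_of_lt_prime (by omega) hk.2 hp.out).symm
    refine ⟨ZMod.unitOfCoprime k hcop, Finset.mem_univ _, ?_⟩
    rw [ZMod.coe_unitOfCoprime, ZMod.val_natCast, Nat.mod_eq_of_lt hk.2]
  · intro u _
    rfl

section Order

variable {p : ℕ} [hp : Fact p.Prime]

theorem natCast_pow_eq_one_iff {q i : ℕ} : (q : ZMod p) ^ i = 1 ↔ q ^ i % p = 1 := by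
  have h1 : (1 : ZMod p) = ((1 : ℕ) : ZMod p) := by simp
  rw [← Nat.cast_pow, h1, ZMod.natCast_eq_natCast_iff', Nat.mod_eq_of_lt hp.out.one_lt]

theorem orderOf_pos_of_not_dvd {q : ℕ} (hq : ¬ p ∣ q) : 0 < orderOf (q : ZMod p) := by
  rw [orderOf_pos_iff, isOfFinOrder_iff_pow_eq_one]
  refine ⟨p - 1, by have := hp.out.two_le; omega, ZMod.pow_card_sub_one_eq_one ?_⟩
  rwa [Ne, ZMod.natCast_eq_zero_iff]

theorem le_orderOf_of_forall {q k : ℕ} (hq : ¬ p ∣ q)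
    (h : ∀ i ∈ Finset.Ico 1 k, q ^ i % p ≠ 1) : k ≤ orderOf (q : ZMod p) := by
  by_contra hlt
  push Not at hlt
  exact h _ (Finset.mem_Ico.mpr ⟨orderOf_pos_of_not_dvd hq, hlt⟩)
    (natCast_pow_eq_one_iff.mp (pow_orderOf_eq_one _))

theorem orderOf_eq_of_forall {q f : ℕ} (hf : 0 < f) (h1 : q ^ f % p = 1)
    (h : ∀ i ∈ Finset.Ico 1 f, q ^ i % p ≠ 1) : orderOf (q : ZMod p) = f := by
  have hq : ¬ p ∣ q := by
    intro hd
    have : p ∣ q ^ f := dvd_pow hd hf.ne'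
    rw [Nat.dvd_iff_mod_eq_zero] at this
    omega
  exact le_antisymm (orderOf_le_of_pow_eq_one hf (natCast_pow_eq_one_iff.mpr h1))
    (le_orderOf_of_forall hq h)

end Order

variable {p : ℕ} [hp : Fact p.Prime] {K : Type*} [Field K] [NumberField K]
  [IsCyclotomicExtension {p} ℚ K] {ζ : K}

/-- The norm of `f(ζ)` is the product of the `f(ζ^u)`, `u ∈ (ℤ/p)ˣ` (in `K`). -/
theorem norm_aeval_eq_prod_units (hζ : IsPrimitiveRoot ζ p) (f : ℤ[X]) :
    algebraMap ℚ K (Algebra.norm ℚ (aeval ζ f)) = ∏ u : (ZMod p)ˣ, aeval (ζ ^ u.val.val) f := by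
  have : IsGalois ℚ K := IsCyclotomicExtension.isGalois {p} ℚ K
  rw [Algebra.norm_eq_prod_automorphisms]
  refine Fintype.prod_equiv (IsCyclotomicExtension.Rat.galEquivZMod p K).toEquiv _ _ fun σ => ?_
  have h1 : σ (aeval ζ f) = aeval (σ ζ) f := by
    have := Polynomial.aeval_algHom_apply ((σ : K →ₐ[ℚ] K).restrictScalars ℤ) ζ f
    simpa using this.symm
  rw [h1, IsCyclotomicExtension.Rat.galEquivZMod_apply_of_pow_eq p K σ hζ.pow_eq_one]
  rfl

/-- The norm of `f(ζ)` is `∏_{k=1}^{p-1} f(ζ^k)` (in `𝓞 K`). -/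
theorem norm_aeval_eq_prod (hζ : IsPrimitiveRoot ζ p) (f : ℤ[X]) :
    ((Algebra.norm ℤ (aeval hζ.toInteger f) : ℤ) : 𝓞 K) =
      ∏ k ∈ Finset.Ico 1 p, aeval (hζ.toInteger ^ k) f := by
  apply RingOfIntegers.coe_injective
  have h1 : ∀ x : 𝓞 K, algebraMap (𝓞 K) K (aeval x f) = aeval (algebraMap (𝓞 K) K x) f := by
    intro x
    exact (Polynomial.aeval_algebraMap_apply K x f).symm
  rw [map_prod, map_intCast]
  simp only [h1, map_pow]
  have h2 : algebraMap (𝓞 K) K hζ.toInteger = ζ := hζ.coe_toInteger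
  rw [h2, ← prod_units_eq_prod_Ico (fun k => aeval (ζ ^ k) f), ← norm_aeval_eq_prod_units hζ f]
  have h3 := Algebra.coe_norm_int (aeval hζ.toInteger f)
  rw [show ((aeval hζ.toInteger f : 𝓞 K) : K) = aeval ζ f from (h1 _).trans (by rw [h2])] at h3
  rw [← h3]
  simp

/-- To compute the norm of `f(ζ)`, compute `∏_{k=1}^{p-1} f(ζ^k)` in `𝓞 K`. -/
theorem norm_eq_of_prod_eq (hζ : IsPrimitiveRoot ζ p) (f : ℤ[X]) (n : ℤ)
    (h : ∏ k ∈ Finset.Ico 1 p, aeval (hζ.toInteger ^ k) f = (n : 𝓞 K)) :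
    Algebra.norm ℤ (aeval hζ.toInteger f) = n := by
  rw [← norm_aeval_eq_prod] at h
  exact_mod_cast h

/-- `1 + ζ + ⋯ + ζ^(p-1) = 0` in `𝓞 K`. -/
theorem sum_pow_toInteger_eq_zero (hζ : IsPrimitiveRoot ζ p) :
    ∑ i ∈ Finset.range p, hζ.toInteger ^ i = 0 :=
  hζ.toInteger_isPrimitiveRoot.geom_sum_eq_zero hp.out.one_lt

/-- An element whose norm is `± q ^ f`, where `f` is the order of `q` modulo `p`, generates a
prime ideal above `q`. -/
theorem exists_isPrincipal_primesOver {q : ℕ} [hq : Fact q.Prime] (hqp : q ≠ p) (α : 𝓞 K)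
    (hα : (Algebra.norm ℤ α).natAbs = q ^ orderOf (q : ZMod p)) :
    ∃ P ∈ primesOver (span {(q : ℤ)}) (𝓞 K), Submodule.IsPrincipal P := by
  have hndvd : ¬ q ∣ p := fun h => hqp ((Nat.prime_dvd_prime_iff_eq hq.out hp.out).mp h)
  have hnorm : absNorm (span {α}) = q ^ orderOf (q : ZMod p) := by
    rw [absNorm_span_singleton, hα]
  have hfpos : 0 < orderOf (q : ZMod p) := by
    obtain ⟨⟨P, hP1, hP2⟩⟩ := (span {(q : ℤ)}).nonempty_primesOver (S := 𝓞 K)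
    rw [← IsCyclotomicExtension.Rat.inertiaDeg_eq_of_not_dvd q K P hndvd]
    have : (span {(q : ℤ)}).IsMaximal :=
      (Nat.prime_iff_prime_int.mp hq.out).isMaximal_span_singleton
    exact inertiaDeg_pos ..
  have hne_top : span {α} ≠ (⊤ : Ideal (𝓞 K)) := by
    intro h
    rw [h, absNorm_top] at hnorm
    have := Nat.one_lt_pow hfpos.ne' hq.out.one_lt
    omega
  obtain ⟨Q, hQmax, hQle⟩ := Ideal.exists_le_maximal _ hne_top
  have hQprime : Q.IsPrime := hQmax.isPrime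
  have hqQ : (q : 𝓞 K) ∈ Q := by
    have h1 : ((q ^ orderOf (q : ZMod p) : ℕ) : 𝓞 K) ∈ Q := hnorm ▸ hQle (absNorm_mem _)
    rw [Nat.cast_pow] at h1
    exact hQprime.mem_of_pow_mem _ h1
  have hlies : Q.LiesOver (span {(q : ℤ)}) := by
    constructor
    have hmax : (span {(q : ℤ)}).IsMaximal :=
      (Nat.prime_iff_prime_int.mp hq.out).isMaximal_span_singleton
    refine hmax.eq_of_le (hQprime.under ℤ).ne_top ?_
    rw [span_singleton_le_iff_mem, Ideal.mem_comap]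
    simpa using hqQ
  refine ⟨Q, ⟨hQprime, hlies⟩, ?_⟩
  have hQnorm : absNorm Q = q ^ orderOf (q : ZMod p) := by
    rw [← IsCyclotomicExtension.Rat.inertiaDeg_eq_of_not_dvd q K Q hndvd, Ideal.pow_inertiaDeg]
  obtain ⟨J, hJ⟩ := Ideal.dvd_iff_le.mpr hQle
  have h2 := congrArg absNorm hJ
  rw [map_mul, hnorm, hQnorm] at h2
  have h3 : absNorm J = 1 := by
    have hpos : 0 < q ^ orderOf (q : ZMod p) := pow_pos hq.out.pos _
    exact (Nat.eq_of_mul_eq_mul_left hpos (by rw [mul_one]; exact h2)).symm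
  rw [absNorm_eq_one_iff] at h3
  rw [h3, mul_top] at hJ
  rw [← hJ]
  exact ⟨α, rfl⟩

variable (p K) in
/-- A rational upper bound for the Minkowski bound of `ℚ(ζ_p)` (using `π > 3.14`). -/
theorem minkowski_lt (hp2 : p ≠ 2) (B : ℕ)
    (hB : (4 / 3.14 : ℝ) ^ (p - 1) * ((p - 1)! : ℝ) ^ 2 * (p : ℝ) ^ (p - 2) <
      ((B : ℝ) + 1) ^ 2 * ((p - 1 : ℕ) : ℝ) ^ (2 * (p - 1))) :
    (4 / π) ^ nrComplexPlaces K *
      ((finrank ℚ K)! / (finrank ℚ K) ^ (finrank ℚ K) * √|(discr K : ℝ)|) < B + 1 := by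
  have hp3 : 3 ≤ p := by
    have := hp.out.two_le
    omega
  have hodd : Odd p := hp.out.odd_of_ne_two hp2
  have hhalf : 2 * ((p - 1) / 2) = p - 1 := by
    obtain ⟨k, hk⟩ := hodd
    omega
  rw [IsCyclotomicExtension.Rat.discr_prime p K, IsCyclotomicExtension.finrank (n := p) K
    (cyclotomic.irreducible_rat hp.out.pos),
    IsCyclotomicExtension.Rat.nrComplexPlaces_eq_totient_div_two p, totient_prime hp.out]
  have habs : |(((-1) ^ ((p - 1) / 2) * (p : ℤ) ^ (p - 2) : ℤ) : ℝ)| = (p : ℝ) ^ (p - 2) := by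
    push_cast
    rw [abs_mul, abs_pow, abs_neg, abs_one, one_pow, one_mul, abs_of_nonneg (by positivity)]
  rw [habs]
  have hn : (0 : ℝ) < ((p - 1 : ℕ) : ℝ) := by
    have : 0 < p - 1 := by omega
    exact_mod_cast this
  refine lt_of_pow_lt_pow_left₀ 2 (by positivity) ?_
  have e1 : ((4 / π) ^ ((p - 1) / 2)) ^ 2 = (4 / π) ^ (p - 1) := by
    rw [← pow_mul, mul_comm, hhalf]
  have e2 : (((p - 1)! : ℝ) / ((p - 1 : ℕ) : ℝ) ^ (p - 1)) ^ 2 =
      ((p - 1)! : ℝ) ^ 2 / ((p - 1 : ℕ) : ℝ) ^ (2 * (p - 1)) := by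
    rw [div_pow, ← pow_mul, mul_comm (p - 1) 2]
  rw [mul_pow, mul_pow, e1, e2, Real.sq_sqrt (by positivity)]
  have hpi : (4 / π) ^ (p - 1) ≤ (4 / 3.14 : ℝ) ^ (p - 1) := by
    gcongr
    exact pi_gt_d2.le
  have hpos : (0 : ℝ) < ((p - 1 : ℕ) : ℝ) ^ (2 * (p - 1)) := by positivity
  calc (4 / π) ^ (p - 1) * (((p - 1)! : ℝ) ^ 2 / ((p - 1 : ℕ) : ℝ) ^ (2 * (p - 1)) * (p : ℝ) ^ (p - 2))
      ≤ (4 / 3.14 : ℝ) ^ (p - 1) *
        (((p - 1)! : ℝ) ^ 2 / ((p - 1 : ℕ) : ℝ) ^ (2 * (p - 1)) * (p : ℝ) ^ (p - 2)) := by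
        gcongr
    _ = ((4 / 3.14 : ℝ) ^ (p - 1) * ((p - 1)! : ℝ) ^ 2 * (p : ℝ) ^ (p - 2)) /
        ((p - 1 : ℕ) : ℝ) ^ (2 * (p - 1)) := by ring
    _ < ((B : ℝ) + 1) ^ 2 := by
        rw [div_lt_iff₀ hpos]
        exact hB

variable (p K) in
/-- PID criterion for `𝓞 ℚ(ζ_p)`: `B` is an upper bound for the Minkowski bound, and every prime
`q ≤ B` is `p`, or has `q ^ f > B`, or there is an element of norm `± q ^ f`
(`f = orderOf (q : ZMod p)`). -/
theorem pid_of_certificate (hp2 : p ≠ 2) (B : ℕ)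
    (hB : (4 / 3.14 : ℝ) ^ (p - 1) * ((p - 1)! : ℝ) ^ 2 * (p : ℝ) ^ (p - 2) <
      ((B : ℝ) + 1) ^ 2 * ((p - 1 : ℕ) : ℝ) ^ (2 * (p - 1)))
    (h : ∀ q ∈ Finset.Icc 1 B, q.Prime → q = p ∨ B < q ^ orderOf (q : ZMod p) ∨
      ∃ α : 𝓞 K, (Algebra.norm ℤ α).natAbs = q ^ orderOf (q : ZMod p)) :
    IsPrincipalIdealRing (𝓞 K) := by
  have : IsGalois ℚ K := IsCyclotomicExtension.isGalois {p} ℚ K
  have hM := minkowski_lt p K hp2 B hB
  set Mk := (4 / π) ^ nrComplexPlaces K *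
      ((finrank ℚ K)! / (finrank ℚ K) ^ (finrank ℚ K) * √|(discr K : ℝ)|) with hMk
  have hfloor : ⌊Mk⌋₊ ≤ B := by
    have h0 : 0 ≤ Mk := by positivity
    have : ⌊Mk⌋₊ < B + 1 := by
      rw [Nat.floor_lt h0]
      exact_mod_cast hM
    omega
  refine RingOfIntegers.isPrincipalIdealRing_of_isPrincipal_of_lt_or_isPrincipal_of_mem_primesOver_of_mem_Icc
    fun q hq hqprime => ?_
  have hqB : q ∈ Finset.Icc 1 B := by
    rw [Finset.mem_Icc] at hq ⊢
    exact ⟨hq.1, hq.2.trans hfloor⟩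
  have : Fact q.Prime := ⟨hqprime⟩
  by_cases hqp : q = p
  · subst hqp
    obtain ⟨⟨P, hP1, hP2⟩⟩ := (span {(q : ℤ)}).nonempty_primesOver (S := 𝓞 K)
    refine ⟨P, ⟨hP1, hP2⟩, Or.inr ?_⟩
    rw [IsCyclotomicExtension.Rat.eq_span_zeta_sub_one_of_liesOver' q K
      (IsCyclotomicExtension.zeta_spec q ℚ K) P]
    exact ⟨_, rfl⟩
  rcases h q hqB hqprime with h1 | hlt | ⟨α, hα⟩
  · exact absurd h1 hqp
  · have hndvd : ¬ q ∣ p := fun h => hqp ((Nat.prime_dvd_prime_iff_eq hqprime hp.out).mp h)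
    obtain ⟨⟨P, hP1, hP2⟩⟩ := (span {(q : ℤ)}).nonempty_primesOver (S := 𝓞 K)
    refine ⟨P, ⟨hP1, hP2⟩, Or.inl ?_⟩
    rw [IsCyclotomicExtension.Rat.inertiaDeg_eq_of_not_dvd q K P hndvd]
    exact lt_of_le_of_lt hfloor hlt
  · obtain ⟨P, hP, hprinc⟩ := exists_isPrincipal_primesOver hqp α hα
    exact ⟨P, hP, Or.inr hprinc⟩

variable (p K) in
/-- Version of `pid_of_certificate` where the orders are certified by elementary conditions on
natural numbers. -/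
theorem pid_of_certificate' (hp2 : p ≠ 2) (B : ℕ)
    (hB : (4 / 3.14 : ℝ) ^ (p - 1) * ((p - 1)! : ℝ) ^ 2 * (p : ℝ) ^ (p - 2) <
      ((B : ℝ) + 1) ^ 2 * ((p - 1 : ℕ) : ℝ) ^ (2 * (p - 1)))
    (h : ∀ q ∈ Finset.Icc 1 B, q.Prime → q = p ∨
      (∃ k, B < q ^ k ∧ ∀ i ∈ Finset.Ico 1 k, q ^ i % p ≠ 1) ∨
      ∃ (f : ℕ) (α : 𝓞 K), 0 < f ∧ q ^ f % p = 1 ∧ (∀ i ∈ Finset.Ico 1 f, q ^ i % p ≠ 1) ∧
        (Algebra.norm ℤ α).natAbs = q ^ f) :
    IsPrincipalIdealRing (𝓞 K) := by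
  refine pid_of_certificate p K hp2 B hB fun q hqB hqprime => ?_
  by_cases hqp : q = p
  · exact Or.inl hqp
  have hndvd : ¬ p ∣ q := fun h => hqp ((Nat.prime_dvd_prime_iff_eq hp.out hqprime).mp h).symm
  rcases h q hqB hqprime with h1 | ⟨k, hk, hki⟩ | ⟨f, α, hf, h1, hfi, hα⟩
  · exact Or.inl h1
  · exact Or.inr (Or.inl (lt_of_lt_of_le hk
      (Nat.pow_le_pow_right hqprime.pos (le_orderOf_of_forall hndvd hki))))
  · exact Or.inr (Or.inr ⟨α, by rw [orderOf_eq_of_forall hf h1 hfi]; exact hα⟩)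

/-! ## helper55's variants (used by `PID13.lean`) -/

section norm

variable {p : ℕ} [hp : Fact p.Prime] {K : Type*} [Field K] [NumberField K]
  [IsCyclotomicExtension {p} ℚ K]

/-- The norm is invariant under the Galois action on the ring of integers. -/
theorem norm_smul_eq (σ : Gal(K/ℚ)) (x : 𝓞 K) : Algebra.norm ℤ (σ • x) = Algebra.norm ℤ x := by
  have h : ((Algebra.norm ℤ (σ • x) : ℤ) : ℚ) = ((Algebra.norm ℤ x : ℤ) : ℚ) := by
    rw [Algebra.coe_norm_int, Algebra.coe_norm_int]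
    exact Algebra.norm_eq_of_algEquiv σ (x : K)
  exact_mod_cast h

theorem smul_aeval_eq (σ : Gal(K/ℚ)) (x : 𝓞 K) (f : ℤ[X]) :
    σ • (aeval x f) = aeval (σ • x) f := by
  induction f using Polynomial.induction_on' with
  | add f g hf hg => simp [smul_add, hf, hg]
  | monomial n a =>
    have ha : σ • ((a : ℤ) : 𝓞 K) = ((a : ℤ) : 𝓞 K) :=
      map_intCast (MulSemiringAction.toRingHom Gal(K/ℚ) (𝓞 K) σ) a
    simp [aeval_monomial, smul_mul', smul_pow', ha]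

/-- Galois conjugates `f(ζ^k)` of `f(ζ)` have the same norm. -/
theorem norm_aeval_pow_eq {ζ : 𝓞 K} (hζ : ζ ^ p = 1) (f : ℤ[X]) {k : ℕ} (hk : k.Coprime p) :
    Algebra.norm ℤ (aeval (ζ ^ k) f) = Algebra.norm ℤ (aeval ζ f) := by
  have : NeZero p := ⟨hp.out.ne_zero⟩
  set σ : Gal(K/ℚ) := (IsCyclotomicExtension.Rat.galEquivZMod p K).symm (ZMod.unitOfCoprime k hk)
    with hσ
  have h1 : σ • ζ = ζ ^ k := by
    rw [IsCyclotomicExtension.Rat.galEquivZMod_smul_of_pow_eq p K σ hζ, hσ,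
      MulEquiv.apply_symm_apply, ZMod.coe_unitOfCoprime, ZMod.val_natCast,
      ← pow_eq_pow_mod k hζ]
  rw [← h1, ← smul_aeval_eq, norm_smul_eq]

/-- If the product of the conjugates `f(ζ^k)`, `1 ≤ k < p`, is the integer `n`, then `f(ζ)` has
norm `± n`. -/
theorem natAbs_norm_aeval_eq {ζ : 𝓞 K} (hζ : ζ ^ p = 1) (f : ℤ[X]) (n : ℤ)
    (h : ∏ k ∈ Finset.Ico 1 p, aeval (ζ ^ k) f = (n : 𝓞 K)) :
    (Algebra.norm ℤ (aeval ζ f)).natAbs = n.natAbs := by
  have hfr : Module.finrank ℤ (𝓞 K) = p - 1 := by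
    rw [RingOfIntegers.rank, IsCyclotomicExtension.finrank (n := p) K
      (cyclotomic.irreducible_rat hp.out.pos), Nat.totient_prime hp.out]
  have h1 : Algebra.norm ℤ (∏ k ∈ Finset.Ico 1 p, aeval (ζ ^ k) f) =
      (Algebra.norm ℤ (aeval ζ f)) ^ (p - 1) := by
    rw [map_prod, Finset.prod_congr rfl (fun k hk => norm_aeval_pow_eq hζ f (k := k) ?_),
      Finset.prod_const, Nat.card_Ico]
    rw [Finset.mem_Ico] at hk
    exact (Nat.coprime_of_lt_prime (by omega) hk.2 hp.out).symm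
  have h2 : Algebra.norm ℤ ((n : 𝓞 K)) = n ^ (p - 1) := by
    have := Algebra.norm_algebraMap_of_basis (Module.Free.chooseBasis ℤ (𝓞 K)) n
    rw [← Module.finrank_eq_card_chooseBasisIndex, hfr] at this
    simpa using this
  rw [h, h2] at h1
  have h3 : n.natAbs ^ (p - 1) = (Algebra.norm ℤ (aeval ζ f)).natAbs ^ (p - 1) := by
    rw [← Int.natAbs_pow, ← Int.natAbs_pow, h1]
  exact (Nat.pow_left_injective (n := p - 1) (by have := hp.out.two_le; omega) h3).symm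

end norm

section principal

variable {m : ℕ} [NeZero m] {K : Type*} [Field K] [NumberField K]
  [IsCyclotomicExtension {m} ℚ K]

/-- If `α ∈ 𝓞 ℚ(ζ_m)` has norm `± q ^ f` where `f` is the order of the prime `q ∤ m` modulo `m`
(i.e. the inertia degree of `q`), then `α` generates a prime ideal above `q`. -/
theorem exists_isPrincipal_mem_primesOver (q : ℕ) [hq : Fact q.Prime] (hqm : ¬ q ∣ m) (α : 𝓞 K)
    (h : (Algebra.norm ℤ α).natAbs = q ^ orderOf (q : ZMod m)) :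
    ∃ P ∈ primesOver (span {(q : ℤ)}) (𝓞 K), Submodule.IsPrincipal P := by
  have hqZ : Prime (q : ℤ) := Nat.prime_iff_prime_int.mp hq.out
  have hmax : (span {(q : ℤ)}).IsMaximal :=
    (isPrime_of_prime (prime_span_singleton_iff.mpr hqZ)).isMaximal (by simp [hq.out.ne_zero])
  -- positivity of the order
  have hfpos : 0 < orderOf (q : ZMod m) := by
    obtain ⟨⟨Q, hQ1, hQ2⟩⟩ := (span {(q : ℤ)}).nonempty_primesOver (S := 𝓞 K)
    rw [← IsCyclotomicExtension.Rat.inertiaDeg_eq_of_not_dvd q K Q hqm]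
    have : Q.IsMaximal := .of_liesOver_isMaximal Q (span {(q : ℤ)})
    exact inertiaDeg_pos ..
  have hI : absNorm (span {α}) = q ^ orderOf (q : ZMod m) := by
    rw [absNorm_span_singleton, h]
  have hne : span {α} ≠ ⊤ := by
    intro htop
    rw [htop, absNorm_top] at hI
    exact absurd hI.symm (Nat.one_lt_pow hfpos.ne' hq.out.one_lt).ne'
  obtain ⟨P, hP, hle⟩ := exists_le_maximal _ hne
  have hPprime : P.IsPrime := hP.isPrime
  have hqP : (q : 𝓞 K) ∈ P := by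
    have h1 : ((q ^ orderOf (q : ZMod m) : ℕ) : 𝓞 K) ∈ P := hI ▸ hle (absNorm_mem _)
    rw [Nat.cast_pow] at h1
    exact hPprime.mem_of_pow_mem _ h1
  have hlies : P.LiesOver (span {(q : ℤ)}) := by
    refine ⟨hmax.eq_of_le ?_ ?_⟩
    · exact (hPprime.under ℤ).ne_top
    · rw [span_singleton_le_iff_mem, mem_comap]
      simpa using hqP
  have hPn : absNorm P = q ^ orderOf (q : ZMod m) := by
    rw [← IsCyclotomicExtension.Rat.inertiaDeg_eq_of_not_dvd q K P hqm]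
    exact (pow_inertiaDeg q P).symm
  obtain ⟨J, hJ⟩ := dvd_iff_le.mpr hle
  have hJ1 : absNorm J = 1 := by
    have h2 := congrArg absNorm hJ
    rw [map_mul, hI, hPn] at h2
    have hpos : 0 < q ^ orderOf (q : ZMod m) := pow_pos hq.out.pos _
    exact (Nat.eq_of_mul_eq_mul_left hpos (by rw [mul_one]; exact h2)).symm
  rw [absNorm_eq_one_iff.mp hJ1, mul_top] at hJ
  exact ⟨P, ⟨hPprime, hlies⟩, hJ ▸ ⟨α, rfl⟩⟩

end principal

end Fermat.Agent.Lib.Kummer
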