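import Fermat.Agent.Lib.Kummer.NormCyclo

/-!
# `ℤ[ζ₁₁]` is a PID
-/

set_option autoImplicit false

namespace Fermat.Agent.Lib.Kummer

open NumberField Polynomial

/-- The polynomial identity behind `N(1 + ζ + ζ³) = 23` in `ℤ[ζ₁₁]`. -/
theorem prod_eleven_aux {R : Type*} [CommRing R] (z : R)
    (hz : 1 + z + z ^ 2 + z ^ 3 + z ^ 4 + z ^ 5 + z ^ 6 + z ^ 7 + z ^ 8 + z ^ 9 + z ^ 10 = 0) :
    (1 + z + z ^ 3) * (1 + z ^ 2 + (z ^ 2) ^ 3) * (1 + z ^ 3 + (z ^ 3) ^ 3) *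
      (1 + z ^ 4 + (z ^ 4) ^ 3) * (1 + z ^ 5 + (z ^ 5) ^ 3) * (1 + z ^ 6 + (z ^ 6) ^ 3) *
      (1 + z ^ 7 + (z ^ 7) ^ 3) * (1 + z ^ 8 + (z ^ 8) ^ 3) * (1 + z ^ 9 + (z ^ 9) ^ 3) *
      (1 + z ^ 10 + (z ^ 10) ^ 3) = 23 := by
  linear_combination ((-22) + (23)*z + (2)*z^3 + (-1)*z^4 + (2)*z^5 + (2)*z^6 + (1)*z^7 + (1)*z^8 + (5)*z^9 + (3)*z^10 + (-21)*z^11 + (30)*z^12 + (2)*z^13 + (8)*z^14 + (8)*z^15 + (7)*z^16 + (6)*z^17 + (16)*z^18 + (4)*z^19 + (16)*z^20 + (18)*z^21 + (-13)*z^22 + (38)*z^23 + (24)*z^24 + (15)*z^25 + (17)*z^26 + (34)*z^27 + (18)*z^28 + (25)*z^29 + (33)*z^30 + (30)*z^31 + (23)*z^32 + (26)*z^33 + (43)*z^34 + (44)*z^35 + (52)*z^36 + (34)*z^37 + (38)*z^38 + (66)*z^39 + (33)*z^40 + (45)*z^41 + (75)*z^42 + (36)*z^43 + (39)*z^44 + (108)*z^45 + (39)*z^46 + (62)*z^47 + (86)*z^48 + (46)*z^49 + (69)*z^50 + (91)*z^51 + (57)*z^52 + (65)*z^53 + (109)*z^54 + (43)*z^55 + (85)*z^56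 + (102)*z^57 + (69)*z^58 + (68)*z^59 + (108)*z^60 + (64)*z^61 + (78)*z^62 + (112)*z^63 + (59)*z^64 + (81)*z^65 + (124)*z^66 + (47)*z^67 + (90)*z^68 + (112)*z^69 + (56)*z^70 + (69)*z^71 + (135)*z^72 + (43)*z^73 + (82)*z^74 + (105)*z^75 + (57)*z^76 + (74)*z^77 + (109)*z^78 + (50)*z^79 + (72)*z^80 + (94)*z^81 + (43)*z^82 + (76)*z^83 + (98)*z^84 + (28)*z^85 + (70)*z^86 + (89)*z^87 + (33)*z^88 + (63)*z^89 + (81)*z^90 + (30)*z^91 + (51)*z^92 + (81)*z^93 + (20)*z^94 + (54)*z^95 + (60)*z^96 + (23)*z^97 + (40)*z^98 + (64)*z^99 + (12)*z^100 + (48)*z^101 + (42)*z^102 + (19)*z^103 + (28)*z^104 + (53)*z^105 + (-1)*z^106 + (42)*z^107 + (25)*z^108 + (17)*z^109 + (19)*z^110 + (40)*z^111 + (-6)*z^112 + (30)*z^113 + (19)*z^114 + (10)*z^115 + (9)*z^116 + (31)*z^117 + (-9)*z^118 + (22)*z^119 + (11)*z^120 + (10)*z^121 + (4)*z^122 + (21)*z^123 + (-10)*z^124 + (19)*z^125 + (2)*z^126 + (5)*z^127 + (3)*z^128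 + (12)*z^129 + (-7)*z^130 + (13)*z^131 + (1)*z^132 + (3)*z^133 + (9)*z^135 + (-6)*z^136 + (7)*z^137 + (2)*z^139 + (-1)*z^140 + (5)*z^141 + (-3)*z^142 + (4)*z^143 + (2)*z^147 + (-2)*z^148 + (3)*z^149 + (-1)*z^150 + (1)*z^153 + (-1)*z^154 + (1)*z^155) * hz

theorem norm_eleven (K : Type*) [Field K] [NumberField K] [IsCyclotomicExtension {11} ℚ K] :
    ∃ α : 𝓞 K, (Algebra.norm ℤ α).natAbs = 23 := by
  have : Fact (Nat.Prime 11) := ⟨by norm_num⟩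
  have hζ := IsCyclotomicExtension.zeta_spec 11 ℚ K
  refine ⟨aeval hζ.toInteger (1 + X + X ^ 3 : ℤ[X]), ?_⟩
  rw [norm_eq_of_prod_eq hζ (1 + X + X ^ 3 : ℤ[X]) 23]
  · rfl
  have hz := sum_pow_toInteger_eq_zero hζ
  simp only [Finset.sum_range_succ, Finset.sum_range_zero, zero_add, pow_zero, pow_one] at hz
  have h := prod_eleven_aux hζ.toInteger hz
  simp only [Finset.prod_Ico_succ_top, Finset.Ico_self, Finset.prod_empty, one_mul, map_add,
    map_one, aeval_X, map_pow, pow_one, Nat.one_le_ofNat,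
    le_refl]
  rw [h]
  norm_num

theorem pid_eleven (K : Type*) [Field K] [NumberField K] [IsCyclotomicExtension {11} ℚ K] :
    IsPrincipalIdealRing (𝓞 K) := by
  have : Fact (Nat.Prime 11) := ⟨by norm_num⟩
  refine pid_of_certificate' 11 K (by norm_num) 59 ?_ ?_
  · norm_num [Nat.factorial]
  · intro q hq hqp
    rw [Finset.mem_Icc] at hq
    obtain ⟨h1, h2⟩ := hq
    by_cases h23 : q = 23
    · subst h23
      obtain ⟨α, hα⟩ := norm_eleven K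
      exact Or.inr (Or.inr ⟨1, α, by norm_num, by norm_num, by decide, by simpa using hα⟩)
    by_cases h11 : q = 11
    · exact Or.inl h11
    by_cases h8 : 8 ≤ q
    · refine Or.inr (Or.inl ⟨2, by nlinarith, ?_⟩)
      intro i hi
      have hi1 : i = 1 := by
        rw [Finset.mem_Ico] at hi
        omega
      subst hi1
      rw [pow_one]
      intro hmod
      have hcases : q = 12 ∨ q = 23 ∨ q = 34 ∨ q = 45 ∨ q = 56 := by omega
      rcases hcases with rfl | rfl | rfl | rfl | rfl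
      · exact absurd hqp (by norm_num)
      · exact h23 rfl
      · exact absurd hqp (by norm_num)
      · exact absurd hqp (by norm_num)
      · exact absurd hqp (by norm_num)
    · interval_cases q
      · exact absurd hqp (by norm_num)
      · exact Or.inr (Or.inl ⟨6, by norm_num, by decide⟩)
      · exact Or.inr (Or.inl ⟨4, by norm_num, by decide⟩)
      · exact absurd hqp (by norm_num)
      · exact Or.inr (Or.inl ⟨3, by norm_num, by decide⟩)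
      · exact absurd hqp (by norm_num)
      · exact Or.inr (Or.inl ⟨3, by norm_num, by decide⟩)

end Fermat.Agent.Lib.Kummer
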