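import Mathlib

/-!
# Norms of explicit elements of `ℤ[ζ_p]` and principal primes

Generic tools to prove that `𝓞 ℚ(ζ_p)` is a PID with the Minkowski bound criterion.
-/

set_option autoImplicit false

namespace Fermat.Agent.Lib.Kummer.PID13Aux

open NumberField Polynomial Ideal

section norm

variable {p : ℕ} [hp : Fact p.Prime] {K : Type*} [Field K] [NumberField K]
  [IsCyclotomicExtension {p} ℚ K]

/-- The norm is invariant under the Galois action on the ring of integers. -/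
theorem norm_smul_eq (σ : Gal(K/ℚ)) (x : 𝓞 K) : Algebra.norm ℤ (σ • x) = Algebra.norm ℤ x := by
  have h : ((Algebra.norm ℤ (σ • x) : ℤ) : ℚ) = ((Algebra.norm ℤ x : ℤ) : ℚ) := by
    rw [Algebra.coe_norm_int, Algebra.coe_norm_int]
    exact Algebra.norm_eq_of_algEquiv σ (x : K)
  exact_mod_cast h

theorem smul_aeval_eq (σ : Gal(K/ℚ)) (x : 𝓞 K) (f : ℤ[X]) :
    σ • (aeval x f) = aeval (σ • x) f := by
  induction f using Polynomial.induction_on' with
  | add f g hf hg => simp [smul_add, hf, hg]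
  | monomial n a =>
    have ha : σ • ((a : ℤ) : 𝓞 K) = ((a : ℤ) : 𝓞 K) :=
      map_intCast (MulSemiringAction.toRingHom Gal(K/ℚ) (𝓞 K) σ) a
    simp [aeval_monomial, smul_mul', smul_pow', ha]

/-- Galois conjugates `f(ζ^k)` of `f(ζ)` have the same norm. -/
theorem norm_aeval_pow_eq {ζ : 𝓞 K} (hζ : ζ ^ p = 1) (f : ℤ[X]) {k : ℕ} (hk : k.Coprime p) :
    Algebra.norm ℤ (aeval (ζ ^ k) f) = Algebra.norm ℤ (aeval ζ f) := by
  have : NeZero p := ⟨hp.out.ne_zero⟩
  set σ : Gal(K/ℚ) := (IsCyclotomicExtension.Rat.galEquivZMod p K).symm (ZMod.unitOfCoprime k hk)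
    with hσ
  have h1 : σ • ζ = ζ ^ k := by
    rw [IsCyclotomicExtension.Rat.galEquivZMod_smul_of_pow_eq p K σ hζ, hσ,
      MulEquiv.apply_symm_apply, ZMod.coe_unitOfCoprime, ZMod.val_natCast,
      ← pow_eq_pow_mod k hζ]
  rw [← h1, ← smul_aeval_eq, norm_smul_eq]

/-- If the product of the conjugates `f(ζ^k)`, `1 ≤ k < p`, is the integer `n`, then `f(ζ)` has
norm `± n`. -/
theorem natAbs_norm_aeval_eq {ζ : 𝓞 K} (hζ : ζ ^ p = 1) (f : ℤ[X]) (n : ℤ)
    (h : ∏ k ∈ Finset.Ico 1 p, aeval (ζ ^ k) f = (n : 𝓞 K)) :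
    (Algebra.norm ℤ (aeval ζ f)).natAbs = n.natAbs := by
  have hfr : Module.finrank ℤ (𝓞 K) = p - 1 := by
    rw [RingOfIntegers.rank, IsCyclotomicExtension.finrank (n := p) K
      (cyclotomic.irreducible_rat hp.out.pos), Nat.totient_prime hp.out]
  have h1 : Algebra.norm ℤ (∏ k ∈ Finset.Ico 1 p, aeval (ζ ^ k) f) =
      (Algebra.norm ℤ (aeval ζ f)) ^ (p - 1) := by
    rw [map_prod, Finset.prod_congr rfl (fun k hk => norm_aeval_pow_eq hζ f (k := k) ?_),
      Finset.prod_const, Nat.card_Ico]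
    rw [Finset.mem_Ico] at hk
    exact (Nat.coprime_of_lt_prime (by omega) hk.2 hp.out).symm
  have h2 : Algebra.norm ℤ ((n : 𝓞 K)) = n ^ (p - 1) := by
    have := Algebra.norm_algebraMap_of_basis (Module.Free.chooseBasis ℤ (𝓞 K)) n
    rw [← Module.finrank_eq_card_chooseBasisIndex, hfr] at this
    simpa using this
  rw [h, h2] at h1
  have h3 : n.natAbs ^ (p - 1) = (Algebra.norm ℤ (aeval ζ f)).natAbs ^ (p - 1) := by
    rw [← Int.natAbs_pow, ← Int.natAbs_pow, h1]
  exact (Nat.pow_left_injective (n := p - 1) (by have := hp.out.two_le; omega) h3).symm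

end norm

section principal

variable {m : ℕ} [NeZero m] {K : Type*} [Field K] [NumberField K]
  [IsCyclotomicExtension {m} ℚ K]

/-- If `α ∈ 𝓞 ℚ(ζ_m)` has norm `± q ^ f` where `f` is the order of the prime `q ∤ m` modulo `m`
(i.e. the inertia degree of `q`), then `α` generates a prime ideal above `q`. -/
theorem exists_isPrincipal_mem_primesOver (q : ℕ) [hq : Fact q.Prime] (hqm : ¬ q ∣ m) (α : 𝓞 K)
    (h : (Algebra.norm ℤ α).natAbs = q ^ orderOf (q : ZMod m)) :
    ∃ P ∈ primesOver (span {(q : ℤ)}) (𝓞 K), Submodule.IsPrincipal P := by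
  have hqZ : Prime (q : ℤ) := Nat.prime_iff_prime_int.mp hq.out
  have hmax : (span {(q : ℤ)}).IsMaximal :=
    (isPrime_of_prime (prime_span_singleton_iff.mpr hqZ)).isMaximal (by simp [hq.out.ne_zero])
  -- positivity of the order
  have hfpos : 0 < orderOf (q : ZMod m) := by
    obtain ⟨⟨Q, hQ1, hQ2⟩⟩ := (span {(q : ℤ)}).nonempty_primesOver (S := 𝓞 K)
    rw [← IsCyclotomicExtension.Rat.inertiaDeg_eq_of_not_dvd q K Q hqm]
    have : Q.IsMaximal := .of_liesOver_isMaximal Q (span {(q : ℤ)})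
    exact inertiaDeg_pos ..
  have hI : absNorm (span {α}) = q ^ orderOf (q : ZMod m) := by
    rw [absNorm_span_singleton, h]
  have hne : span {α} ≠ ⊤ := by
    intro htop
    rw [htop, absNorm_top] at hI
    exact absurd hI.symm (Nat.one_lt_pow hfpos.ne' hq.out.one_lt).ne'
  obtain ⟨P, hP, hle⟩ := exists_le_maximal _ hne
  have hPprime : P.IsPrime := hP.isPrime
  have hqP : (q : 𝓞 K) ∈ P := by
    have h1 : ((q ^ orderOf (q : ZMod m) : ℕ) : 𝓞 K) ∈ P := hI ▸ hle (absNorm_mem _)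
    rw [Nat.cast_pow] at h1
    exact hPprime.mem_of_pow_mem _ h1
  have hlies : P.LiesOver (span {(q : ℤ)}) := by
    refine ⟨hmax.eq_of_le ?_ ?_⟩
    · exact (hPprime.under ℤ).ne_top
    · rw [span_singleton_le_iff_mem, mem_comap]
      simpa using hqP
  have hPn : absNorm P = q ^ orderOf (q : ZMod m) := by
    rw [← IsCyclotomicExtension.Rat.inertiaDeg_eq_of_not_dvd q K P hqm]
    exact (pow_inertiaDeg q P).symm
  obtain ⟨J, hJ⟩ := dvd_iff_le.mpr hle
  have hJ1 : absNorm J = 1 := by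
    have h2 := congrArg absNorm hJ
    rw [map_mul, hI, hPn] at h2
    have hpos : 0 < q ^ orderOf (q : ZMod m) := pow_pos hq.out.pos _
    exact (Nat.eq_of_mul_eq_mul_left hpos (by rw [mul_one]; exact h2)).symm
  rw [absNorm_eq_one_iff.mp hJ1, mul_top] at hJ
  exact ⟨P, ⟨hPprime, hlies⟩, hJ ▸ ⟨α, rfl⟩⟩

end principal

end Fermat.Agent.Lib.Kummer.PID13Aux
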