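import Mathlib
import Fermat.Agent.Lib.Kummer.PID13Aux
import Fermat.Agent.Lib.Kummer.Norm13

/-!
# `ℤ[ζ₁₃]` is a principal ideal domain
-/

set_option autoImplicit false

namespace Fermat.Agent.Lib.Kummer

open NumberField Polynomial Ideal Module InfinitePlace Real PID13Aux

section

variable (K : Type*) [Field K] [NumberField K] [IsCyclotomicExtension {13} ℚ K]

theorem minkowski_thirteen_lt :
    (4 / π) ^ nrComplexPlaces K *
      ((Nat.factorial (finrank ℚ K) : ℝ) / (finrank ℚ K) ^ (finrank ℚ K) * √|(discr K : ℝ)|) < 313 := by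
  have : Fact (Nat.Prime 13) := ⟨by norm_num⟩
  rw [IsCyclotomicExtension.Rat.discr_prime 13 K, IsCyclotomicExtension.finrank (n := 13) K
    (cyclotomic.irreducible_rat (by simp)),
    IsCyclotomicExtension.Rat.nrComplexPlaces_eq_totient_div_two 13,
    Nat.totient_prime (by norm_num : Nat.Prime 13)]
  have h12 : Nat.factorial (13 - 1) = 479001600 := by decide
  rw [h12]
  have hs : √|(((-1) ^ ((13 - 1) / 2) * (13 : ℕ) ^ (13 - 2) : ℤ) : ℝ)| < 1338720 := by
    rw [Real.sqrt_lt' (by norm_num)]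
    norm_num
  have hpi : (4 / π) ^ ((13 - 1) / 2) < (4 / 3.14 : ℝ) ^ 6 := by
    have h6 : (13 - 1) / 2 = 6 := by norm_num
    rw [h6]
    have h1 : 4 / π < 4 / 3.14 := by
      apply div_lt_div_of_pos_left (by norm_num) (by norm_num) Real.pi_gt_d2
    have h0 : 0 ≤ 4 / π := by positivity
    exact pow_lt_pow_left₀ h1 h0 (by norm_num)
  have hs0 : 0 ≤ √|(((-1) ^ ((13 - 1) / 2) * (13 : ℕ) ^ (13 - 2) : ℤ) : ℝ)| := Real.sqrt_nonneg _
  have hpi0 : 0 ≤ (4 / π) ^ ((13 - 1) / 2) := by positivity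
  calc (4 / π) ^ ((13 - 1) / 2) * (((479001600 : ℕ) : ℝ) / ((13 - 1 : ℕ) : ℝ) ^ (13 - 1) *
          √|(((-1) ^ ((13 - 1) / 2) * (13 : ℕ) ^ (13 - 2) : ℤ) : ℝ)|)
      ≤ (4 / 3.14 : ℝ) ^ 6 * (((479001600 : ℕ) : ℝ) / ((13 - 1 : ℕ) : ℝ) ^ (13 - 1) * 1338720) := by
        gcongr
    _ < 313 := by norm_num

end

theorem arith13 (q : ℕ) (hq : q.Prime) (h13 : q ≠ 13)
    (hl : q ≠ 3 ∧ q ≠ 53 ∧ q ≠ 79 ∧ q ≠ 131 ∧ q ≠ 157) : 312 < q ^ orderOf (q : ZMod 13) := by
  have : Fact (Nat.Prime 13) := ⟨by norm_num⟩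
  by_contra hcon
  replace hcon := not_lt.mp hcon
  have hq0 : (q : ZMod 13) ≠ 0 := by
    intro h0
    rw [ZMod.natCast_eq_zero_iff] at h0
    exact h13 ((Nat.prime_dvd_prime_iff_eq (by norm_num) hq).mp h0).symm
  have hfpos : 0 < orderOf (q : ZMod 13) := by
    rw [orderOf_pos_iff, isOfFinOrder_iff_pow_eq_one]
    exact ⟨12, by norm_num, ZMod.pow_card_sub_one_eq_one hq0⟩
  have hpow : (q : ZMod 13) ^ orderOf (q : ZMod 13) = 1 := pow_orderOf_eq_one _
  generalize orderOf (q : ZMod 13) = f at *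
  have hmod : q ^ f % 13 = 1 := by
    have h1 : ((q ^ f : ℕ) : ZMod 13) = ((1 : ℕ) : ZMod 13) := by push_cast; exact hpow
    rw [ZMod.natCast_eq_natCast_iff'] at h1
    simpa using h1
  have h2 : 2 ≤ q := hq.two_le
  have hf9 : f < 9 := by
    by_contra h9
    replace h9 := not_lt.mp h9
    have : 2 ^ 9 ≤ q ^ f := (Nat.pow_le_pow_right (by norm_num) h9).trans (Nat.pow_le_pow_left h2 f)
    omega
  rcases Nat.lt_or_ge f 4 with hf4 | hf4
  · interval_cases f
    · -- f = 1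
      rw [pow_one] at hmod hcon
      obtain ⟨k, hk⟩ : ∃ k, q = 13 * k + 1 := ⟨q / 13, by omega⟩
      have hk23 : k ≤ 23 := by omega
      subst hk
      interval_cases k <;> first | omega | (revert hq; norm_num)
    · have : q ≤ 17 := by nlinarith
      interval_cases q <;> first | omega | (revert hq; norm_num)
    · have : q ≤ 6 := by
        by_contra h
        replace h := not_le.mp h
        have : 7 ^ 3 ≤ q ^ 3 := Nat.pow_le_pow_left h 3
        omega
      interval_cases q <;> omega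
  · have hq4 : q ≤ 4 := by
      by_contra h
      replace h := not_le.mp h
      have h5 : 5 ^ 4 ≤ q ^ 4 := Nat.pow_le_pow_left h 4
      have h6 : q ^ 4 ≤ q ^ f := Nat.pow_le_pow_right (by omega) hf4
      omega
    interval_cases q
    · interval_cases f <;> omega
    · omega
    · revert hq; norm_num

theorem sum_pow_zeta_eq_zero {R : Type*} [CommRing R] [IsDomain R] {z : R}
    (hz : IsPrimitiveRoot z 13) :
    1 + z + z ^ 2 + z ^ 3 + z ^ 4 + z ^ 5 + z ^ 6 + z ^ 7 + z ^ 8 + z ^ 9 + z ^ 10 + z ^ 11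
      + z ^ 12 = 0 := by
  have h := hz.geom_sum_eq_zero (by norm_num)
  simpa [Finset.sum_range_succ] using h

section

variable (K : Type*) [Field K] [NumberField K] [IsCyclotomicExtension {13} ℚ K]

theorem exists_principal_thirteen (q : ℕ) [Fact q.Prime] (hq13 : ¬ q ∣ 13) (e : ℕ)
    (he : orderOf (q : ZMod 13) = e) (f : ℤ[X])
    (h : ∀ z : 𝓞 K, 1 + z + z ^ 2 + z ^ 3 + z ^ 4 + z ^ 5 + z ^ 6 + z ^ 7 + z ^ 8 + z ^ 9 + z ^ 10
      + z ^ 11 + z ^ 12 = 0 → ∏ k ∈ Finset.Ico 1 13, aeval (z ^ k) f = (((q ^ e : ℕ) : ℤ) : 𝓞 K)) :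
    ∃ P ∈ primesOver (span {(q : ℤ)}) (𝓞 K), Submodule.IsPrincipal P := by
  have : Fact (Nat.Prime 13) := ⟨by norm_num⟩
  have hζ := (IsCyclotomicExtension.zeta_spec 13 ℚ K).toInteger_isPrimitiveRoot
  refine exists_isPrincipal_mem_primesOver (m := 13) q hq13
    (aeval (IsCyclotomicExtension.zeta_spec 13 ℚ K).toInteger f) ?_
  rw [natAbs_norm_aeval_eq (p := 13) hζ.pow_eq_one f _ (h _ (sum_pow_zeta_eq_zero hζ)), he]
  simp

theorem pid_thirteen : IsPrincipalIdealRing (𝓞 K) := by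
  have : Fact (Nat.Prime 13) := ⟨by norm_num⟩
  have : IsGalois ℚ K := IsCyclotomicExtension.isGalois {13} ℚ K
  have hM := minkowski_thirteen_lt K
  apply RingOfIntegers.isPrincipalIdealRing_of_isPrincipal_of_lt_or_isPrincipal_of_mem_primesOver_of_mem_Icc
  intro q hq hqp
  have hB : ⌊(4 / π) ^ nrComplexPlaces K *
      ((Nat.factorial (finrank ℚ K) : ℝ) / (finrank ℚ K) ^ (finrank ℚ K) * √|(discr K : ℝ)|)⌋₊
      < 313 := by
    rw [Nat.floor_lt (by positivity)]
    exact_mod_cast hM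
  have : Fact q.Prime := ⟨hqp⟩
  by_cases h13 : q = 13
  · subst h13
    obtain ⟨⟨P, hP1, hP2⟩⟩ := (span {((13 : ℕ) : ℤ)}).nonempty_primesOver (S := 𝓞 K)
    refine ⟨P, ⟨hP1, hP2⟩, Or.inr ?_⟩
    rw [IsCyclotomicExtension.Rat.eq_span_zeta_sub_one_of_liesOver' 13 K
      (IsCyclotomicExtension.zeta_spec 13 ℚ K) P]
    exact ⟨_, rfl⟩
  have hnd : ¬ q ∣ 13 := fun h => h13 ((Nat.prime_dvd_prime_iff_eq hqp (by norm_num)).mp h)
  by_cases hl : q ≠ 3 ∧ q ≠ 53 ∧ q ≠ 79 ∧ q ≠ 131 ∧ q ≠ 157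
  · obtain ⟨⟨P, hP1, hP2⟩⟩ := (span {(q : ℤ)}).nonempty_primesOver (S := 𝓞 K)
    refine ⟨P, ⟨hP1, hP2⟩, Or.inl ?_⟩
    rw [IsCyclotomicExtension.Rat.inertiaDeg_eq_of_not_dvd q K P hnd]
    have := arith13 q hqp h13 hl
    omega
  · have hcases : q = 3 ∨ q = 53 ∨ q = 79 ∨ q = 131 ∨ q = 157 := by omega
    have key : ∃ P ∈ primesOver (span {(q : ℤ)}) (𝓞 K), Submodule.IsPrincipal P := by
      rcases hcases with rfl | rfl | rfl | rfl | rfl
      · refine exists_principal_thirteen K 3 hnd 3 ?_ (1 - X ^ 2 - X ^ 3) ?_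
        · exact orderOf_eq_prime (by decide) (by decide)
        · intro z hz
          simpa using prod_conj_27 z hz
      · refine exists_principal_thirteen K 53 hnd 1 ?_ (1 - X + X ^ 3) ?_
        · rw [orderOf_eq_one_iff]; decide
        · intro z hz
          simpa using prod_conj_53 z hz
      · refine exists_principal_thirteen K 79 hnd 1 ?_ (1 - X - X ^ 4) ?_
        · rw [orderOf_eq_one_iff]; decide
        · intro z hz
          simpa using prod_conj_79 z hz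
      · refine exists_principal_thirteen K 131 hnd 1 ?_ (1 - X - X ^ 3) ?_
        · rw [orderOf_eq_one_iff]; decide
        · intro z hz
          simpa using prod_conj_131 z hz
      · refine exists_principal_thirteen K 157 hnd 1 ?_ (1 - X + X ^ 2 + X ^ 4) ?_
        · rw [orderOf_eq_one_iff]; decide
        · intro z hz
          simpa using prod_conj_157 z hz
    obtain ⟨P, hP, hPp⟩ := key
    exact ⟨P, hP, Or.inr hPp⟩

end

end Fermat.Agent.Lib.Kummer
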