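import Fermat.Agent.Lib.Kummer.NormCyclo

/-!
# `ℤ[ζ₇]` is a PID
-/

set_option autoImplicit false

namespace Fermat.Agent.Lib.Kummer

open NumberField

theorem pid_seven (K : Type*) [Field K] [NumberField K] [IsCyclotomicExtension {7} ℚ K] :
    IsPrincipalIdealRing (𝓞 K) := by
  have : Fact (Nat.Prime 7) := ⟨by norm_num⟩
  refine pid_of_certificate' 7 K (by norm_num) 4 ?_ ?_
  · norm_num [Nat.factorial]
  · intro q hq hqp
    rw [Finset.mem_Icc] at hq
    obtain ⟨h1, h2⟩ := hq
    interval_cases q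
    · exact absurd hqp (by norm_num)
    · exact Or.inr (Or.inl ⟨3, by norm_num, by decide⟩)
    · exact Or.inr (Or.inl ⟨2, by norm_num, by decide⟩)
    · exact absurd hqp (by norm_num)

end Fermat.Agent.Lib.Kummer
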