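import Fermat.Agent.Lib.Kummer.Defs

/-!
# K-T1 : the ring of integers of `ℚ(ζ_p)` satisfies `Setup`.
-/

set_option autoImplicit false

namespace Fermat.Agent.Lib.Kummer

open Polynomial NumberField

theorem setup_cyclotomic (p : ℕ) [Fact p.Prime] (hp : 3 ≤ p) (K : Type*) [Field K] [NumberField K]
    [IsCyclotomicExtension {p} ℚ K] {ζ : K} (hζ : IsPrimitiveRoot ζ p) :
    Setup (𝓞 K) p hζ.toInteger where
  prime_p := Fact.out
  three_le := hp
  prim := hζ.toInteger_isPrimitiveRoot
  prime_lam := hζ.zeta_sub_one_prime'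
  lam_dvd_int := fun n => IsCyclotomicExtension.Rat.zeta_sub_one_dvd_intCast_iff' p hζ
  assoc := IsCyclotomicExtension.Rat.associated_zeta_sub_one_pow_prime p hζ
  exists_poly := by
    intro x
    have htop := IsCyclotomicExtension.Rat.adjoin_singleton_eq_top (K := K) hζ
    have hx : x ∈ Algebra.adjoin ℤ {hζ.toInteger} := by rw [htop]; exact Algebra.mem_top
    rw [Algebra.adjoin_singleton_eq_range_aeval] at hx
    obtain ⟨f, hf⟩ := hx
    exact ⟨f, hf⟩
  cyclo_dvd := by
    intro f hf
    have hpos : 0 < p := (Fact.out : p.Prime).pos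
    have hf' : aeval ζ f = 0 := by
      have h := congrArg (algebraMap (𝓞 K) K) hf
      rw [← aeval_algebraMap_apply, map_zero] at h
      exact h
    rw [cyclotomic_eq_minpoly hζ hpos]
    exact minpoly.isIntegrallyClosed_dvd (hζ.isIntegral hpos) hf'

end Fermat.Agent.Lib.Kummer
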