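import Fermat.Agent.Lib.Kummer.Defs

/-!
# Sophie Germain's theorem and the first case of FLT for `p = 5, 7, 11, 13`
-/

set_option autoImplicit false

namespace Fermat.Agent.Lib.Kummer

open Finset

/-- `sgPhi p y z = (y ^ p + z ^ p) / (y + z)` for odd `p`. -/
def sgPhi (p : ℕ) (y z : ℤ) : ℤ := ∑ i ∈ range p, y ^ i * (-z) ^ (p - 1 - i)

lemma sgPhi_mul {p : ℕ} (hp : Odd p) (y z : ℤ) : (y + z) * sgPhi p y z = y ^ p + z ^ p := by
  have h := geom_sum₂_mul y (-z) p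
  rw [hp.neg_pow, sub_neg_eq_add, sub_neg_eq_add] at h
  rw [mul_comm]
  exact h

lemma isCoprime_add_sgPhi {p : ℕ} (hp : p.Prime) (hodd : Odd p) {y z : ℤ} (hyz : IsCoprime y z)
    (hpx : ¬ (p : ℤ) ∣ y ^ p + z ^ p) : IsCoprime (y + z) (sgPhi p y z) := by
  refine isCoprime_of_prime_dvd ?_ ?_
  · rintro ⟨h0, -⟩
    apply hpx
    rw [← sgPhi_mul hodd, h0, zero_mul]
    exact dvd_zero _
  · intro r hr hr1 hr2
    have h' : r ∣ y - (-z) := by rwa [sub_neg_eq_add]
    have h3 : r ∣ (p : ℤ) * (-z) ^ (p - 1) := by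
      have := (dvd_geom_sum₂_iff_of_dvd_sub (n := p) h').mp hr2
      exact_mod_cast this
    rcases hr.dvd_or_dvd h3 with h4 | h4
    · have hp' : Prime (p : ℤ) := Nat.prime_iff_prime_int.mp hp
      have hass : Associated r (p : ℤ) := (hr.dvd_prime_iff_associated hp').mp h4
      apply hpx
      rw [← sgPhi_mul hodd]
      exact Dvd.dvd.mul_right (hass.dvd_iff_dvd_left.mp hr1) _
    · have h5 : r ∣ z := by
        have := hr.dvd_of_dvd_pow h4
        rwa [dvd_neg] at this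
      have h6 : r ∣ y := by
        have := dvd_sub hr1 h5
        rwa [add_sub_cancel_right] at this
      exact hr.not_isUnit (hyz.isUnit_of_dvd' h6 h5)

lemma exists_pow_of_sum_eq_zero {p : ℕ} (hp : p.Prime) (hodd : Odd p) {x y z : ℤ}
    (hyz : IsCoprime y z) (hpx : ¬ (p : ℤ) ∣ x) (h : x ^ p + y ^ p + z ^ p = 0) :
    (∃ A : ℤ, y + z = A ^ p) ∧ ∃ α : ℤ, sgPhi p y z = α ^ p := by
  have hsum : y ^ p + z ^ p = (-x) ^ p := by
    rw [hodd.neg_pow]; linarith
  have hp' : Prime (p : ℤ) := Nat.prime_iff_prime_int.mp hp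
  have hnd : ¬ (p : ℤ) ∣ y ^ p + z ^ p := by
    rw [hsum]
    intro hd
    have := hp'.dvd_of_dvd_pow hd
    rw [dvd_neg] at this
    exact hpx this
  have hcop := isCoprime_add_sgPhi hp hodd hyz hnd
  exact Int.eq_pow_of_mul_eq_pow_odd hcop hodd ((sgPhi_mul hodd y z).trans hsum)

lemma sgPhi_cast {q : ℕ} (p : ℕ) (y z : ℤ) :
    ((sgPhi p y z : ℤ) : ZMod q) =
      ∑ i ∈ range p, (y : ZMod q) ^ i * (-(z : ZMod q)) ^ (p - 1 - i) := by
  simp [sgPhi]

lemma sg_aux {p q : ℕ} (hp : p.Prime) (hodd : Odd p) [Fact q.Prime]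
    (h1 : ∀ x y z : ZMod q, x ^ p + y ^ p + z ^ p = 0 → x = 0 ∨ y = 0 ∨ z = 0)
    (h2 : ∀ x : ZMod q, x ^ p ≠ (p : ZMod q))
    {x y z : ℤ} (hxy : IsCoprime x y) (hyz : IsCoprime y z) (hzx : IsCoprime z x)
    (hpx : ¬ (p : ℤ) ∣ x) (hpy : ¬ (p : ℤ) ∣ y) (hpz : ¬ (p : ℤ) ∣ z)
    (h : x ^ p + y ^ p + z ^ p = 0) (hqx : (q : ℤ) ∣ x) : False := by
  have hq : q.Prime := Fact.out
  have hq' : Prime (q : ℤ) := Nat.prime_iff_prime_int.mp hq
  obtain ⟨⟨A, hA⟩, ⟨α, hα⟩⟩ := exists_pow_of_sum_eq_zero hp hodd hyz hpx h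
  obtain ⟨⟨B, hB⟩, -⟩ := exists_pow_of_sum_eq_zero hp hodd hzx hpy
    (by linarith : y ^ p + z ^ p + x ^ p = 0)
  obtain ⟨⟨C, hC⟩, ⟨γ, hγ⟩⟩ := exists_pow_of_sum_eq_zero hp hodd hxy hpz
    (by linarith : z ^ p + x ^ p + y ^ p = 0)
  have hx0 : (x : ZMod q) = 0 := (ZMod.intCast_zmod_eq_zero_iff_dvd x q).mpr hqx
  have hy0 : (y : ZMod q) ≠ 0 := by
    intro hy
    have hqy : (q : ℤ) ∣ y := (ZMod.intCast_zmod_eq_zero_iff_dvd y q).mp hy
    exact hq'.not_isUnit (hxy.isUnit_of_dvd' hqx hqy)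
  have hz0 : (z : ZMod q) ≠ 0 := by
    intro hz
    have hqz : (q : ℤ) ∣ z := (ZMod.intCast_zmod_eq_zero_iff_dvd z q).mp hz
    exact hq'.not_isUnit (hzx.isUnit_of_dvd' hqz hqx)
  have hAq : (y : ZMod q) + z = (A : ZMod q) ^ p := by exact_mod_cast congrArg (Int.cast : ℤ → ZMod q) hA
  have hBq : (z : ZMod q) + x = (B : ZMod q) ^ p := by exact_mod_cast congrArg (Int.cast : ℤ → ZMod q) hB
  have hCq : (x : ZMod q) + y = (C : ZMod q) ^ p := by exact_mod_cast congrArg (Int.cast : ℤ → ZMod q) hC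
  have hsum : (B : ZMod q) ^ p + (C : ZMod q) ^ p + (-(A : ZMod q)) ^ p = 0 := by
    rw [hodd.neg_pow, ← hAq, ← hBq, ← hCq, hx0]; ring
  have hp0 : p ≠ 0 := hp.ne_zero
  rcases h1 _ _ _ hsum with hB0 | hC0 | hA0
  · rw [hB0, zero_pow hp0, hx0, add_zero] at hBq
    exact hz0 hBq
  · rw [hC0, zero_pow hp0, hx0, zero_add] at hCq
    exact hy0 hCq
  · have hA0' : (A : ZMod q) = 0 := neg_eq_zero.mp hA0
    rw [hA0', zero_pow hp0] at hAq
    have hzy : -(z : ZMod q) = y := by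
      rw [neg_eq_iff_add_eq_zero, add_comm]; exact hAq
    have hαq : (α : ZMod q) ^ p = (p : ZMod q) * (y : ZMod q) ^ (p - 1) := by
      have := congrArg (Int.cast : ℤ → ZMod q) hα
      rw [sgPhi_cast, hzy, geom_sum₂_self] at this
      rw [this.symm.symm]
      push_cast
      ring
    have heven : Even (p - 1) := by
      obtain ⟨k, hk⟩ := hodd
      exact ⟨k, by omega⟩
    have hγq : (γ : ZMod q) ^ p = (y : ZMod q) ^ (p - 1) := by
      have := congrArg (Int.cast : ℤ → ZMod q) hγ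
      rw [sgPhi_cast, hx0] at this
      rw [Finset.sum_eq_single_of_mem 0 (by simp [hp.pos]) (fun i _ hi => by simp [hi])] at this
      simp only [pow_zero, one_mul, Nat.sub_zero, heven.neg_pow] at this
      rw [this]
      push_cast
      ring
    have hγ0 : (γ : ZMod q) ^ p ≠ 0 := by
      rw [hγq]; exact pow_ne_zero _ hy0
    apply h2 ((α : ZMod q) / (γ : ZMod q))
    rw [div_pow, hαq, hγq]
    rw [hγq] at hγ0
    field_simp

theorem sophieGermain {p q : ℕ} (hp : p.Prime) (hp2 : p ≠ 2) (hq : q.Prime)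
    (h1 : ∀ x y z : ZMod q, x ^ p + y ^ p + z ^ p = 0 → x = 0 ∨ y = 0 ∨ z = 0)
    (h2 : ∀ x : ZMod q, x ^ p ≠ (p : ZMod q)) : CaseI p := by
  have : Fact q.Prime := ⟨hq⟩
  have hodd : Odd p := hp.odd_of_ne_two hp2
  intro a b c hab hpabc habc
  have hp' : Prime (p : ℤ) := Nat.prime_iff_prime_int.mp hp
  have hpa : ¬ (p : ℤ) ∣ a := fun h => hpabc ((h.mul_right b).mul_right c)
  have hpb : ¬ (p : ℤ) ∣ b := fun h => hpabc ((h.mul_left a).mul_right c)
  have hpc : ¬ (p : ℤ) ∣ -c := fun h => hpabc ((dvd_neg.mp h).mul_left (a * b))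
  have hsum : a ^ p + b ^ p + (-c) ^ p = 0 := by
    rw [hodd.neg_pow, habc]; ring
  have hbc : IsCoprime b (-c) := by
    have h3 : IsCoprime b (c ^ p) := by
      rw [← habc]
      have : IsCoprime b (a ^ p) := (hab.symm).pow_right
      have h4 : b ^ p = b * b ^ (p - 1) := by
        rw [← pow_succ', Nat.sub_add_cancel hp.one_le]
      rw [h4]
      exact this.add_mul_left_right _
    exact ((IsCoprime.pow_right_iff hp.pos).mp h3).neg_right
  have hca : IsCoprime (-c) a := by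
    have h3 : IsCoprime (c ^ p) a := by
      rw [← habc]
      have : IsCoprime (b ^ p) a := (hab.symm).pow_left
      have h4 : a ^ p = a * a ^ (p - 1) := by
        rw [← pow_succ', Nat.sub_add_cancel hp.one_le]
      rw [h4, add_comm]
      exact this.add_mul_left_left _
    exact ((IsCoprime.pow_left_iff hp.pos).mp h3).neg_left
  have hmod : (a : ZMod q) ^ p + (b : ZMod q) ^ p + ((-c : ℤ) : ZMod q) ^ p = 0 := by
    exact_mod_cast congrArg (Int.cast : ℤ → ZMod q) hsum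
  rcases h1 _ _ _ hmod with h | h | h
  · exact sg_aux hp hodd h1 h2 hab hbc hca hpa hpb hpc hsum
      ((ZMod.intCast_zmod_eq_zero_iff_dvd a q).mp h)
  · exact sg_aux hp hodd h1 h2 hbc hca hab hpb hpc hpa (by linarith)
      ((ZMod.intCast_zmod_eq_zero_iff_dvd b q).mp h)
  · exact sg_aux hp hodd h1 h2 hca hab hbc hpc hpa hpb (by linarith)
      ((ZMod.intCast_zmod_eq_zero_iff_dvd (-c) q).mp h)

/-- Reduction of the hypothesis `h1` of Sophie Germain's theorem to a check on the (small) set of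
`p`-th powers. -/
lemma sg_h1_of_finset {p q : ℕ} (T : Finset (ZMod q))
    (hT : ∀ x : ZMod q, x ^ p ∈ T ∧ (x ^ p = 0 → x = 0))
    (hsum : ∀ u ∈ T, ∀ v ∈ T, ∀ w ∈ T, u + v + w = 0 → u = 0 ∨ v = 0 ∨ w = 0) :
    ∀ x y z : ZMod q, x ^ p + y ^ p + z ^ p = 0 → x = 0 ∨ y = 0 ∨ z = 0 := by
  intro x y z h
  rcases hsum _ (hT x).1 _ (hT y).1 _ (hT z).1 h with h | h | h
  · exact Or.inl ((hT x).2 h)
  · exact Or.inr (Or.inl ((hT y).2 h))
  · exact Or.inr (Or.inr ((hT z).2 h))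

theorem caseI_five : CaseI 5 :=
  sophieGermain (q := 11) (by norm_num) (by norm_num) (by norm_num)
    (sg_h1_of_finset {0, 1, 10} (by decide) (by decide)) (by decide)

theorem caseI_seven : CaseI 7 :=
  sophieGermain (q := 29) (by norm_num) (by norm_num) (by norm_num)
    (sg_h1_of_finset {0, 1, 12, 17, 28} (by decide) (by decide)) (by decide)

theorem caseI_eleven : CaseI 11 :=
  sophieGermain (q := 23) (by norm_num) (by norm_num) (by norm_num)
    (sg_h1_of_finset {0, 1, 22} (by decide) (by decide)) (by decide)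

set_option maxRecDepth 100000 in
theorem caseI_thirteen : CaseI 13 :=
  sophieGermain (q := 53) (by norm_num) (by norm_num) (by norm_num)
    (sg_h1_of_finset {0, 1, 23, 30, 52} (by decide) (by decide)) (by decide)

end Fermat.Agent.Lib.Kummer
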