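import Fermat.Agent.Lib.Kummer.Defs

/-!
# K-T2: the units of `𝓞 ℚ(ζ_p)` are generated by `(p-1)/2` elements (Dirichlet's unit theorem)
-/

set_option autoImplicit false

namespace Fermat.Agent.Lib.Kummer

open NumberField NumberField.Units NumberField.InfinitePlace

theorem rank_cyclotomic (p : ℕ) [Fact p.Prime] (hp : 3 ≤ p) (K : Type*) [Field K] [NumberField K]
    [IsCyclotomicExtension {p} ℚ K] : Units.rank K + 1 = (p - 1) / 2 := by
  have hp' : p.Prime := Fact.out
  have : NeZero p := ⟨hp'.ne_zero⟩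
  have h1 : nrRealPlaces K = 0 := IsCyclotomicExtension.Rat.nrRealPlaces_eq_zero (n := p) K (by omega)
  have h2 : nrComplexPlaces K = Nat.totient p / 2 :=
    IsCyclotomicExtension.Rat.nrComplexPlaces_eq_totient_div_two p K
  have h3 : Fintype.card (InfinitePlace K) = nrRealPlaces K + nrComplexPlaces K :=
    card_eq_nrRealPlaces_add_nrComplexPlaces K
  rw [Nat.totient_prime hp'] at h2
  have h4 : 1 ≤ (p - 1) / 2 := by omega
  unfold Units.rank
  omega

theorem unitsGenerated_cyclotomic (p : ℕ) [Fact p.Prime] (hp : 3 ≤ p) (K : Type*) [Field K]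
    [NumberField K] [IsCyclotomicExtension {p} ℚ K] : UnitsGenerated (𝓞 K) p := by
  obtain ⟨t, ht⟩ := IsCyclic.exists_generator (α := torsion K)
  refine ⟨Option (Fin (Units.rank K)), inferInstance,
    fun i => i.elim (t : (𝓞 K)ˣ) (fundSystem K), ?_, ?_⟩
  · rw [Fintype.card_option, Fintype.card_fin]
    exact rank_cyclotomic p hp K
  · intro u
    obtain ⟨⟨τ, e⟩, hu, -⟩ := exist_unique_eq_mul_prod K u
    obtain ⟨k, hk⟩ := Subgroup.mem_zpowers_iff.mp (ht τ)
    refine ⟨fun i => i.elim k e, ?_⟩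
    rw [Fintype.prod_option]
    simp only [Option.elim]
    rw [hu, ← hk]
    simp

end Fermat.Agent.Lib.Kummer
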