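import Fermat.Agent.Lib.Kummer.CaseII
import Fermat.Agent.Lib.Kummer.Glue
import Fermat.Agent.Lib.Kummer.SetupCyclo
import Fermat.Agent.Lib.Kummer.UnitsGenerated
import Fermat.Agent.Lib.Kummer.KummerLemma
import Fermat.Agent.Lib.Kummer.Certificate
import Fermat.Agent.Lib.Kummer.SophieGermain
import Fermat.Agent.Lib.Kummer.PID7
import Fermat.Agent.Lib.Kummer.PID11
import Fermat.Agent.Lib.Kummer.PID13

/-!
# FLT for the exponents `5, 7, 11, 13` (Kummer), and non-existence of the Frey packages
-/

set_option autoImplicit false

namespace Fermat.Agent.Lib.Kummer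

open NumberField

set_option backward.isDefEq.respectTransparency false in
/-- The second case of FLT for `p`, given that `ℤ[ζ_p]` is a PID and a unit certificate. -/
theorem caseII_of_pid_of_certificate (p : ℕ) [Fact p.Prime] (hp : 3 ≤ p)
    (hpid : IsPrincipalIdealRing (𝓞 (CyclotomicField p ℚ)))
    (hcert : ∀ {ζ : 𝓞 (CyclotomicField p ℚ)}, Setup (𝓞 (CyclotomicField p ℚ)) p ζ →
      UnitCertificate (𝓞 (CyclotomicField p ℚ)) p ζ) : CaseII p := by
  have hζ := IsCyclotomicExtension.zeta_spec p ℚ (CyclotomicField p ℚ)
  have S := setup_cyclotomic p hp (CyclotomicField p ℚ) hζ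
  have KL := kummerLemma_of_certificate S
    (unitsGenerated_cyclotomic p hp (CyclotomicField p ℚ)) (hcert S)
  exact caseII_of_caseIIGen S (caseIIGen_of_kummerLemma S KL)

set_option backward.isDefEq.respectTransparency false in
theorem caseII_five : CaseII 5 := by
  have : Fact (Nat.Prime 5) := ⟨by norm_num⟩
  exact caseII_of_pid_of_certificate 5 (by norm_num)
    (IsCyclotomicExtension.Rat.five_pid (CyclotomicField 5 ℚ)) unitCertificate_five

set_option backward.isDefEq.respectTransparency false in
theorem caseII_seven : CaseII 7 := by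
  have : Fact (Nat.Prime 7) := ⟨by norm_num⟩
  exact caseII_of_pid_of_certificate 7 (by norm_num)
    (pid_seven (CyclotomicField 7 ℚ)) unitCertificate_seven

set_option backward.isDefEq.respectTransparency false in
theorem caseII_eleven : CaseII 11 := by
  have : Fact (Nat.Prime 11) := ⟨by norm_num⟩
  exact caseII_of_pid_of_certificate 11 (by norm_num)
    (pid_eleven (CyclotomicField 11 ℚ)) unitCertificate_eleven

set_option backward.isDefEq.respectTransparency false in
theorem caseII_thirteen : CaseII 13 := by
  have : Fact (Nat.Prime 13) := ⟨by norm_num⟩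
  exact caseII_of_pid_of_certificate 13 (by norm_num)
    (pid_thirteen (CyclotomicField 13 ℚ)) unitCertificate_thirteen

theorem no_freyPackage_five (P : FreyPackage) (h : P.p = 5) : False :=
  no_freyPackage caseI_five caseII_five P h

theorem no_freyPackage_seven (P : FreyPackage) (h : P.p = 7) : False :=
  no_freyPackage caseI_seven caseII_seven P h

theorem no_freyPackage_eleven (P : FreyPackage) (h : P.p = 11) : False :=
  no_freyPackage caseI_eleven caseII_eleven P h

theorem no_freyPackage_thirteen (P : FreyPackage) (h : P.p = 13) : False :=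
  no_freyPackage caseI_thirteen caseII_thirteen P h

end Fermat.Agent.Lib.Kummer
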